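import Fermat.Agent.Global.Ext.Basic

/-!
Normal form of symmetric 2-cocycles on an elementary abelian `p`-group: up to coboundaries they are
combinations of carry cocycles.
-/

set_option autoImplicit false
set_option linter.unusedSectionVars false

noncomputable section

namespace FLTAgent.Global

variable {M : Type*} [AddCommGroup M] {A : Type*} [AddCommGroup A]

/-- A normalised symmetric cocycle. -/
structure NormCoc (M A : Type*) [AddCommGroup M] [AddCommGroup A] where
  fn : M → M → A
  comm : ∀ m n, fn m n = fn n m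
  coc : ∀ m n k, fn m n + fn (m + n) k = fn m (n + k) + fn n k
  zero : fn 0 0 = 0

lemma NormCoc.zero_left (a : NormCoc M A) (m : M) : a.fn 0 m = 0 := by
  have := a.coc 0 0 m
  rw [add_zero, a.zero, zero_add, zero_add] at this
  exact left_eq_add.1 this

/-- The extension attached to a normalised symmetric cocycle. -/
def CocGroup (_a : NormCoc M A) := A × M

instance (a : NormCoc M A) : Add (CocGroup a) :=
  ⟨fun x y => (x.1 + y.1 + a.fn x.2 y.2, x.2 + y.2)⟩

instance (a : NormCoc M A) : Zero (CocGroup a) := ⟨((0 : A), (0 : M))⟩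

instance (a : NormCoc M A) : Neg (CocGroup a) := ⟨fun x => (-x.1 - a.fn (-x.2) x.2, -x.2)⟩

instance (a : NormCoc M A) : AddCommGroup (CocGroup a) where
  add_assoc x y z := by
    refine Prod.ext ?_ (add_assoc _ _ _)
    show x.1 + y.1 + a.fn x.2 y.2 + z.1 + a.fn (x.2 + y.2) z.2
      = x.1 + (y.1 + z.1 + a.fn y.2 z.2) + a.fn x.2 (y.2 + z.2)
    have := sub_eq_zero.2 (a.coc x.2 y.2 z.2)
    rw [← sub_eq_zero, ← this]
    abel
  zero_add x := by
    refine Prod.ext ?_ (zero_add _)
    show 0 + x.1 + a.fn 0 x.2 = x.1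
    rw [a.zero_left, zero_add, add_zero]
  add_zero x := by
    refine Prod.ext ?_ (add_zero _)
    show x.1 + 0 + a.fn x.2 0 = x.1
    rw [a.comm, a.zero_left, add_zero, add_zero]
  neg_add_cancel x := by
    refine Prod.ext ?_ (neg_add_cancel _)
    show -x.1 - a.fn (-x.2) x.2 + x.1 + a.fn (-x.2) x.2 = 0
    abel
  add_comm x y := by
    refine Prod.ext ?_ (add_comm _ _)
    show x.1 + y.1 + a.fn x.2 y.2 = y.1 + x.1 + a.fn y.2 x.2
    rw [a.comm, add_comm x.1]
  nsmul := nsmulRec
  zsmul := zsmulRec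

namespace CocGroup

variable (a : NormCoc M A)

/-- Projection. -/
def proj : CocGroup a →+ M where
  toFun x := x.2
  map_zero' := rfl
  map_add' _ _ := rfl

/-- Inclusion. -/
def incl : A →+ CocGroup a where
  toFun w := (w, 0)
  map_zero' := rfl
  map_add' w w' := Prod.ext (by
    show w + w' = w + w' + a.fn 0 0
    rw [a.zero, add_zero]) (zero_add (0 : M)).symm

lemma fst_add (x y : CocGroup a) : (x + y).1 = x.1 + y.1 + a.fn x.2 y.2 := rfl

lemma fst_add_incl (x : CocGroup a) (w : A) : (x + incl a w).1 = x.1 + w := by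
  show x.1 + w + a.fn x.2 0 = _
  rw [a.comm, a.zero_left, add_zero]

lemma eq_incl {x : CocGroup a} (hx : proj a x = 0) : x = incl a x.1 := Prod.ext rfl hx

end CocGroup

variable {p : ℕ} [Fact p.Prime]

lemma exists_coord_aux [Module (ZMod p) M] [Finite M] :
    ∃ (d : ℕ) (e : Fin d → M) (J : Fin d → M → ℕ) (k : Fin d → M → M → ℕ),
      (∀ m, ∑ i, J i m • e i = m) ∧ ∀ i m n, J i m + J i n = J i (m + n) + p * k i m n := by
  have : Module.Finite (ZMod p) M := Module.Finite.of_finite
  have := NeZero.mk (Fact.out : p.Prime).ne_zero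
  let b := Module.finBasis (ZMod p) M
  refine ⟨_, b, fun i m => (b.repr m i).val, fun i m n => ((b.repr m i).val + (b.repr n i).val) / p,
    fun m => ?_, fun i m n => ?_⟩
  · conv_rhs => rw [← b.sum_repr m]
    refine Finset.sum_congr rfl fun i _ => ?_
    rw [← Nat.cast_smul_eq_nsmul (ZMod p), ZMod.natCast_zmod_val]
  · simp only [map_add, Finsupp.add_apply, ZMod.val_add]
    exact (Nat.mod_add_div _ _).symm

/-- Carries. -/
lemma exists_coord (hp : ∀ m : M, p • m = 0) [Finite M] :
    ∃ (d : ℕ) (e : Fin d → M) (J : Fin d → M → ℕ) (k : Fin d → M → M → ℕ),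
      (∀ m, ∑ i, J i m • e i = m) ∧ ∀ i m n, J i m + J i n = J i (m + n) + p * k i m n :=
  @exists_coord_aux M _ p _ (AddCommGroup.zmodModule hp) _

/-- **Normal form.** If every element of a subgroup `W` containing the values is in `ψ R + p W'`, the
cocycle is a coboundary with values in `W + W'` plus the image of a cocycle with values in `R`. -/
theorem exists_symForm [Finite M] (hp : ∀ m : M, p • m = 0) {B : Type*} [AddCommGroup B] {W W' : AddSubgroup A}
    (ψ : B →+ A) {R : AddSubgroup B} (hW : ∀ c ∈ W, ∃ y ∈ R, ∃ r ∈ W', c = ψ y + p • r)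
    {a : Fn (M × M) A} (ha : a ∈ symCoc) (haW : ∀ z, a z ∈ W) :
    ∃ φ : Fn M A, (∀ m, φ m ∈ W ⊔ W') ∧ ∃ γ : Fn (M × M) B, γ ∈ symCoc ∧ (∀ z, γ z ∈ R) ∧
      ∀ z, a z = del φ z + ψ (γ z) := by
  classical
  obtain ⟨d, e, J, k, hJ, hk⟩ := exists_coord (p := p) hp
  set a₀ : W := ⟨a (0, 0), haW _⟩ with ha₀
  let a' : NormCoc M W :=
    { fn := fun m n => ⟨a (m, n), haW _⟩ - a₀
      comm := fun m n => Subtype.ext (by simp [ha.1 m n])
      coc := fun m n l => by
        refine Subtype.ext ?_
        simp only [AddSubgroup.coe_add, AddSubgroup.coe_sub]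
        have := sub_eq_zero.2 (ha.2 m n l)
        rw [← sub_eq_zero, ← this]
        abel
      zero := sub_self _ }
  let g : Fin d → CocGroup a' := fun i => ((0 : W), e i)
  have hg : ∀ i, CocGroup.proj a' (g i) = e i := fun i => rfl
  let c : Fin d → W := fun i => (p • g i).1
  have hc : ∀ i, p • g i = CocGroup.incl a' (c i) := fun i =>
    CocGroup.eq_incl a' (by rw [map_nsmul, hg, hp])
  let s : M → CocGroup a' := fun m => ∑ i, J i m • g i
  have hs : ∀ m, (s m).2 = m := fun m => by
    show CocGroup.proj a' (s m) = m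
    simp only [s, map_sum, map_nsmul, hg, hJ]
  choose y hy r hr hcy using fun i => hW _ (c i).2
  have key : ∀ m n, ((s m).1 : A) + (s n).1 + (a (m, n) - a (0, 0))
      = (s (m + n)).1 + ∑ i, k i m n • (c i : A) := by
    intro m n
    have e1 : s m + s n = s (m + n) + CocGroup.incl a' (∑ i, k i m n • c i) := by
      simp only [s, map_sum, map_nsmul, ← hc, ← Finset.sum_add_distrib, ← add_nsmul, hk, ← mul_nsmul]
    have e2 := congrArg (fun x : CocGroup a' => ((x.1 : W) : A)) e1
    simp only [CocGroup.fst_add_incl] at e2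
    simp only [CocGroup.fst_add, hs, AddSubgroup.coe_add, AddSubmonoidClass.coe_finsetSum,
      AddSubmonoidClass.coe_nsmul] at e2
    exact e2
  refine ⟨fun m => a (0, 0) - ((s m).1 : A) + ∑ i, J i m • r i, fun m => ?_,
    fun z => ∑ i, k i z.1 z.2 • y i, ⟨fun m n => ?_, fun m n l => ?_⟩, fun z => ?_, ?_⟩
  · exact add_mem (AddSubgroup.mem_sup_left (W.sub_mem (haW _) (s m).1.2))
      (AddSubgroup.mem_sup_right (sum_mem fun i _ => W'.nsmul_mem (hr i) _))
  · refine Finset.sum_congr rfl fun i _ => ?_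
    dsimp only
    congr 1
    have h1 := hk i m n
    have h2 := hk i n m
    rw [add_comm n m] at h2
    exact Nat.eq_of_mul_eq_mul_left (Fact.out : p.Prime).pos (by omega)
  · show ∑ i, k i m n • y i + ∑ i, k i (m + n) l • y i
      = ∑ i, k i m (n + l) • y i + ∑ i, k i n l • y i
    simp only [← Finset.sum_add_distrib, ← add_nsmul]
    refine Finset.sum_congr rfl fun i _ => ?_
    congr 1
    have h1 := hk i m n
    have h2 := hk i (m + n) l
    have h3 := hk i m (n + l)
    have h4 := hk i n l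
    rw [← add_assoc] at h3
    refine Nat.eq_of_mul_eq_mul_left (Fact.out : p.Prime).pos ?_
    rw [mul_add, mul_add]
    omega
  · exact sum_mem fun i _ => R.nsmul_mem (hy i) _
  · rintro ⟨m, n⟩
    show a (m, n) = a (0, 0) - ((s m).1 : A) + ∑ i, J i m • r i
      + (a (0, 0) - ((s n).1 : A) + ∑ i, J i n • r i)
      - (a (0, 0) - ((s (m + n)).1 : A) + ∑ i, J i (m + n) • r i) + ψ (∑ i, k i m n • y i)
    simp only [map_sum, map_nsmul]
    have h1 : ∑ i, J i m • r i + ∑ i, J i n • r i
        = ∑ i, J i (m + n) • r i + ∑ i, k i m n • (p • r i) := by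
      simp only [← Finset.sum_add_distrib, ← mul_nsmul, ← add_nsmul, hk]
    have h2 := key m n
    simp only [hcy, nsmul_add, Finset.sum_add_distrib] at h2
    rw [← sub_eq_zero] at h1 h2 ⊢
    have h3 := congrArg₂ (· - ·) h2 h1
    simp only [sub_zero] at h3
    rw [← h3]
    abel

/-- A cocycle with values in a `p`-divisible group is a coboundary. -/
theorem exists_eq_del [Finite M] (hp : ∀ m : M, p • m = 0) {W W' : AddSubgroup A}
    (hW : ∀ c ∈ W, ∃ r ∈ W', c = p • r) {a : Fn (M × M) A} (ha : a ∈ symCoc)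
    (haW : ∀ z, a z ∈ W) : ∃ φ : Fn M A, (∀ m, φ m ∈ W ⊔ W') ∧ a = del φ := by
  obtain ⟨φ, hφ, γ, -, hγ, e⟩ := exists_symForm (R := ⊥) hp (AddMonoidHom.id A)
    (fun c hc => by obtain ⟨r, hr, e⟩ := hW c hc; exact ⟨0, zero_mem _, r, hr, by rw [map_zero, zero_add, e]⟩) ha haW
  exact ⟨φ, hφ, Fn.ext fun z => by rw [e z, AddSubgroup.mem_bot.1 (hγ z), map_zero, add_zero]⟩

end FLTAgent.Global
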