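import Fermat.Agent.Global.Ext.ClassModule

/-!
`E(M) = caps + norms` for a finite module killed by `p` over a class module for a `p`-group layer,
by dévissage on a trivial quotient line.
-/

set_option autoImplicit false
set_option linter.unusedSectionVars false

noncomputable section

namespace FLTAgent.Global

variable {Γ : Type*} [Group Γ] {A : Type*} [AddCommGroup A] [DistribMulAction Γ A] {N : Subgroup Γ}
  {p : ℕ} [Fact p.Prime]

lemma triv_fst {M : Type*} [AddCommGroup M] [DistribMulAction Γ M] (w : Fn M A) (m k : M) :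
    (triv w : Pre Γ M A).1 (m, k) = w m + w k - w (m + k) := rfl

lemma triv_snd {M : Type*} [AddCommGroup M] [DistribMulAction Γ M] (w : Fn M A) (g : Γ) (m : M) :
    (triv w : Pre Γ M A).2 g m = g • w (g⁻¹ • m) - w m := rfl

section additivity

variable {M : Type*} [AddCommGroup M] [DistribMulAction Γ M] {H : Subgroup Γ} {u : Γ → Γ → A}
  {w w' : Γ → M → ℤ}

lemma IsCycle.add' (hN : Lvl H N) (hw : IsCycle p H N w) (hw' : IsCycle p H N w') :
    IsCycle p H N (w + w') where
  lvl g hg s hs := by simp [hw.lvl g hg s hs, hw'.lvl g hg s hs]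
  add g hg m n := by
    have := dvd_add (hw.add g hg m n) (hw'.add g hg m n)
    rwa [show w g m + w g n - w g (m + n) + (w' g m + w' g n - w' g (m + n))
      = (w + w') g m + (w + w') g n - (w + w') g (m + n) by simp only [Pi.add_apply]; ring] at this
  cyc m := by
    rw [csum_congr H N (G := fun h => (w h (h • m) - w h m) + (w' h (h • m) - w' h m))
      (fun h _ => by simp only [Pi.add_apply]; ring), csum_add H N hN.fin]
    exact dvd_add (hw.cyc m) (hw'.cyc m)

lemma capExt_add (hN : Lvl H N) (hw : IsCycle p H N w) (hw' : IsCycle p H N w') :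
    ExtRel H (capExt p H N u (w + w') : Pre Γ M A) (capExt p H N u w + capExt p H N u w') := by
  have hp : (p : ℤ) ≠ 0 := Int.natCast_ne_zero.2 (Fact.out : p.Prime).ne_zero
  refine ExtRel.of_eq ?_ fun k _ => ?_
  · ext x
    rw [Prod.fst_add, Fn.add_apply, capExt_fst, capExt_fst, capExt_fst, ← csum_add H N hN.fin]
    refine csum_congr H N fun g _ => ?_
    rw [← csum_add H N hN.fin]
    refine csum_congr H N fun h hh => ?_
    rw [← add_smul]
    congr 1
    refine mul_left_cancel₀ hp ?_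
    rw [mul_add, (hw.add' hN hw').p_kap hh, hw.p_kap hh, hw'.p_kap hh]
    simp only [Pi.add_apply]; ring
  · ext m
    rw [Prod.snd_add, Pi.add_apply, Fn.add_apply, capExt_snd, capExt_snd, capExt_snd, ← neg_add,
      ← csum_add H N hN.fin]
    refine congrArg Neg.neg (csum_congr H N fun g _ => ?_)
    rw [← add_smul]
    congr 1
    refine mul_left_cancel₀ hp ?_
    rw [mul_add, (hw.add' hN hw').p_eta, hw.p_eta, hw'.p_eta, ← csum_add H N hN.fin]
    exact csum_congr H N fun h _ => by simp only [Pi.add_apply]; ring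

lemma normExt_add (hN : Lvl H N) (a a' : Fn (M × M) A) :
    (normExt H N (a + a') : Pre Γ M A) = normExt H N a + normExt H N a' := by
  refine Prod.ext ?_ (add_zero _).symm
  exact normTo_add hN a a'

end additivity

/-- A subgroup stable under the group inherits its action. -/
@[reducible] def stableAction {M : Type*} [AddCommGroup M] [DistribMulAction Γ M] (S : AddSubgroup M)
    (h : ∀ g : Γ, ∀ m ∈ S, g • m ∈ S) : DistribMulAction Γ S where
  smul g m := ⟨g • (m : M), h g m m.2⟩
  one_smul m := Subtype.ext (one_smul Γ (m : M))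
  mul_smul g k m := Subtype.ext (mul_smul g k (m : M))
  smul_zero g := Subtype.ext (smul_zero g)
  smul_add g m n := Subtype.ext (smul_add g (m : M) n)

theorem finite_zmodDual (p : ℕ) [Fact p.Prime] (M : Type*) [AddCommGroup M] [Module (ZMod p) M]
    [Finite M] : Finite (Module.Dual (ZMod p) M) :=
  Module.finite_of_finite (ZMod p)

/-- A nonzero module killed by `p` has a nonzero invariant functional. -/
theorem exists_invariant_functional {M : Type*} [AddCommGroup M] [DistribMulAction Γ M] [Finite M]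
    [Nontrivial M] (hN : Lvl ⊤ N) {a : ℕ} (ha : N.relIndex ⊤ = p ^ a)
    (hM : ∀ s ∈ N, ∀ m : M, s • m = m) (hp : ∀ m : M, p • m = 0) :
    ∃ χ : M →+ TrivMod p, (∀ g : Γ, ∀ m, χ (g • m) = χ m) ∧ ∃ s, tval (χ s) = 1 := by
  have hpp : p.Prime := Fact.out
  have : Module (ZMod p) M := AddCommGroup.zmodModule hp
  have : N.Normal := ⟨fun x hx g => by simpa using hN.conj g⁻¹ trivial x hx⟩
  let act : Γ →* Equiv.Perm (Module.Dual (ZMod p) M) :=
    { toFun := fun g =>
        { toFun := fun χ => (χ.toAddMonoidHom.comp (DistribSMul.toAddMonoidHom M g⁻¹)).toZModLinearMap p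
          invFun := fun χ => (χ.toAddMonoidHom.comp (DistribSMul.toAddMonoidHom M g)).toZModLinearMap p
          left_inv := fun χ => by ext m; simp
          right_inv := fun χ => by ext m; simp }
      map_one' := by ext χ m; simp
      map_mul' := fun g h => by ext χ m; simp [mul_smul] }
  have hker : N ≤ act.ker := fun s hs => by
    rw [MonoidHom.mem_ker]; ext χ m
    simp [act, hM _ (N.inv_mem hs)]
  let ψ := QuotientGroup.lift N act hker
  have hPG : IsPGroup p (Γ ⧸ N) := by
    refine IsPGroup.of_card (n := a) ?_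
    rwa [← Subgroup.index_eq_card, ← Subgroup.relIndex_top_right]
  have hR : IsPGroup p ψ.range := hPG.of_surjective ψ.rangeRestrict ψ.rangeRestrict_surjective
  have : Finite (Module.Dual (ZMod p) M) := finite_zmodDual p M
  have hfix := hR.card_modEq_card_fixedPoints (Module.Dual (ZMod p) M)
  have hD : p ∣ Nat.card (Module.Dual (ZMod p) M) := by
    rw [Module.natCard_eq_pow_finrank (K := ZMod p), Nat.card_zmod]
    refine dvd_pow_self p fun h => ?_
    rw [Subspace.dual_finrank_eq, Module.finrank_eq_zero_iff_of_free] at h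
    exact (not_subsingleton M) h
  have hF : p ∣ Nat.card (MulAction.fixedPoints ψ.range (Module.Dual (ZMod p) M)) := (Nat.ModEq.dvd_iff hfix dvd_rfl).1 hD
  have : Nonempty (MulAction.fixedPoints ψ.range (Module.Dual (ZMod p) M)) := ⟨⟨0, fun g => by
    obtain ⟨x, hx⟩ := g.2
    obtain ⟨y, rfl⟩ := QuotientGroup.mk_surjective x
    show (g : Equiv.Perm (Module.Dual (ZMod p) M)) 0 = 0
    rw [← hx]; ext m; simp [ψ, act]⟩⟩
  have h1 : 1 < Nat.card (MulAction.fixedPoints ψ.range (Module.Dual (ZMod p) M)) :=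
    lt_of_lt_of_le hpp.one_lt (Nat.le_of_dvd Nat.card_pos hF)
  have := Finite.one_lt_card_iff_nontrivial.1 h1
  obtain ⟨⟨χ, hχ⟩, hne⟩ := exists_ne (⟨0, fun g => by
    obtain ⟨x, hx⟩ := g.2
    obtain ⟨y, rfl⟩ := QuotientGroup.mk_surjective x
    show (g : Equiv.Perm (Module.Dual (ZMod p) M)) 0 = 0
    rw [← hx]; ext m; simp [ψ, act]⟩ : MulAction.fixedPoints ψ.range (Module.Dual (ZMod p) M))
  have hχ0 : χ ≠ 0 := fun h => hne (Subtype.ext h)
  obtain ⟨s₀, hs₀⟩ : ∃ s, χ s ≠ 0 := by
    by_contra h; push Not at h; exact hχ0 (LinearMap.ext h)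
  refine ⟨(χ.toAddMonoidHom : M →+ ZMod p), fun g m => ?_, (χ s₀)⁻¹ • s₀, ?_⟩
  · have e := hχ ⟨act g⁻¹, QuotientGroup.mk g⁻¹, rfl⟩
    have e' := DFunLike.congr_fun e m
    show χ (g • m) = χ m
    simpa [act, Equiv.Perm.smul_def, MulAction.compHom_smul_def, Subgroup.smul_def] using e'
  · show (χ ((χ s₀)⁻¹ • s₀)).val = 1
    rw [map_smul, smul_eq_mul, inv_mul_cancel₀ hs₀, ZMod.val_one]

variable {u : Γ → Γ → A}

/-- **Decomposition**: every extension is a cap product plus a norm. -/
theorem ClassModule.decomp.{v} (hC : ClassModule p ⊤ N u) :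
    ∀ (M : Type v) [AddCommGroup M] [DistribMulAction Γ M] [Finite M],
      (∀ s ∈ N, ∀ m : M, s • m = m) → (∀ m : M, p • m = 0) →
      ∀ e : Pre Γ M A, IsExt ⊤ N e →
        ∃ w : Γ → M → ℤ, IsCycle p ⊤ N w ∧ ∃ a₀ : Fn (M × M) A, a₀ ∈ symCoc ∧
          (∀ s ∈ N, s • a₀ = a₀) ∧ ExtRel ⊤ e (capExt p ⊤ N u w + normExt ⊤ N a₀) := by
  intro M _ _ _
  induction hn : Nat.card M using Nat.strong_induction_on generalizing M with
  | _ n ih =>
  intro hM hpM e he
  classical
  have hp : p.Prime := Fact.out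
  have := NeZero.mk hp.ne_zero
  have hpz : (p : ℤ) ≠ 0 := Int.natCast_ne_zero.2 hp.ne_zero
  have hN := hC.lvl
  rcases subsingleton_or_nontrivial M with hsub | hnt
  · -- the zero module
    have hzc : IsCycle p ⊤ N (0 : Γ → M → ℤ) :=
      ⟨fun _ _ _ _ => rfl, fun _ _ _ _ => by simp, fun m => by simp [csum_zero]⟩
    refine ⟨0, hzc, 0, symCoc.zero_mem, fun s _ => smul_zero s, ?_⟩
    have hcap : (capExt p ⊤ N u (0 : Γ → M → ℤ) + normExt ⊤ N 0 : Pre Γ M A) = 0 := by
      refine Prod.ext ?_ ?_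
      · ext x
        simp [capExt_fst, kap, csum_zero, normExt, normTo, Fn.zero_apply, Fn.add_apply]
      · funext g; ext x
        simp [capExt_snd, eta, csum_zero, normExt, Fn.zero_apply, Fn.add_apply]
    rw [hcap]
    refine ⟨((fun _ => e.1 (0, 0)) : Fn M A), ?_, fun g hg => ?_⟩
    · ext ⟨m, k⟩
      rw [Prod.fst_zero, sub_zero]
      show e.1 (m, k) = e.1 (0, 0) + e.1 (0, 0) - e.1 (0, 0)
      rw [Subsingleton.elim m 0, Subsingleton.elim k 0]
      abel
    · ext m
      have h1 := congrArg (fun w : Fn (M × M) A => w (0, 0)) (he.eqv g hg)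
      simp only [Fn.sub_apply, Fn.smul_apply, Prod.smul_mk, smul_zero, del_apply, add_zero,
        add_sub_cancel_right] at h1
      rw [Prod.snd_zero, Pi.zero_apply, sub_zero]
      show e.2 g m = g • e.1 (0, 0) - e.1 (0, 0)
      rw [Subsingleton.elim m 0, h1]
  obtain ⟨a, ha⟩ := hC.pow
  obtain ⟨χ, hχ, s, hs⟩ := exists_invariant_functional hN ha hM hpM
  let S := χ.ker
  have hS : ∀ g : Γ, ∀ m ∈ S, g • m ∈ S := fun g m hm => by
    rw [AddMonoidHom.mem_ker, hχ]; exact hm
  let : DistribMulAction Γ S := stableAction S hS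
  have hsmulS : ∀ (g : Γ) (x : S), ((g • x : S) : M) = g • (x : M) := fun _ _ => rfl
  -- coordinates
  let J : M → ℕ := fun m => tval (χ m)
  have hJlt : ∀ m, J m < p := fun m => ZMod.val_lt _
  have hJadd : ∀ m k, J (m + k) = (J m + J k) % p := fun m k => by simp only [J, map_add, tval_add]
  have hJs : ∀ j < p, J (j • s) = j := by
    intro j hj
    induction j with
    | zero => simp [J, tval_zero]
    | succ j ihj =>
      rw [succ_nsmul, hJadd, ihj (Nat.lt_of_succ_lt hj), show J s = 1 from hs, Nat.mod_eq_of_lt hj]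
  have hJS : ∀ x : M, x ∈ S ↔ J x = 0 := fun x => by
    rw [AddMonoidHom.mem_ker]
    exact ⟨fun h => by simp [J, h, tval_zero], fun h => (ZMod.val_eq_zero _).1 h⟩
  have hred : ∀ j, (j % p) • s = j • s := fun j => by
    conv_rhs => rw [← Nat.mod_add_div j p, add_nsmul, mul_nsmul, hpM]
    simp
  have hmem : ∀ m, m - J m • s ∈ S := by
    intro m
    rw [AddMonoidHom.mem_ker, map_sub, sub_eq_zero]
    apply ZMod.val_injective p
    exact (hJs _ (hJlt m)).symm
  let π : M →+ S :=
    { toFun := fun m => ⟨m - J m • s, hmem m⟩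
      map_zero' := Subtype.ext (by simp [J, tval_zero])
      map_add' := fun m k => Subtype.ext (by
        simp only [AddSubgroup.coe_add, hJadd, hred, add_nsmul]; abel) }
  have hπ : ∀ m, (π m : M) = m - J m • s := fun m => rfl
  have hπS : ∀ x : S, π x = x := fun x => Subtype.ext (by simp [hπ, (hJS _).1 x.2])
  have hπN : ∀ g ∈ N, ∀ m, π (g • m) = π m := fun g hg m => by rw [hM g hg m]
  -- restriction to `S`
  let eS : Pre Γ S A := (fun x => e.1 ((x.1 : M), (x.2 : M)), fun g x => e.2 g (x : M))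
  have heS : IsExt ⊤ N eS := by
    refine ⟨⟨fun x y => he.sym.1 _ _, fun x y z => ?_⟩, ⟨fun g hg r hr => ?_, fun g hg k hk => ?_⟩, fun g hg => ?_⟩
    · simpa [eS] using he.sym.2 (x : M) y z
    · ext x; exact congrArg (fun w : Fn M A => w (x : M)) (he.coc.1 g hg r hr)
    · ext x
      have := congrArg (fun w : Fn M A => w (x : M)) (he.coc.2 g hg k hk)
      rw [Fn.add_apply, Fn.smul_apply]
      show e.2 (g * k) (x : M) = g • e.2 k ((g⁻¹ • x : S) : M) + e.2 g (x : M)
      simpa [Fn.add_apply, Fn.smul_apply, hsmulS] using this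
    · ext ⟨x, y⟩
      have := congrArg (fun w : Fn (M × M) A => w ((x : M), (y : M))) (he.eqv g hg)
      rw [Fn.sub_apply, Fn.smul_apply, del_apply]
      show g • e.1 (((g⁻¹ • x : S) : M), ((g⁻¹ • y : S) : M)) - e.1 ((x : M), (y : M))
        = e.2 g (x : M) + e.2 g (y : M) - e.2 g ((x : M) + y)
      simpa [Fn.sub_apply, Fn.smul_apply, del_apply, hsmulS] using this
  have hcard : Nat.card S < n := by
    rw [← hn]
    refine Finite.card_subtype_lt (x := s) fun h => ?_
    have := (hJS s).1 h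
    rw [show J s = 1 from hs] at this
    exact one_ne_zero this
  have hMS : ∀ r ∈ N, ∀ x : S, r • x = x := fun r hr x => Subtype.ext (hM r hr x)
  obtain ⟨wS, hwS, a₀, ha₀, ha₀N, hrel⟩ :=
    ih _ hcard S rfl hMS (fun x => Subtype.ext (hpM x)) eS heS
  obtain ⟨wR, hR1, hR2⟩ := hrel
  -- the lifted cycle
  let W : Γ → M → ℤ := fun g m => wS g (π m)
  have hWl : ∀ g ∈ (⊤ : Subgroup Γ), ∀ r ∈ N, W (g * r) = W g := fun g hg r hr => by
    funext m; simp only [W, hwS.lvl g hg r hr]
  have hWadd : ∀ g ∈ (⊤ : Subgroup Γ), ∀ m k, (p : ℤ) ∣ W g m + W g k - W g (m + k) := fun g hg m k => by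
    simp only [W, map_add]; exact hwS.add g hg _ _
  have hωadd : ∀ m k, (p : ℤ) ∣ csum ⊤ N (fun h => W h (h • m) - W h m)
      + csum ⊤ N (fun h => W h (h • k) - W h k) - csum ⊤ N (fun h => W h (h • (m + k)) - W h (m + k)) := by
    intro m k
    rw [← csum_add _ _ hN.fin, ← csum_sub hN, csum_congr ⊤ N (G := fun h => (p : ℤ) •
      (kap p W h (h • m, h • k) - kap p W h (m, k))) (fun h hh => ?_), ← zsmul_csum hN, smul_eq_mul]
    · exact dvd_mul_right _ _
    · rw [smul_eq_mul, mul_sub, kap, kap, Int.mul_ediv_cancel' (hWadd h hh _ _),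
        Int.mul_ediv_cancel' (hWadd h hh _ _), ← smul_add h m k]
      ring
  have hωS : ∀ x : S, (p : ℤ) ∣ csum ⊤ N (fun h => W h (h • (x : M)) - W h x) := fun x => by
    simpa [W, ← hsmulS, hπS] using hwS.cyc x
  have hf0mem : ∀ g : Γ, g • s - s ∈ S := fun g => by
    rw [AddMonoidHom.mem_ker, map_sub, hχ, sub_self]
  let f₀ : Γ → S := fun g => ⟨g • s - s, hf0mem g⟩
  have hf₀ : IsZ1 ⊤ N f₀ := by
    refine ⟨fun g _ r hr => Subtype.ext (by simp [f₀, mul_smul, hM r hr]), fun g _ k _ => Subtype.ext ?_⟩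
    simp [f₀, hsmulS, mul_smul, smul_sub]
  have hωs : (p : ℤ) ∣ csum ⊤ N (fun h => W h (h • s) - W h s) := by
    obtain ⟨k, hk, hpair⟩ := exists_isB2_pairC_capExt hN hMS hp.ne_zero hC.z2 hwS hf₀
    have h1 : IsB2 ⊤ N (pairC eS f₀) := (isB2_pairC_dd0 hN hM he s).congr fun g _ l _ => by
      simp [pairC, eS, f₀, hsmulS, dd0]
    have h2 : IsB2 ⊤ N (pairC (capExt p ⊤ N u wS + normExt ⊤ N a₀) f₀) := by
      have h3 : IsB2 ⊤ N (pairC (triv wR : Pre Γ S A) f₀) := by
        refine ⟨fun x => wR (f₀ x), fun g hg r hr => by dsimp only; rw [hf₀.1 g hg r hr],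
          fun g hg l hl => pairC_triv hf₀ wR hg hl⟩
      refine (h1.sub h3).congr fun g hg l hl => ?_
      have ea := congrArg (fun w : Fn (S × S) A => w (f₀ g, g • f₀ l)) hR1
      have eb := congrArg (fun w : Fn S A => w (g • f₀ l)) (hR2 g hg)
      simp only [Fn.sub_apply] at ea eb
      simp only [Pi.sub_apply, pairC, triv, AddMonoidHom.coe_mk, ZeroHom.coe_mk]
      rw [← ea, ← eb]
      abel
    have hku : IsB2 ⊤ N (fun g l => k • u g l) :=
      ((h2.sub (isB2_pairC_normExt hN hMS ha₀ ha₀N hf₀)).sub hpair).congr fun g _ l _ => by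
        simp only [Pi.sub_apply, pairC_add]; abel
    obtain ⟨c, hc⟩ := hC.order k hku
    have hn0 : (N.relIndex ⊤ : ℤ) ≠ 0 := by rw [ha]; exact_mod_cast pow_ne_zero a hp.ne_zero
    have hz : zval ⊤ N wS f₀ = p * c := by
      rw [hc, mul_left_comm] at hk
      exact (mul_left_cancel₀ hn0 hk).symm
    have hdiff : csum ⊤ N (fun h => W h (h • s) - W h s) - zval ⊤ N wS f₀
        = csum ⊤ N (fun h => (p : ℤ) • (-kap p wS h (f₀ h, π s))) := by
      rw [zval, ← csum_sub hN]
      refine csum_congr ⊤ N fun h hh => ?_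
      rw [smul_eq_mul, mul_neg, hwS.p_kap hh]
      have e : π (h • s) = f₀ h + π s := Subtype.ext (by
        simp only [hπ, f₀, AddSubgroup.coe_add, J, hχ]; abel)
      simp only [W, e]; ring
    rw [← zsmul_csum hN, smul_eq_mul] at hdiff
    rw [← sub_add_cancel (csum ⊤ N _) (zval ⊤ N wS f₀), hdiff, hz]
    exact dvd_add (dvd_mul_right _ _) (dvd_mul_right _ _)
  have hW : IsCycle p ⊤ N W := by
    refine ⟨hWl, hWadd, fun m => ?_⟩
    have key : ∀ j : ℕ, (p : ℤ) ∣ csum ⊤ N (fun h => W h (h • (j • s)) - W h (j • s)) := by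
      intro j
      induction j with
      | zero => simp [W, csum_zero]
      | succ j ihj =>
        rw [succ_nsmul]
        exact (dvd_sub_right (dvd_add ihj hωs)).1 (hωadd (j • s) s)
    have := (dvd_sub_right (dvd_add (key (J m)) (hωS (π m)))).1 (hωadd (J m • s) (π m : M))
    rwa [hπ, add_sub_cancel] at this
  -- the lifted norm datum
  let aM : Fn (M × M) A := fun x => a₀ (π x.1, π x.2)
  have haM : aM ∈ symCoc := ⟨fun m k => ha₀.1 _ _, fun m k l => by
    simp only [aM, map_add]; exact ha₀.2 _ _ _⟩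
  have haMN : ∀ r ∈ N, r • aM = aM := fun r hr => by
    ext ⟨m, k⟩
    rw [Fn.smul_apply]
    simp only [aM, Prod.smul_mk, hπN _ (N.inv_mem hr)]
    exact apply_fixed_of_fixed (fun _ _ => hMS _ ‹_›) (fun t ht x => by ext <;> simp [hMS t ht])
      ha₀N hr (π m, π k)
  -- subtract, so that the result vanishes on `S`
  have hrelN : ∀ r ∈ N, r • wR = wR := fun r hr => by
    have h := hR2 r trivial
    have e1 : eS.2 r = 0 := heS.coc.apply_of_mem hr
    have e2 : (capExt p ⊤ N u wS + normExt ⊤ N a₀ : Pre Γ S A).2 r = 0 :=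
      ((isExt_capExt hN hMS hp.ne_zero hC.z2 hwS).add (isExt_normExt hN ha₀ ha₀N)).coc.apply_of_mem hr
    rw [e1, e2, sub_zero, dd0, eq_comm, sub_eq_zero] at h
    exact h
  let we : Fn M A := fun m => wR (π m)
  have hweN : ∀ r ∈ N, r • we = we := fun r hr => by
    ext m
    rw [Fn.smul_apply]
    simp only [we, hπN _ (N.inv_mem hr)]
    exact apply_fixed_of_fixed (fun _ _ => hMS _ ‹_›) hMS hrelN hr (π m)
  let e2 : Pre Γ M A := e - (capExt p ⊤ N u W + normExt ⊤ N aM) - triv we
  have he2 : IsExt ⊤ N e2 :=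
    (he.sub ((isExt_capExt hN hM hp.ne_zero hC.z2 hW).add (isExt_normExt hN haM haMN))).sub
      (isExt_triv hweN)
  have hz1 : ∀ x y : M, x ∈ S → y ∈ S → e2.1 (x, y) = 0 := by
    intro x y hx hy
    have ea := congrArg (fun w : Fn (S × S) A => w (⟨x, hx⟩, ⟨y, hy⟩)) hR1
    have hcap : (capExt p ⊤ N u W + normExt ⊤ N aM : Pre Γ M A).1 (x, y)
        = (capExt p ⊤ N u wS + normExt ⊤ N a₀ : Pre Γ S A).1 (⟨x, hx⟩, ⟨y, hy⟩) := by
      simp only [Prod.fst_add, Fn.add_apply, capExt_fst, normExt, normTo, eval_csum hN, Fn.smul_apply]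
      congr 1
      · refine csum_congr ⊤ N fun g _ => csum_congr ⊤ N fun h _ => ?_
        have ex : π (g⁻¹ • x) = g⁻¹ • (⟨x, hx⟩ : S) := hπS (g⁻¹ • (⟨x, hx⟩ : S))
        have ey : π (g⁻¹ • y) = g⁻¹ • (⟨y, hy⟩ : S) := hπS (g⁻¹ • (⟨y, hy⟩ : S))
        simp only [kap, W, Prod.smul_fst, Prod.smul_snd, map_add, ex, ey]
      · refine csum_congr ⊤ N fun g _ => ?_
        have ex : π (g⁻¹ • x) = g⁻¹ • (⟨x, hx⟩ : S) := hπS (g⁻¹ • (⟨x, hx⟩ : S))
        have ey : π (g⁻¹ • y) = g⁻¹ • (⟨y, hy⟩ : S) := hπS (g⁻¹ • (⟨y, hy⟩ : S))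
        simp only [aM, Prod.smul_mk, ex, ey]
    have hwe : ∀ z : S, we (z : M) = wR z := fun z => congrArg wR (hπS z)
    simp only [Fn.sub_apply, del_apply] at ea
    simp only [e2, Prod.fst_sub, Fn.sub_apply, hcap, triv_fst]
    rw [hwe ⟨x, hx⟩, hwe ⟨y, hy⟩, show x + y = (((⟨x, hx⟩ : S) + ⟨y, hy⟩ : S) : M) from rfl, hwe,
      ← ea]
    simp [eS]
  have hz2 : ∀ g, ∀ x ∈ S, e2.2 g x = 0 := by
    intro g x hx
    have eb := congrArg (fun w : Fn S A => w ⟨x, hx⟩) (hR2 g trivial)
    have hcap : (capExt p ⊤ N u W + normExt ⊤ N aM : Pre Γ M A).2 g x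
        = (capExt p ⊤ N u wS + normExt ⊤ N a₀ : Pre Γ S A).2 g ⟨x, hx⟩ := by
      simp only [Prod.snd_add, Pi.add_apply, Fn.add_apply, capExt_snd, normExt, Pi.zero_apply,
        Fn.zero_apply, add_zero]
      refine congrArg Neg.neg (csum_congr ⊤ N fun k _ => ?_)
      simp only [eta]
      congr 3
      funext h
      have e1 : π ((g * k)⁻¹ • x) = (g * k)⁻¹ • (⟨x, hx⟩ : S) := hπS ((g * k)⁻¹ • (⟨x, hx⟩ : S))
      have e2 : π (h • (g * k)⁻¹ • x) = h • (g * k)⁻¹ • (⟨x, hx⟩ : S) :=
        hπS (h • (g * k)⁻¹ • (⟨x, hx⟩ : S))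
      simp only [W, e1, e2]
    have hwe : we (g⁻¹ • x) = wR (g⁻¹ • (⟨x, hx⟩ : S)) := congrArg wR (hπS (g⁻¹ • (⟨x, hx⟩ : S)))
    have hwe' : we x = wR ⟨x, hx⟩ := congrArg wR (hπS ⟨x, hx⟩)
    simp only [Fn.sub_apply, dd0, Fn.smul_apply] at eb
    simp only [e2, Prod.snd_sub, Pi.sub_apply, Fn.sub_apply, hcap, triv_snd, hwe, hwe', ← eb]
    simp [eS]
  -- make the first component factor through `χ`
  have h00 : ∀ m, e2.1 (m, 0) = 0 := fun m => by
    have := he2.sym.2 m 0 0
    simp only [add_zero, hz1 0 0 S.zero_mem S.zero_mem] at this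
    exact add_left_cancel (this.trans (add_zero _).symm)
  let w2 : Fn M A := fun m => -e2.1 (J m • s, (π m : M))
  have hfixM : ∀ r ∈ N, ∀ (b : Fn M A), (∀ m, r • b m = b m) → r • b = b := fun r hr b hb => by
    ext m; rw [Fn.smul_apply, hM _ (N.inv_mem hr), hb]
  have hval2 : ∀ r ∈ N, ∀ x : M × M, r • e2.1 x = e2.1 x := fun r hr x => by
    have h := he2.eqv r trivial
    rw [he2.coc.apply_of_mem hr, map_zero, sub_eq_zero] at h
    exact apply_fixed_of_fixed (fun _ _ => hMS _ ‹_›) (fun t ht y => by ext <;> simp [hM t ht])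
      (fun t ht => by
        have h := he2.eqv t trivial
        rwa [he2.coc.apply_of_mem ht, map_zero, sub_eq_zero] at h) hr x
  have hw2N : ∀ r ∈ N, r • w2 = w2 := fun r hr => hfixM r hr _ fun m => by
    simp only [w2, smul_neg, hval2 r hr]
  let e3 : Pre Γ M A := e2 - triv w2
  have he3 : IsExt ⊤ N e3 := he2.sub (isExt_triv hw2N)
  have hw2S : ∀ x ∈ S, w2 x = 0 := fun x hx => by
    have e1 : J x = 0 := (hJS x).1 hx
    simp only [w2, e1, zero_nsmul, hz1 0 _ S.zero_mem (π x).2, neg_zero]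
  have h3a : ∀ j < p, ∀ x ∈ S, e3.1 (j • s, x) = 0 := by
    intro j hj x hx
    have e1 : J (j • s + x) = j := by rw [hJadd, hJs j hj, (hJS x).1 hx, add_zero, Nat.mod_eq_of_lt hj]
    have e2' : (π (j • s + x) : M) = x := by rw [hπ, e1, add_sub_cancel_left]
    have e3' : (π (j • s) : M) = 0 := by rw [hπ, hJs j hj, sub_self]
    simp only [e3, Prod.fst_sub, Fn.sub_apply, triv_fst, hw2S x hx, add_zero]
    simp only [w2, hJs j hj, e1, e2', e3', h00]
    abel
  have h3b : ∀ g, ∀ x ∈ S, e3.2 g x = 0 := fun g x hx => by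
    simp only [e3, Prod.snd_sub, Pi.sub_apply, Fn.sub_apply, hz2 g x hx, triv_snd,
      hw2S x hx, hw2S _ (hS g⁻¹ x hx), smul_zero, sub_zero]
  have h3S : ∀ m, ∀ x ∈ S, e3.1 (m, x) = 0 := by
    intro m x hx
    have := he3.sym.2 (J m • s) (π m : M) x
    rw [h3a _ (hJlt m) _ (π m).2, h3a _ (hJlt m) _ (S.add_mem (π m).2 hx)] at this
    have h' : J m • s + (π m : M) = m := by rw [hπ, add_sub_cancel]
    rw [h', zero_add, zero_add] at this
    rw [this]
    have : e3.1 ((π m : M), x) = 0 := by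
      have e0 : (0 : ℕ) • s = 0 := zero_nsmul s
      have := he3.sym.2 (0 : M) (π m : M) x
      rw [zero_add, ← e0, h3a 0 hp.pos _ (π m).2, h3a 0 hp.pos _ (S.add_mem (π m).2 hx)] at this
      simp only [zero_add] at this
      have hzS : ∀ y ∈ S, ∀ z ∈ S, e3.1 (y, z) = 0 := fun y hy z hz => by
        simp [e3, triv_fst, Fn.sub_apply, hz1 y z hy hz, hw2S y hy, hw2S z hz,
          hw2S _ (S.add_mem hy hz)]
      exact hzS _ (π m).2 _ hx
    exact this
  have h3inv : ∀ m k, ∀ x ∈ S, e3.1 (m + x, k) = e3.1 (m, k) := by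
    intro m k x hx
    have := he3.sym.2 x m k
    rw [he3.sym.1 x m, he3.sym.1 x (m + k), h3S m x hx, h3S _ x hx, zero_add, zero_add, add_comm x m] at this
    exact this
  have h3binv : ∀ g m, ∀ x ∈ S, e3.2 g (m + x) = e3.2 g m := by
    intro g m x hx
    have := congrArg (fun w : Fn (M × M) A => w (m, x)) (he3.eqv g trivial)
    simp only [Fn.sub_apply, Fn.smul_apply, Prod.smul_mk, h3S m x hx, h3S _ _ (hS g⁻¹ x hx),
      smul_zero, sub_zero, del_apply, h3b g x hx, add_zero] at this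
    exact (sub_eq_zero.1 this.symm).symm
  have hfac : ∀ m k, e3.1 (m, k) = e3.1 (J m • s, J k • s) := by
    intro m k
    have hk' : ∀ m, J m • s + (π m : M) = m := fun m => by rw [hπ, add_sub_cancel]
    conv_lhs => rw [← hk' m, h3inv _ _ _ (π m).2, he3.sym.1, ← hk' k, h3inv _ _ _ (π k).2, he3.sym.1]
  let F : ℕ → A := fun j => ∑ i ∈ Finset.range j, e3.1 (i • s, s)
  have hF : ∀ j k, e3.1 (j • s, k • s) = F (j + k) - F j - F k := by
    intro j k
    induction k with
    | zero => rw [zero_nsmul, h3S _ 0 S.zero_mem, Nat.add_zero]; simp [F]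
    | succ k ihk =>
      have := he3.sym.2 (j • s) (k • s) s
      rw [← add_nsmul, ← succ_nsmul, ihk] at this
      rw [← add_assoc]
      simp only [F, Finset.sum_range_succ] at this ⊢
      rw [← sub_eq_zero] at this ⊢
      rw [← neg_eq_zero, ← this]; abel
  have hFp : ∀ j, F (p + j) = F p + F j := by
    intro j
    simp only [F, Finset.sum_range_add]
    congr 1
    refine Finset.sum_congr rfl fun i _ => ?_
    rw [add_nsmul, hpM, zero_add]
  let c := F p
  let car : M → M → ℕ := fun m k => (J m + J k) / p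
  have hcar : ∀ m k, e3.1 (m, k) = car m k • c + F (J (m + k)) - F (J m) - F (J k) := by
    intro m k
    rw [hfac, hF, hJadd]
    have h1 := hJlt m
    have h2 := hJlt k
    rcases lt_or_ge (J m + J k) p with h | h
    · simp [car, Nat.div_eq_of_lt h, Nat.mod_eq_of_lt h]
    · have hd : (J m + J k) / p = 1 := Nat.div_eq_of_lt_le (by omega) (by omega)
      have hm : (J m + J k) % p = J m + J k - p := by
        rw [Nat.mod_eq_sub_mod h, Nat.mod_eq_of_lt (by omega)]
      simp only [car, hd, one_smul, hm, c]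
      rw [← hFp, show p + (J m + J k - p) = J m + J k by omega]
  have hFN : ∀ r ∈ N, ∀ j, r • F j = F j := fun r hr j => by
    simp only [F, Finset.smul_sum]
    refine Finset.sum_congr rfl fun i _ => ?_
    refine apply_fixed_of_fixed (fun _ _ => hMS _ ‹_›) (fun t ht y => by ext <;> simp [hM t ht])
      (fun t ht => ?_) hr _
    have h := he3.eqv t trivial
    rwa [he3.coc.apply_of_mem ht, map_zero, sub_eq_zero] at h
  let w3 : Fn M A := fun m => -F (J m)
  have hw3N : ∀ r ∈ N, r • w3 = w3 := fun r hr => hfixM r hr _ fun m => by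
    simp only [w3, smul_neg, hFN r hr]
  let e4 : Pre Γ M A := e3 - triv w3
  have he4 : IsExt ⊤ N e4 := he3.sub (isExt_triv hw3N)
  have h4a : ∀ m k, e4.1 (m, k) = car m k • c := by
    intro m k
    simp only [e4, Prod.fst_sub, Fn.sub_apply, triv_fst]
    simp only [w3, hcar]
    abel
  have hJinv : ∀ (g : Γ) m, J (g • m) = J m := fun g m => by simp only [J, hχ]
  have h4b : ∀ g m, e4.2 g m = e4.2 g (J m • s) := by
    intro g m
    have h' : J m • s + (π m : M) = m := by rw [hπ, add_sub_cancel]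
    simp only [e4, Prod.snd_sub, Pi.sub_apply, Fn.sub_apply, triv_snd]
    simp only [w3, hJinv, hJs _ (hJlt m)]
    conv_lhs => rw [← h', h3binv g _ _ (π m).2, h']
  have h4c : ∀ g, ∀ m k, car m k • (g • c - c) = e4.2 g m + e4.2 g k - e4.2 g (m + k) := by
    intro g m k
    have := congrArg (fun w : Fn (M × M) A => w (m, k)) (he4.eqv g trivial)
    simp only [Fn.sub_apply, Fn.smul_apply, Prod.smul_mk, del_apply, h4a, car, hJinv] at this
    rw [← this, smul_sub, smul_comm g]
  have h4j : ∀ g, ∀ j < p, e4.2 g (j • s) = j • e4.2 g s := by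
    intro g j hj
    induction j with
    | zero =>
      have := h4c g 0 0
      simp only [car, add_zero, show J 0 = 0 from (hJS 0).1 S.zero_mem, Nat.zero_div, zero_smul,
        add_sub_cancel_right] at this
      rw [zero_nsmul, zero_nsmul, ← this]
    | succ j ihj =>
      have := h4c g (j • s) s
      simp only [car, hJs j (Nat.lt_of_succ_lt hj), show J s = 1 from hs, Nat.div_eq_of_lt hj, zero_smul] at this
      rw [succ_nsmul, succ_nsmul, ← ihj (Nat.lt_of_succ_lt hj)]
      exact (sub_eq_zero.1 this.symm).symm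
  have h4p : ∀ g, g • c - c = p • e4.2 g s := by
    intro g
    have h2 := hp.two_le
    have := h4c g ((p - 1) • s) s
    simp only [car, hJs (p - 1) (by omega), show J s = 1 from hs, Nat.sub_add_cancel (show 1 ≤ p by omega),
      Nat.div_self hp.pos, one_smul, h4j g (p - 1) (by omega)] at this
    rw [← succ_nsmul s, Nat.sub_add_cancel (show 1 ≤ p by omega), hpM] at this
    rw [this, show (0 : M) = (0 : ℕ) • s from (zero_nsmul s).symm, h4j g 0 hp.pos, zero_nsmul, sub_zero,
      ← succ_nsmul, Nat.sub_add_cancel (show 1 ≤ p by omega)]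
  have hcocs : IsZ1 ⊤ N (fun g => e4.2 g s) := by
    refine ⟨fun g hg r hr => congrArg (fun w : Fn M A => w s) (he4.coc.1 g hg r hr), fun g hg k hk => ?_⟩
    have := congrArg (fun w : Fn M A => w s) (he4.coc.2 g hg k hk)
    simp only [Fn.add_apply, Fn.smul_apply] at this
    dsimp only
    rw [this, h4b k (g⁻¹ • s), hJinv, show J s = 1 from hs, one_nsmul]
  obtain ⟨y, hy⟩ := hC.h1 ⊤ N le_rfl le_rfl hN _ hcocs
  have hyN : ∀ r ∈ N, r • y = y := fun r hr => by
    have := hy r trivial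
    have e0 := hcocs.apply_of_mem hr
    dsimp only at this e0
    rw [e0, dd0] at this
    exact sub_eq_zero.1 this.symm
  let c' := c - p • y
  have hc' : c' ∈ fixSub (A := A) (⊤ : Subgroup Γ) := fun g _ => by
    have e1 := h4p g
    have e2 : p • (g • y) - p • y = p • e4.2 g s := by
      have := hy g trivial
      dsimp only at this
      rw [this, dd0, nsmul_sub]
    rw [← sub_eq_zero]
    simp only [c', smul_sub, smul_comm g p]
    rw [← sub_self (p • e4.2 g s)]
    conv_rhs => arg 1; rw [← e1]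
    conv_rhs => arg 2; rw [← e2]
    abel
  obtain ⟨ν, hν, yN, hyN', c'', hc'', ec⟩ := hC.trivial_decomp hc'
  -- the pieces coming from `ℤ/p`
  let Wχ : Γ → M → ℤ := fun g m => ν g * (J m : ℤ)
  have hJcar : ∀ m k, (J m : ℤ) + J k - J (m + k) = (p : ℤ) * (car m k : ℕ) := fun m k => by
    rw [hJadd, sub_eq_iff_eq_add]
    exact_mod_cast (Nat.div_add_mod (J m + J k) p).symm
  have hWχ : IsCycle p ⊤ N Wχ := by
    refine ⟨fun g hg r hr => by funext m; simp [Wχ, hν g hg r hr], fun g _ m k => ?_, fun m => ?_⟩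
    · refine ⟨ν g * (car m k : ℕ), ?_⟩
      simp only [Wχ]
      linear_combination (ν g) * hJcar m k
    · simp [Wχ, hJinv, csum_zero]
  let aχ : Fn (M × M) A := fun x => car x.1 x.2 • yN
  have hcarcoc : ∀ m k l, car m k + car (m + k) l = car m (k + l) + car k l := fun m k l => by
    have h1 := hJcar m k; have h2 := hJcar (m + k) l; have h3 := hJcar m (k + l); have h4 := hJcar k l
    rw [add_assoc m k l] at h2
    have : (p : ℤ) * ((car m k : ℤ) + car (m + k) l) = p * ((car m (k + l) : ℤ) + car k l) := by linarith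
    exact_mod_cast mul_left_cancel₀ hpz this
  have haχ : aχ ∈ symCoc := ⟨fun m k => by simp [aχ, car, add_comm], fun m k l => by
    simp only [aχ, ← add_smul, hcarcoc]⟩
  have haχN : ∀ r ∈ N, r • aχ = aχ := fun r hr => by
    ext x
    rw [Fn.smul_apply]
    simp only [aχ, Prod.smul_fst, Prod.smul_snd, hM _ (N.inv_mem hr)]
    rw [smul_comm, hyN' r hr]
  let w4 : Fn M A := fun m => J m • (y + c'')
  refine ⟨W + Wχ, hW.add' hN hWχ, aM + aχ, symCoc.add_mem haM haχ,
    fun r hr => by rw [smul_add, haMN r hr, haχN r hr], ?_⟩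
  refine ExtRel.trans ?_ ((capExt_add hN hW hWχ).symm.add (ExtRel.of_eq (congrArg Prod.fst (normExt_add hN aM aχ)).symm
    (fun g _ => (congrArg (fun z : Pre Γ M A => z.2 g) (normExt_add hN aM aχ)).symm)))
  refine ⟨we + w2 + w3 + w4, ?_, fun g _ => ?_⟩
  · ext ⟨m, k⟩
    have h1 : e4.1 (m, k) = (capExt p ⊤ N u Wχ + normExt ⊤ N aχ : Pre Γ M A).1 (m, k) + del w4 (m, k) := by
      rw [h4a, Prod.fst_add, Fn.add_apply, capExt_fst]
      show _ = _ + (normTo ⊤ N aχ) (m, k) + _
      rw [normTo, eval_csum hN]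
      have hk1 : csum ⊤ N (fun g => csum ⊤ N (fun h => kap p Wχ h (g⁻¹ • (m, k)) • u g h))
          = car m k • csum ⊤ N (fun h => ν h • csum ⊤ N (fun g => u g h)) := by
        rw [csum_comm hN hN, show car m k • csum ⊤ N _ = (nsmulAddMonoidHom (car m k) : A →+ A) _ from rfl,
          map_csum _ _ hN.fin]
        refine csum_congr ⊤ N fun h hh => ?_
        rw [nsmulAddMonoidHom_apply, ← natCast_zsmul, smul_smul, zsmul_csum hN]
        refine csum_congr ⊤ N fun g _ => ?_
        congr 1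
        refine mul_left_cancel₀ hpz ?_
        rw [hWχ.p_kap hh]
        simp only [Wχ, Prod.smul_fst, Prod.smul_snd, ← smul_add, hJinv]
        linear_combination (ν h) * hJcar m k
      have hk2 : csum ⊤ N (fun g => (g • aχ) (m, k)) = car m k • normTo ⊤ N yN := by
        rw [show car m k • normTo ⊤ N yN = (nsmulAddMonoidHom (car m k) : A →+ A) (csum ⊤ N fun g => g • yN) from rfl,
          map_csum _ _ hN.fin]
        refine csum_congr ⊤ N fun g _ => ?_
        show _ = car m k • g • yN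
        rw [Fn.smul_apply]
        simp only [aχ, car, Prod.smul_fst, Prod.smul_snd, hJinv, smul_comm g]
      rw [hk1, hk2, del_apply]
      simp only [w4]
      have e1 : J m • (y + c'') + J k • (y + c'') - J (m + k) • (y + c'') = car m k • p • (y + c'') := by
        rw [sub_eq_iff_eq_add, ← mul_nsmul', ← add_nsmul, ← add_nsmul, hJadd, mul_comm, Nat.div_add_mod]
      rw [e1, ← nsmul_add, ← nsmul_add, nsmul_add y c'' p]
      congr 1
      have : c = c' + p • y := (sub_add_cancel c _).symm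
      rw [this, ec]; abel
    simp only [e4, e3, e2, Prod.fst_sub, Prod.fst_add, Fn.sub_apply, Fn.add_apply, triv_fst,
      del_apply] at h1 ⊢
    rw [← sub_eq_zero] at h1 ⊢
    rw [← h1]; abel
  · ext m
    have h1 : e4.2 g m = (capExt p ⊤ N u Wχ + normExt ⊤ N aχ : Pre Γ M A).2 g m + dd0 w4 g m := by
      rw [h4b, h4j g _ (hJlt m)]
      simp only [Prod.snd_add, Pi.add_apply, Fn.add_apply, capExt_snd, normExt, Pi.zero_apply,
        Fn.zero_apply, add_zero, eta, Wχ, hJinv, sub_self, csum_zero, Int.zero_ediv, zero_smul,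
        neg_zero, zero_add]
      show _ = g • w4 (g⁻¹ • m) - w4 m
      simp only [w4, hJinv]
      rw [smul_comm g, ← nsmul_sub, smul_add, hc'' g trivial, add_sub_add_right_eq_sub]
      exact congrArg (J m • ·) (hy g trivial)
    simp only [e4, e3, e2, Prod.snd_sub, Prod.snd_add, Pi.sub_apply, Pi.add_apply, Fn.sub_apply,
      Fn.add_apply, triv_snd, dd0, smul_add, Fn.smul_apply] at h1 ⊢
    rw [← sub_eq_zero] at h1 ⊢
    rw [← h1]; abel

end FLTAgent.Global
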