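import Fermat.Agent.Global.Ext.ClassModule

/-!
Cocycle and bilinearity properties of the pairing cochain, `p`-torsion of extensions, and change of
coefficients.
-/

set_option autoImplicit false
set_option linter.unusedSectionVars false

noncomputable section

namespace FLTAgent.Global

variable {Γ : Type*} [Group Γ] {M : Type*} [AddCommGroup M] [DistribMulAction Γ M]
  {A : Type*} [AddCommGroup A] [DistribMulAction Γ A] {H N : Subgroup Γ}

/-- The four term identity. -/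
lemma symCoc_four {a : Fn (M × M) A} (ha : a ∈ symCoc) (u₁ u₂ v₁ v₂ : M) :
    a (u₁ + u₂, v₁ + v₂) + a (u₁, u₂) + a (v₁, v₂)
      = a (u₁, v₁) + a (u₂, v₂) + a (u₁ + v₁, u₂ + v₂) := by
  have e1 := ha.2 u₁ u₂ (v₁ + v₂)
  have e2 := ha.2 u₂ v₁ v₂
  have e3 := ha.2 v₁ u₂ v₂
  have e4 := ha.2 u₁ v₁ (u₂ + v₂)
  rw [ha.1 u₂ v₁, add_comm u₂ v₁] at e2
  rw [show u₂ + (v₁ + v₂) = v₁ + (u₂ + v₂) by abel] at e1
  rw [← sub_eq_zero] at e1 e2 e3 e4 ⊢
  rw [← sub_eq_zero.2 (rfl : (0 : A) = 0)]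
  calc _ = (a (u₁, u₂) + a (u₁ + u₂, v₁ + v₂) - (a (u₁, v₁ + (u₂ + v₂)) + a (u₂, v₁ + v₂)))
      - (a (v₁, u₂) + a (v₁ + u₂, v₂) - (a (u₂, v₁ + v₂) + a (v₁, v₂)))
      + (a (v₁, u₂) + a (v₁ + u₂, v₂) - (a (v₁, u₂ + v₂) + a (u₂, v₂)))
      - (a (u₁, v₁) + a (u₁ + v₁, u₂ + v₂) - (a (u₁, v₁ + (u₂ + v₂)) + a (v₁, u₂ + v₂))) := by abel
    _ = 0 - 0 := by rw [e1, e2, e3, e4]; abel

lemma IsExt.smul_fst {e : Pre Γ M A} (he : IsExt H N e) (hN : Lvl H N) {s : Γ} (hs : s ∈ N) :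
    s • e.1 = e.1 := by
  have h := he.eqv s (hN.le hs)
  rwa [he.coc.apply_of_mem hs, map_zero, sub_eq_zero] at h

lemma IsExt.mono {e : Pre Γ M A} (he : IsExt H N e) {H' N' : Subgroup Γ} (hH : H' ≤ H) (hN : N' ≤ N) :
    IsExt H' N' e :=
  ⟨he.sym, ⟨he.coc.1.mono hH hN, fun g hg k hk => he.coc.2 g (hH hg) k (hH hk)⟩,
    fun g hg => he.eqv g (hH hg)⟩

theorem isZ2_pairC (hM : ∀ s ∈ N, ∀ m : M, s • m = m) {e : Pre Γ M A}
    (he : IsExt H N e) {f : Γ → M} (hf : IsZ1 H N f) : IsZ2 H N (pairC e f) := by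
  refine ⟨fun g hg h hh s hs s' hs' => ?_, fun g hg h hh j hj => ?_⟩
  · simp only [pairC, he.coc.1 g hg s hs, hf.1 g hg s hs, hf.1 h hh s' hs', mul_smul, hM s hs]
  set F := f g
  set G := g • f h with hG
  set J := (g * h) • f j with hJ
  have hgh : f (g * h) = F + G := by rw [hf.2 g hg h hh, add_comm]
  have hhj : g • f (h * j) = G + J := by rw [hf.2 h hh j hj, smul_add, ← mul_smul, add_comm]
  have hgJ : g⁻¹ • J = h • f j := by rw [hJ, ← mul_smul, inv_mul_cancel_left]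
  have hgG : g⁻¹ • G = f h := by rw [hG, inv_smul_smul]
  have e1 : g • e.2 h (h • f j) = e.2 (g * h) J - e.2 g J := by
    have := congrArg (fun w : Fn M A => w J) (he.coc.2 g hg h hh)
    simp only [Fn.add_apply, Fn.smul_apply, hgJ] at this
    rw [this, add_sub_cancel_right]
  have e2 : g • e.1 (f h, h • f j) = e.1 (G, J) + (e.2 g G + e.2 g J - e.2 g (G + J)) := by
    have := congrArg (fun w : Fn (M × M) A => w (G, J)) (he.eqv g hg)
    simp only [Fn.sub_apply, Fn.smul_apply, Prod.smul_mk, hgJ, hgG, del_apply] at this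
    rw [← this, add_sub_cancel]
  simp only [pairC, smul_add, e1, e2, hgh, hhj, ← hG, ← hJ]
  have e4 := sub_eq_zero.2 (he.sym.2 F G J)
  rw [← neg_eq_zero, ← e4]
  abel

/-- `⟨e, f + f'⟩ = ⟨e, f⟩ + ⟨e, f'⟩`. -/
theorem isB2_pairC_add_right {e : Pre Γ M A}
    (he : IsExt H N e) {f f' : Γ → M} (hf : IsZ1 H N f) (hf' : IsZ1 H N f') :
    IsB2 H N (fun g h => pairC e (f + f') g h - pairC e f g h - pairC e f' g h) := by
  refine ⟨fun x => -e.1 (f x, f' x), fun g hg s hs => by simp only [hf.1 g hg s hs, hf'.1 g hg s hs],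
    fun g hg h hh => ?_⟩
  have e2 := congrArg (fun w : Fn (M × M) A => w (g • f h, g • f' h)) (he.eqv g hg)
  simp only [Fn.sub_apply, Fn.smul_apply, Prod.smul_mk, inv_smul_smul, del_apply] at e2
  have e3 := symCoc_four he.sym (f g) (f' g) (g • f h) (g • f' h)
  have h1 : f (g * h) = f g + g • f h := by rw [hf.2 g hg h hh, add_comm]
  have h2 : f' (g * h) = f' g + g • f' h := by rw [hf'.2 g hg h hh, add_comm]
  simp only [pairC, Pi.add_apply, smul_add, dd1, smul_neg, h1, h2]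
  rw [← sub_eq_zero] at e2 e3 ⊢
  have e4 := congrArg₂ (· + ·) e2 e3
  simp only [add_zero] at e4
  rw [← e4]
  abel

variable {p : ℕ}

/-- The primitive of `p • a`. -/
def torPrim (p : ℕ) (a : Fn (M × M) A) : Fn M A := fun m => ∑ k ∈ Finset.range p, a (m, k • m)

lemma sum_del_range (w : Fn M A) (hp : ∀ m : M, p • m = 0) (m : M) :
    ∑ k ∈ Finset.range p, del w (m, k • m) = p • w m := by
  simp only [del_apply, add_comm m, ← succ_nsmul]
  rw [Finset.sum_congr rfl fun k _ => (add_sub_assoc (w m) (w (k • m)) _), Finset.sum_add_distrib,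
    Finset.sum_const, Finset.card_range, Finset.sum_range_sub' (fun k => w (k • m)), hp, zero_nsmul,
    sub_self, add_zero]

lemma nsmul_eq_del_torPrim {a : Fn (M × M) A} (ha : a ∈ symCoc) (hp : ∀ m : M, p • m = 0) :
    p • a = del (torPrim p a) := by
  ext ⟨m, n⟩
  rw [Fn.nsmul_apply, del_apply]
  simp only [torPrim, ← Finset.sum_add_distrib, ← Finset.sum_sub_distrib]
  have key : ∀ k : ℕ, a (m, k • m) + a (n, k • n) - a (m + n, k • (m + n))
      = a (m, n) + a (k • m, k • n) - a ((k + 1) • m, (k + 1) • n) := by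
    intro k
    have e := symCoc_four ha m (k • m) n (k • n)
    rw [← nsmul_add, add_comm m (k • m), add_comm n (k • n), ← succ_nsmul, ← succ_nsmul,
      ha.1 ((k + 1) • m)] at e
    rw [ha.1 ((k + 1) • m), ha.1 (m + n)]
    rw [← sub_eq_zero] at e ⊢
    rw [← e, ha.1 ((k + 1) • n), ha.1 (k • (m + n))]
    abel
  rw [Finset.sum_congr rfl fun k _ => key k]
  rw [Finset.sum_congr rfl fun k _ => (add_sub_assoc (a (m, n)) _ _), Finset.sum_add_distrib,
    Finset.sum_const, Finset.card_range, Finset.sum_range_sub' (fun k => a (k • m, k • n)),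
    zero_nsmul, zero_nsmul, hp, hp, sub_self, add_zero]

theorem nsmul_eq_triv (hp : ∀ m : M, p • m = 0) {e : Pre Γ M A} (he : IsExt H N e) :
    (p • e).1 = (triv (torPrim p e.1) : Pre Γ M A).1 ∧
      ∀ g ∈ H, (p • e).2 g = (triv (torPrim p e.1) : Pre Γ M A).2 g := by
  refine ⟨nsmul_eq_del_torPrim he.sym hp, fun g hg => ?_⟩
  ext m
  show p • e.2 g m = g • torPrim p e.1 (g⁻¹ • m) - torPrim p e.1 m
  rw [← sum_del_range (e.2 g) hp m]
  simp only [torPrim, Finset.smul_sum, ← Finset.sum_sub_distrib]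
  refine Finset.sum_congr rfl fun k _ => ?_
  rw [← he.eqv g hg, Fn.sub_apply, Fn.smul_apply, Prod.smul_mk, smul_comm g⁻¹ k]

lemma pairC_congr {e e' : Pre Γ M A} (h1 : e.1 = e'.1) (h2 : ∀ g ∈ H, e.2 g = e'.2 g) {f : Γ → M}
    {g h : Γ} (hg : g ∈ H) : pairC e f g h = pairC e' f g h := by
  simp only [pairC, h1, h2 g hg]

lemma pairC_nsmul (n : ℕ) (e : Pre Γ M A) (f : Γ → M) (g h : Γ) :
    pairC (n • e) f g h = n • pairC e f g h := by
  simp [pairC, Fn.nsmul_apply]

theorem isB2_nsmul_pairC (hp : ∀ m : M, p • m = 0) {e : Pre Γ M A} (he : IsExt H N e) {f : Γ → M}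
    (hf : IsZ1 H N f) : IsB2 H N (fun g h => p • pairC e f g h) := by
  obtain ⟨h1, h2⟩ := nsmul_eq_triv hp he
  refine ⟨fun x => torPrim p e.1 (f x), fun g hg s hs => by simp only [hf.1 g hg s hs], fun g hg h hh => ?_⟩
  dsimp only
  rw [← pairC_nsmul, pairC_congr h1 h2 hg, pairC_triv hf _ hg hh]

/-- Equivalent extensions have cohomologous pairings. -/
theorem ExtRel.isB2_pairC {e e' : Pre Γ M A} (h : ExtRel H e e') {f : Γ → M} (hf : IsZ1 H N f) :
    IsB2 H N (fun g k => pairC e f g k - pairC e' f g k) := by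
  obtain ⟨w, h1, h2⟩ := h
  refine ⟨fun x => w (f x), fun g hg s hs => by simp only [hf.1 g hg s hs], fun g hg k hk => ?_⟩
  dsimp only
  rw [sub_eq_iff_eq_add, ← pairC_triv hf w hg hk, ← pairC_add]
  refine pairC_congr (H := H) ?_ (fun x hx => ?_) hg
  · show e.1 = del w + e'.1
    rw [← h1, sub_add_cancel]
  · show e.2 x = dd0 w x + e'.2 x
    rw [← h2 x hx, sub_add_cancel]

section map

variable {B : Type*} [AddCommGroup B] [DistribMulAction Γ B] (φ : A →+ B)

/-- Postcomposition on functions. -/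
def Fn.map {X : Type*} : Fn X A →+ Fn X B where
  toFun w := fun x => φ (w x)
  map_zero' := by ext x; exact map_zero φ
  map_add' w w' := by ext x; exact map_add φ (w x) (w' x)

lemma Fn.map_apply {X : Type*} (w : Fn X A) (x : X) : Fn.map φ w x = φ (w x) := rfl

lemma del_map (w : Fn M A) : del (Fn.map φ w) = Fn.map φ (del w) := by
  ext ⟨m, n⟩; simp [del_apply, Fn.map_apply]

/-- Change of coefficients of extensions. -/
def Pre.map : Pre Γ M A →+ Pre Γ M B where
  toFun e := (Fn.map φ e.1, fun g => Fn.map φ (e.2 g))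
  map_zero' := by ext <;> simp
  map_add' e e' := Prod.ext (map_add (Fn.map φ) e.1 e'.1) (funext fun g => map_add (Fn.map φ) _ _)

variable {φ} (hφ : ∀ (g : Γ) (a : A), φ (g • a) = g • φ a)

include hφ in
lemma Fn.map_smul {X : Type*} [MulAction Γ X] (g : Γ) (w : Fn X A) :
    Fn.map φ (g • w) = g • Fn.map φ w := by
  ext x; simp [Fn.map_apply, Fn.smul_apply, hφ]

include hφ in
lemma IsExt.map {e : Pre Γ M A} (he : IsExt H N e) : IsExt H N (Pre.map φ e) := by
  refine ⟨⟨fun m n => congrArg φ (he.sym.1 m n), fun m n k => ?_⟩,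
    ⟨fun g hg s hs => congrArg (Fn.map φ) (he.coc.1 g hg s hs), fun g hg k hk => ?_⟩, fun g hg => ?_⟩
  · show φ _ + φ _ = φ _ + φ _
    rw [← map_add, he.sym.2, map_add]
  · show Fn.map φ _ = g • Fn.map φ _ + Fn.map φ _
    rw [← Fn.map_smul hφ, ← map_add, he.coc.2 g hg k hk]
  · show g • Fn.map φ e.1 - Fn.map φ e.1 = del (Fn.map φ (e.2 g))
    rw [← Fn.map_smul hφ, ← map_sub, he.eqv g hg, del_map]

include hφ in
lemma ExtRel.map {e e' : Pre Γ M A} (h : ExtRel H e e') : ExtRel H (Pre.map φ e) (Pre.map φ e') := by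
  obtain ⟨w, h1, h2⟩ := h
  refine ⟨Fn.map φ w, ?_, fun g hg => ?_⟩
  · show Fn.map φ e.1 - Fn.map φ e'.1 = _
    rw [← map_sub, h1, del_map]
  · show Fn.map φ (e.2 g) - Fn.map φ (e'.2 g) = _
    rw [← map_sub, h2 g hg, dd0, dd0, map_sub, Fn.map_smul hφ]

lemma pairC_map (e : Pre Γ M A) (f : Γ → M) (g h : Γ) :
    pairC (Pre.map φ e) f g h = φ (pairC e f g h) := (map_add φ _ _).symm

include hφ in
lemma Pre.map_triv (w : Fn M A) : Pre.map φ (triv w : Pre Γ M A) = triv (Fn.map φ w) :=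
  Prod.ext (del_map φ w).symm (funext fun g => by
    show Fn.map φ (dd0 w g) = dd0 (Fn.map φ w) g
    rw [dd0, dd0, map_sub, Fn.map_smul hφ])

include hφ in
lemma normTo_map (hN : Lvl H N) {X : Type*} [MulAction Γ X] (a : Fn X A) :
    Fn.map φ (normTo H N a) = normTo H N (Fn.map φ a) := by
  rw [normTo, map_csum _ _ hN.fin]
  exact csum_congr H N fun g _ => Fn.map_smul hφ g a

include hφ in
lemma Pre.map_capExt (hN : Lvl H N) (u : Γ → Γ → A) (w : Γ → M → ℤ) :
    Pre.map φ (capExt p H N u w : Pre Γ M A) = capExt p H N (fun g h => φ (u g h)) w := by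
  refine Prod.ext ?_ (funext fun k => ?_)
  · ext x
    show φ ((capExt p H N u w).1 x) = _
    rw [capExt_fst, capExt_fst, map_csum _ _ hN.fin]
    refine csum_congr H N fun g _ => ?_
    rw [map_csum _ _ hN.fin]
    exact csum_congr H N fun h _ => map_zsmul φ _ _
  · ext m
    show φ ((capExt p H N u w).2 k m) = _
    rw [capExt_snd, capExt_snd, map_neg, map_csum _ _ hN.fin]
    exact congrArg Neg.neg (csum_congr H N fun g _ => map_zsmul φ _ _)

include hφ in
lemma Pre.map_coresExt {P : Subgroup Γ} (hf : Finite (↥H ⧸ P.subgroupOf H)) (e : Pre Γ M A) :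
    Pre.map φ (coresExt H P e) = coresExt H P (Pre.map φ e) := by
  have := Fintype.ofFinite (↥H ⧸ P.subgroupOf H)
  refine Prod.ext ?_ (funext fun k => ?_)
  · show Fn.map φ (normTo H P e.1) = normTo H P (Fn.map φ e.1)
    rw [normTo, map_csum _ _ hf]
    exact csum_congr H P fun g _ => Fn.map_smul hφ g e.1
  · show Fn.map φ (coresB H P e.2 k) = coresB H P (fun g => Fn.map φ (e.2 g)) k
    by_cases hk : k ∈ H
    · rw [coresB_eq _ hk, coresB_eq _ hk, map_sum]
      exact Finset.sum_congr rfl fun q _ => Fn.map_smul hφ _ _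
    · rw [coresB, dif_neg hk, coresB, dif_neg hk, map_zero]

end map

end FLTAgent.Global
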