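import Fermat.Agent.Global.Ext.Cycles
import Fermat.Agent.Global.Ext.Pairs
import Fermat.Agent.Global.Semilocal.SemiUnits
import Fermat.Agent.Global.Fund.ClassModule

/-!
Additivity of corestriction, change of the class in a cap product, and caps on a subgroup acting
trivially.
-/

set_option autoImplicit false
set_option linter.unusedSectionVars false
set_option linter.unusedVariables false
set_option synthInstance.maxHeartbeats 100000

noncomputable section

namespace FLTAgent.Global

variable {Γ : Type*} [Group Γ] {M : Type*} [AddCommGroup M] [DistribMulAction Γ M]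
  {A : Type*} [AddCommGroup A] [DistribMulAction Γ A]
  {H P N : Subgroup Γ} {p : ℕ}

lemma coresExt_add (hf : Finite (↥H ⧸ P.subgroupOf H)) (e e' : Pre Γ M A) :
    ExtRel H (coresExt H P (e + e')) (coresExt H P e + coresExt H P e') := by
  have := Fintype.ofFinite (↥H ⧸ P.subgroupOf H)
  refine ExtRel.of_eq ?_ fun g hg => ?_
  · show normTo H P (e.1 + e'.1) = normTo H P e.1 + normTo H P e'.1
    simp only [normTo, smul_add]
    exact csum_add H P hf _ _
  · show coresB H P (e + e').2 g = coresB H P e.2 g + coresB H P e'.2 g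
    simp only [coresB_eq _ hg, Prod.snd_add, Pi.add_apply, smul_add, Finset.sum_add_distrib]

lemma extRel_add_assoc (a b c : Pre Γ M A) : ExtRel H (a + b + c) (a + (b + c)) := by
  rw [add_assoc]
  exact ExtRel.refl _ _

lemma coresExt_zero_snd (a : Fn (M × M) A) :
    coresExt H P ((a, 0) : Pre Γ M A) = (normTo H P a, 0) := by
  refine Prod.ext rfl (funext fun g => ?_)
  show coresB H P (0 : Γ → Fn M A) g = 0
  by_cases hg : g ∈ H
  · simp [coresB, hg]
  · simp [coresB, hg]

lemma isExt_zero_snd {a : Fn (M × M) A} (ha : a ∈ symCoc) (hfix : ∀ g ∈ H, g • a = a) :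
    IsExt H N ((a, 0) : Pre Γ M A) :=
  ⟨ha, ⟨fun _ _ _ _ => rfl, fun g _ h _ => by simp⟩, fun g hg => by
    show g • a - a = del (0 : Fn M A)
    rw [hfix g hg, sub_self, map_zero]⟩

section map

variable {B : Type*} [AddCommGroup B] [DistribMulAction Γ B] {φ : A →+ B}
  (hφ : ∀ (g : Γ) (a : A), φ (g • a) = g • φ a)

include hφ in
lemma isZ2_comp {c : Γ → Γ → A} (hc : IsZ2 H N c) : IsZ2 H N (fun g h => φ (c g h)) := by
  refine ⟨fun g hg h hh s hs t ht => congrArg φ (hc.1 g hg h hh s hs t ht), fun g hg h hh j hj => ?_⟩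
  have := congrArg φ (hc.2 g hg h hh j hj)
  rwa [map_sub, map_add, map_sub, hφ, map_zero] at this

include hφ in
lemma Pre.map_normExt (hN : Lvl H N) (a : Fn (M × M) A) :
    Pre.map φ (normExt H N a : Pre Γ M A) = normExt H N (Fn.map φ a) :=
  Prod.ext (normTo_map hφ hN a) (funext fun _ => map_zero (Fn.map φ))

include hφ in
lemma coresExt_capExt_comp (hf : Finite (↥H ⧸ P.subgroupOf H)) (hPN : Lvl P N) (c : Γ → Γ → A) (v : Γ → M → ℤ) :
    ExtRel H (coresExt H P (capExt p P N (fun g h => φ (c g h)) v : Pre Γ M B))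
      (Pre.map φ (coresExt H P (capExt p P N c v : Pre Γ M A))) := by
  rw [Pre.map_coresExt hφ hf, Pre.map_capExt hφ hPN]
  exact ExtRel.refl _ _

include hφ in
lemma ExtRel.map_add_normExt (hN : Lvl H N) {e x : Pre Γ M A} {β : Fn (M × M) A}
    (h : ExtRel H e (x + normExt H N β)) :
    ExtRel H (Pre.map φ e) (Pre.map φ x + normExt H N (Fn.map φ β)) := by
  refine (h.map hφ).trans ?_
  rw [map_add, Pre.map_normExt hφ hN]
  exact ExtRel.refl _ _

lemma Fn.map_mem_symCoc {a : Fn (M × M) A} (ha : a ∈ symCoc) : Fn.map φ a ∈ symCoc :=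
  ⟨fun m n => congrArg φ (ha.1 m n), fun m n k => by
    show φ _ + φ _ = φ _ + φ _
    rw [← map_add, ha.2, map_add]⟩

end map

variable [Fact p.Prime]

lemma exists_inv_mod_pow {k : ℤ} (s : ℕ) (h : ¬ (p : ℤ) ∣ k ∨ s = 0) :
    ∃ j b : ℤ, j * k + b * ((p ^ s : ℕ) : ℤ) = 1 := by
  rcases h with h | rfl
  · have h1 := (((Nat.prime_iff_prime_int.1 (Fact.out : p.Prime)).coprime_iff_not_dvd.2 h).pow_left
      (m := s)).symm
    obtain ⟨j, b, e⟩ := h1
    exact ⟨j, b, by push_cast; exact e⟩
  · exact ⟨0, 1, by simp⟩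

/-- A class of full order on a class-module layer generates. -/
theorem ClassModule.exists_sub_zsmul {u c : Γ → Γ → A} (hC : ClassModule p H N u) (hc : IsZ2 H N c)
    {s : ℕ} (hs : N.relIndex H = p ^ s)
    (hord : ∀ k : ℤ, IsB2 H N (fun g h => k • c g h) → ((p ^ s : ℕ) : ℤ) ∣ k) :
    ∃ j : ℤ, IsB2 H N (fun g h => u g h - j • c g h) := by
  obtain ⟨k, hk⟩ := hC.exists_zsmul_u hc
  have hzero : IsB2 H N (fun g h => ((p ^ s : ℕ) : ℤ) • u g h) := by
    refine (isB2_nsmul hC.lvl hC.lvl.le le_rfl hC.lvl.fin hC.z2 (hC.z2.isB2_bot hC.lvl)).congr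
      fun g _ h _ => ?_
    rw [hs, natCast_zsmul]
  have hpk : ¬ (p : ℤ) ∣ k ∨ s = 0 := by
    rcases s with - | t
    · exact Or.inr rfl
    refine Or.inl ?_
    rintro ⟨k', rfl⟩
    have hd := hord ((p ^ t : ℕ) : ℤ) (((hk.zsmul ((p ^ t : ℕ) : ℤ)).add (hzero.zsmul k')).congr
      fun g _ h _ => by
        simp only [Pi.add_apply, zsmul_sub, smul_smul]
        rw [show k' * ((p ^ (t + 1) : ℕ) : ℤ) = ((p ^ t : ℕ) : ℤ) * (p * k') by push_cast; ring,
          sub_add_cancel])
    rw [Int.natCast_dvd_natCast, Nat.pow_dvd_pow_iff_le_right (Fact.out : p.Prime).one_lt] at hd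
    omega
  obtain ⟨j, b, e⟩ := exists_inv_mod_pow s hpk
  refine ⟨j, ((hk.zsmul (-j)).add (hzero.zsmul b)).congr fun g _ h _ => ?_⟩
  simp only [Pi.add_apply, zsmul_sub, smul_smul]
  conv_rhs => rw [← one_zsmul (u g h), ← e]
  rw [add_smul, neg_smul, neg_mul, neg_smul]
  abel

/-- Cohomologous classes give caps that differ by a norm. -/
theorem exists_capExt_congr_class (hN : Lvl H N) (hM : ∀ s ∈ N, ∀ m : M, s • m = m) {u u' : Γ → Γ → A}
    (hu : IsZ2 H N u) (hu' : IsZ2 H N u') {w : Γ → M → ℤ} (hw : IsCycle p H N w)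
    (h : IsB2 H N (fun g k => u g k - u' g k)) :
    ∃ α : Fn (M × M) A, α ∈ symCoc ∧ (∀ s ∈ N, s • α = α) ∧
      ExtRel H (capExt p H N u w : Pre Γ M A) (capExt p H N u' w + normExt H N α) := by
  obtain ⟨b, hb, hbc⟩ := h
  have hbN : ∀ g ∈ H, ∀ s ∈ N, s • b g = b g := fun g hg s hs =>
    (hu.sub hu').primitive_smul_eq hN hb (fun x hx y hy => hbc x hx y hy) hg hs
  obtain ⟨α, hα, hαN, hrel⟩ := capExt_dd1 hN hM hw hb hbN
  refine ⟨α, hα, hαN, ((capExt_congr_u (u' := u' + dd1 b) fun g hg k hk => ?_).trans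
    (capExt_add_u hN)).trans ((ExtRel.refl H _).add hrel)⟩
  simp only [Pi.add_apply, ← hbc g hg k hk, add_sub_cancel]

omit [DistribMulAction Γ M] in
lemma csum_smul_fixed_mem (hN : Lvl H N) {S : AddSubgroup A} {F : Γ → A} (hF : ∀ g ∈ H, F g ∈ S) :
    csum H N F ∈ S := by
  have := hN.fin
  have := Fintype.ofFinite (↥H ⧸ N.subgroupOf H)
  rw [csum_eq_sum]
  exact sum_mem fun q _ => hF _ (rep_mem H N q)

omit [DistribMulAction Γ A] [DistribMulAction Γ M] in
lemma zval_sum (hN : Lvl H N) {ι : Type*} (s : Finset ι) (w : ι → Γ → M → ℤ) (f : Γ → M) :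
    zval H N (∑ i ∈ s, w i) f = ∑ i ∈ s, zval H N (w i) f := by
  have := hN.fin
  have := Fintype.ofFinite (↥H ⧸ N.subgroupOf H)
  simp only [zval, csum_eq_sum, Finset.sum_apply]
  exact Finset.sum_comm

lemma extRel_capExt_zero (hN : Lvl H N) {u : Γ → Γ → A} :
    ExtRel H (capExt p H N u 0 : Pre Γ M A) 0 := by
  refine ExtRel.of_eq ?_ fun k _ => ?_
  · ext x
    simp [capExt_fst, kap, csum_zero, Fn.zero_apply]
  · ext m
    simp [capExt_snd, eta, csum_zero, Fn.zero_apply]

/-- The cocycle `∑_k carry_k • v k`. -/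
def kapSum (p : ℕ) (H N : Subgroup Γ) (w : Γ → M → ℤ) (v : Γ → A) : Fn (M × M) A :=
  fun x => csum H N (fun k => kap p w k x • v k)

/-- On a subgroup acting trivially a cap product is a symmetric cocycle with values in `U` plus a
norm, as soon as all the sums `∑_g c(g,h)` are norms up to `U`. -/
theorem exists_split_capExt (hN : Lvl H N) (hX : ∀ t ∈ H, ∀ m : M, t • m = m) {c : Γ → Γ → A}
    (hc : IsZ2 H N c) {w : Γ → M → ℤ} (hw : IsCycle p H N w) {U : AddSubgroup A}
    (h : ∀ k ∈ H, ∃ z ∈ fixSub (A := A) N, csum H N (fun g => c g k) - normTo H N z ∈ U) :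
    ∃ a α : Fn (M × M) A, a ∈ symCoc ∧ (∀ x, a x ∈ U) ∧ (∀ t ∈ H, t • a = a) ∧ α ∈ symCoc ∧
      (∀ s ∈ N, s • α = α) ∧ ExtRel H (capExt p H N c w : Pre Γ M A) ((a, 0) + normExt H N α) := by
  have hp : (p : ℤ) ≠ 0 := Int.natCast_ne_zero.2 (Fact.out : p.Prime).ne_zero
  choose! z hz hzu using h
  have hX2 : ∀ t ∈ H, ∀ x : M × M, t • x = x := fun t ht x => Prod.ext (hX t ht x.1) (hX t ht x.2)
  set u : Γ → A := fun k => csum H N (fun g => c g k) - normTo H N (z k) with hu
  have hufix : ∀ k ∈ H, u k ∈ fixSub (A := A) H := fun k hk => sub_mem (csum_z2_mem hN hc hk)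
    fun t ht => smul_normTo_of_lvl hN (hz k hk) ht
  have hcomb : ∀ (v : Γ → A), kapSum p H N w v ∈ symCoc := by
    intro v
    refine ⟨fun m n => ?_, fun m n l => ?_⟩
    · refine csum_congr H N fun k _ => ?_
      simp only [kap]
      rw [add_comm (w k m), add_comm m]
    · show csum H N (fun k => kap p w k (m, n) • v k) + csum H N (fun k => kap p w k (m + n, l) • v k)
        = csum H N (fun k => kap p w k (m, n + l) • v k) + csum H N (fun k => kap p w k (n, l) • v k)
      rw [← csum_add H N hN.fin, ← csum_add H N hN.fin]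
      refine csum_congr H N fun k hk => ?_
      rw [← add_smul, ← add_smul]
      congr 1
      refine mul_left_cancel₀ hp ?_
      simp only [mul_add, hw.p_kap hk, add_assoc]
      ring
  have hfix : ∀ (v : Γ → A) (t : Γ), t ∈ H → (∀ k ∈ H, t • v k = v k) →
      t • kapSum p H N w v = kapSum p H N w v := by
    intro v t ht hv
    ext x
    rw [Fn.smul_apply]
    show t • csum H N (fun k => kap p w k (t⁻¹ • x) • v k) = csum H N (fun k => kap p w k x • v k)
    rw [hX2 _ (H.inv_mem ht), smul_csum hN]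
    exact csum_congr H N fun k hk => by rw [smul_comm t, hv k hk]
  refine ⟨kapSum p H N w u, kapSum p H N w z,
    hcomb u, fun x => csum_smul_fixed_mem hN fun k hk => U.zsmul_mem (hzu k hk) _,
    fun t ht => hfix u t ht fun k hk => hufix k hk t ht, hcomb z,
    fun s hs => hfix z s (hN.le hs) fun k hk => hz k hk s hs, ExtRel.of_eq ?_ fun k hk => ?_⟩
  · ext x
    show (capExt p H N c w).1 x = csum H N (fun k => kap p w k x • u k) + normTo H N (kapSum p H N w z) x
    rw [normTo, eval_csum hN, capExt_fst]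
    rw [csum_congr H N (G := fun g => csum H N (fun k => kap p w k x • c g k))
      (fun g hg => by rw [hX2 _ (H.inv_mem hg)]), csum_comm hN hN,
      csum_congr H N (F := fun g => (g • kapSum p H N w z) x)
        (G := fun g => csum H N (fun k => kap p w k x • g • z k)) (fun g hg => by
          rw [Fn.smul_apply]
          show g • csum H N (fun k => kap p w k (g⁻¹ • x) • z k) = _
          rw [hX2 _ (H.inv_mem hg), smul_csum hN]
          exact csum_congr H N fun k _ => smul_comm _ _ _),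
      csum_comm hN hN (fun g k => kap p w k x • g • z k), ← csum_add H N hN.fin]
    refine csum_congr H N fun k _ => ?_
    rw [← zsmul_csum hN, ← zsmul_csum hN, ← zsmul_add]
    congr 1
    show _ = u k + csum H N (fun g => g • z k)
    simp only [hu, normTo, sub_add_cancel]
  · ext m
    show (capExt p H N c w).2 k m = (0 : A) + 0
    rw [add_zero, capExt_snd, neg_eq_zero, csum_congr H N (G := fun _ => (0 : A)) fun g _ => ?_, csum_zero]
    have he : ∀ n : M, eta p H N w n = 0 := fun n => by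
      rw [eta, csum_congr H N (G := fun _ => (0 : ℤ)) (fun h hh => by rw [hX h hh, sub_self]), csum_zero,
        Int.zero_ediv]
    rw [he, zero_smul]

end FLTAgent.Global
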