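import Fermat.Agent.Global.Ext.Cycles

/-!
The decomposition `E(M) = caps + norms` on a subgroup, by transport to the subgroup as a group.
-/

set_option autoImplicit false
set_option linter.unusedSectionVars false
set_option linter.unusedVariables false

noncomputable section

namespace FLTAgent.Global

variable {Γ : Type*} [Group Γ] {A : Type*} [AddCommGroup A] [DistribMulAction Γ A]
  {H N : Subgroup Γ} {p : ℕ} [Fact p.Prime]

section transport

variable (H)

lemma lvl_top_iff (P' N' : Subgroup H) :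
    Lvl P' N' ↔ Lvl (P'.map H.subtype) (N'.map H.subtype) := by
  have hsub : N'.map H.subtype ≤ P'.map H.subtype ↔ N' ≤ P' :=
    Subgroup.map_le_map_iff_of_injective H.subtype_injective
  have e : (N'.map H.subtype).subgroupOf (P'.map H.subtype)
      = (N'.subgroupOf P').map (P'.equivMapOfInjective H.subtype H.subtype_injective).toMonoidHom := by
    ext ⟨x, hx⟩
    constructor
    · rintro ⟨y, hy, rfl⟩
      obtain ⟨z, hz, e⟩ := Subgroup.mem_map.1 hx
      obtain rfl : z = y := H.subtype_injective e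
      exact ⟨⟨z, hz⟩, hy, Subtype.ext rfl⟩
    · rintro ⟨⟨y, hy⟩, hy', e⟩
      exact ⟨y, hy', congrArg Subtype.val e⟩
  have hcard : Finite (↥P' ⧸ N'.subgroupOf P') ↔
      Finite (↥(P'.map H.subtype) ⧸ (N'.map H.subtype).subgroupOf (P'.map H.subtype)) := by
    rw [← Subgroup.finiteIndex_iff_finite_quotient, ← Subgroup.finiteIndex_iff_finite_quotient, e,
      Subgroup.finiteIndex_iff, Subgroup.finiteIndex_iff, MulEquiv.toMonoidHom_eq_coe,
      Subgroup.index_map_equiv]
  refine ⟨fun h => ⟨hsub.2 h.le, ?_, hcard.1 h.fin⟩, fun h => ⟨hsub.1 h.le, fun g hg s hs => ?_, hcard.2 h.fin⟩⟩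
  · rintro _ ⟨g, hg, rfl⟩ _ ⟨s, hs, rfl⟩
    exact ⟨_, h.conj g hg s hs, by simp⟩
  · obtain ⟨x, hx, e⟩ := h.conj _ ⟨g, hg, rfl⟩ _ ⟨s, hs, rfl⟩
    have : x = g⁻¹ * s * g := H.subtype_injective (by simpa using e)
    exact this ▸ hx

variable {H}

lemma csum_map_subtype {B : Type*} [AddCommMonoid B] (hN : Lvl H N) {F : Γ → B}
    (hF : ∀ g ∈ H, ∀ s ∈ N, F (g * s) = F g) :
    csum (⊤ : Subgroup H) (N.subgroupOf H) (fun g => F g) = csum H N F := by
  classical
  let e : (↥(⊤ : Subgroup H) ⧸ (N.subgroupOf H).subgroupOf ⊤) → (↥H ⧸ N.subgroupOf H) :=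
    Quotient.map' (fun g : (⊤ : Subgroup H) => (g : H)) fun a b h => by
      rw [QuotientGroup.leftRel_apply, Subgroup.mem_subgroupOf] at h ⊢
      exact Subgroup.mem_subgroupOf.1 h
  have he : Function.Bijective e := by
    refine ⟨fun a b hab => ?_, fun q => ⟨QuotientGroup.mk ⟨q.out, trivial⟩, QuotientGroup.out_eq' q⟩⟩
    induction a using Quotient.inductionOn' with | h a => ?_
    induction b using Quotient.inductionOn' with | h b => ?_
    exact QuotientGroup.eq.2 (Subgroup.mem_subgroupOf.2 (QuotientGroup.eq.1 hab))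
  simp only [csum]
  rw [← finsum_comp_equiv (Equiv.ofBijective e he) (f := fun q => F (rep H N q))]
  refine finsum_congr fun q => ?_
  simp only [Equiv.ofBijective_apply]
  have h1 := QuotientGroup.out_eq' (e q)
  conv_rhs at h1 => rw [← QuotientGroup.out_eq' q]
  have h2 : (rep H N (e q))⁻¹ * ((rep (⊤ : Subgroup H) (N.subgroupOf H) q : H) : Γ) ∈ N :=
    Subgroup.mem_subgroupOf.1 (QuotientGroup.eq.1 h1)
  have := hF _ (rep_mem H N (e q)) _ h2
  rwa [mul_inv_cancel_left] at this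

lemma ClassModule.toTop {u : Γ → Γ → A} (hC : ClassModule p H N u) :
    ClassModule p (⊤ : Subgroup H) (N.subgroupOf H) (fun g h : H => u g h) := by
  have hN := hC.lvl
  have hmapN : (N.subgroupOf H).map H.subtype = N := by
    rw [Subgroup.subgroupOf_map_subtype, inf_eq_left.2 hN.le]
  have hmapT : (⊤ : Subgroup H).map H.subtype = H := by
    rw [← MonoidHom.range_eq_map, Subgroup.range_subtype]
  have hidx : ∀ K K' : Subgroup H, K.relIndex K' = (K.map H.subtype).relIndex (K'.map H.subtype) :=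
    fun K K' => (Subgroup.relIndex_map_map_of_injective K K' H.subtype_injective).symm
  have hlvl : Lvl (⊤ : Subgroup H) (N.subgroupOf H) := by
    rw [lvl_top_iff, hmapN, hmapT]; exact hN
  have hext : ∀ (K : Subgroup H) (g : Γ), g ∈ K.map H.subtype → ∃ h : g ∈ H, (⟨g, h⟩ : H) ∈ K := by
    rintro K _ ⟨x, hx, rfl⟩; exact ⟨x.2, hx⟩
  refine ⟨hlvl, ?_, ?_, fun H' P' h1 h2 h3 f hf => ?_, fun H' P' h1 h2 h3 h4 => ?_, fun k hk => ?_⟩
  · obtain ⟨a, ha⟩ := hC.pow
    exact ⟨a, by rw [hidx, hmapN, hmapT, ha]⟩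
  · exact ⟨fun g _ h _ s hs t ht => hC.z2.1 g g.2 h h.2 s hs t ht,
      fun g _ h _ j _ => hC.z2.2 g g.2 h h.2 j j.2⟩
  · classical
    let F : Γ → A := fun g => if h : g ∈ H then f ⟨g, h⟩ else 0
    have hFv : ∀ x : H, F x = f x := fun x => by simp [F, x.2]
    obtain ⟨a, ha⟩ := hC.h1 (H'.map H.subtype) (P'.map H.subtype) (hmapN ▸ Subgroup.map_mono h1)
      ((Subgroup.map_mono h2).trans hmapT.le) ((lvl_top_iff H _ _).1 h3) F
      ⟨fun g hg s hs => by
          obtain ⟨g, hg', rfl⟩ := hg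
          obtain ⟨s, hs', rfl⟩ := hs
          show F ((g * s : H) : Γ) = F g
          rw [hFv, hFv, hf.1 g hg' s hs'],
        fun g hg h hh => by
          obtain ⟨g, hg', rfl⟩ := hg
          obtain ⟨h, hh', rfl⟩ := hh
          show F ((g * h : H) : Γ) = (g : Γ) • F h + F g
          rw [hFv, hFv, hFv, hf.2 g hg' h hh']
          rfl⟩
    exact ⟨a, fun g hg => by rw [← hFv]; exact ha g ⟨g, hg, rfl⟩⟩
  · obtain ⟨c₀, hc₀, hgen⟩ := hC.step (H'.map H.subtype) (P'.map H.subtype) (hmapN ▸ Subgroup.map_mono h1)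
      ((Subgroup.map_mono h2).trans hmapT.le) ((lvl_top_iff H _ _).1 h3) (by rw [← hidx, h4])
    refine ⟨c₀, fun s hs => hc₀ s ⟨s, hs, rfl⟩, fun c hc => ?_⟩
    obtain ⟨k, y, hy, e⟩ := hgen c (by rintro _ ⟨s, hs, rfl⟩; exact hc s hs)
    refine ⟨k, y, fun s hs => hy s ⟨s, hs, rfl⟩, ?_⟩
    rw [e]
    congr 1
    have hl := (lvl_top_iff H _ _).1 h3
    simp only [normTo, csum]
    refine (finsum_comp_equiv ?_ (f := fun q => rep (H'.map H.subtype) (P'.map H.subtype) q • y)).symm.trans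
      (finsum_congr fun q => ?_)
    · exact Equiv.ofBijective (Quotient.map' (fun g : H' => (⟨((g : H) : Γ), g, g.2, rfl⟩ : ↥(H'.map H.subtype)))
        fun a b h => by
          rw [QuotientGroup.leftRel_apply, Subgroup.mem_subgroupOf] at h ⊢
          exact ⟨_, h, by simp⟩) ⟨fun a b hab => by
          induction a using Quotient.inductionOn' with | h a => ?_
          induction b using Quotient.inductionOn' with | h b => ?_
          obtain ⟨x, hx, e⟩ := Subgroup.mem_subgroupOf.1 (QuotientGroup.eq.1 hab)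
          refine QuotientGroup.eq.2 (Subgroup.mem_subgroupOf.2 ?_)
          have : x = ((a⁻¹ * b : H') : H) := H.subtype_injective (by simpa using e)
          exact this ▸ hx,
        fun q => by
          induction q using Quotient.inductionOn' with | h g => ?_
          obtain ⟨_, x, hx, rfl⟩ := g
          exact ⟨QuotientGroup.mk ⟨x, hx⟩, rfl⟩⟩
    · conv_lhs => rw [← QuotientGroup.out_eq' q]
      set z : ↥(H'.map H.subtype) ⧸ (P'.map H.subtype).subgroupOf (H'.map H.subtype) :=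
        QuotientGroup.mk ⟨((rep H' P' q : H) : Γ), rep H' P' q, rep_mem H' P' q, rfl⟩ with hz
      show rep (H'.map H.subtype) (P'.map H.subtype) z • y = _
      have h1' := QuotientGroup.out_eq' z
      conv_rhs at h1' => rw [hz]
      obtain ⟨x, hx, e⟩ := Subgroup.mem_subgroupOf.1 (QuotientGroup.eq.1 h1')
      show _ = (rep H' P' q : H) • y
      show _ = ((rep H' P' q : H) : Γ) • y
      rw [show ((rep H' P' q : H) : Γ) = rep (H'.map H.subtype) (P'.map H.subtype) z * (x : Γ) by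
        have e' : ((x : H) : Γ) = (rep (H'.map H.subtype) (P'.map H.subtype) z)⁻¹ * ((rep H' P' q : H) : Γ) := e
        rw [e', mul_inv_cancel_left], mul_smul, show (x : Γ) • y = y from hy _ ⟨x, hx, rfl⟩]
  · rw [hidx, hmapN, hmapT]
    refine hC.order k ?_
    classical
    obtain ⟨b, hb, hbc⟩ := hk
    refine ⟨fun g => if h : g ∈ H then b ⟨g, h⟩ else 0, fun g hg s hs => ?_, fun g hg h hh => ?_⟩
    · simp only [dif_pos hg, dif_pos (mul_mem hg (hN.le hs))]
      exact hb ⟨g, hg⟩ trivial ⟨s, hN.le hs⟩ hs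
    · simp only [dd1, dif_pos hg, dif_pos hh, dif_pos (mul_mem hg hh)]
      exact hbc ⟨g, hg⟩ trivial ⟨h, hh⟩ trivial

end transport

variable {u : Γ → Γ → A}

/-- Every extension on a class-module layer is a cap plus a norm. -/
theorem ClassModule.decomp_on.{v} (hC : ClassModule p H N u) (M : Type v) [AddCommGroup M]
    [DistribMulAction Γ M] [Finite M] (hM : ∀ s ∈ N, ∀ m : M, s • m = m) (hpM : ∀ m : M, p • m = 0)
    {e : Pre Γ M A} (he : IsExt H N e) :
    ∃ w : Γ → M → ℤ, IsCycle p H N w ∧ ∃ a₀ : Fn (M × M) A, a₀ ∈ symCoc ∧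
      (∀ s ∈ N, s • a₀ = a₀) ∧ ExtRel H e (capExt p H N u w + normExt H N a₀) := by
  classical
  have hN := hC.lvl
  let e' : Pre H M A := (e.1, fun g => e.2 g)
  have he' : IsExt (⊤ : Subgroup H) (N.subgroupOf H) e' :=
    ⟨he.sym, ⟨fun g _ s hs => he.coc.1 g g.2 s hs, fun g _ h _ => he.coc.2 g g.2 h h.2⟩,
      fun g _ => he.eqv g g.2⟩
  obtain ⟨w', hw', a₀, ha₀, ha₀N, W, hW1, hW2⟩ := hC.toTop.decomp M (fun s hs m => hM s hs m) hpM e' he'
  let w : Γ → M → ℤ := fun g => if h : g ∈ H then w' ⟨g, h⟩ else 0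
  have hwv : ∀ g : H, w g = w' g := fun g => by simp [w, g.2]
  have hwl : ∀ g ∈ H, ∀ s ∈ N, w (g * s) = w g := fun g hg s hs => by
    simp only [w, dif_pos hg, dif_pos (mul_mem hg (hN.le hs))]
    exact hw'.lvl ⟨g, hg⟩ trivial ⟨s, hN.le hs⟩ hs
  have hcyc : ∀ m, csum H N (fun h => w h (h • m) - w h m)
      = csum (⊤ : Subgroup H) (N.subgroupOf H) (fun h => w' h (h • m) - w' h m) := fun m => by
    rw [← csum_map_subtype hN (fun g hg s hs => by rw [hwl g hg s hs, mul_smul, hM s hs])]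
    exact csum_congr _ _ fun g _ => by rw [hwv]; rfl
  have hw : IsCycle p H N w := by
    refine ⟨hwl, fun g hg m n => ?_, fun m => ?_⟩
    · simp only [w, dif_pos hg]
      exact hw'.add ⟨g, hg⟩ trivial m n
    · rw [hcyc]; exact hw'.cyc m
  have hsymm : ∀ t : Γ, ∀ s ∈ N, ∀ x : M × M, (t * s)⁻¹ • x = t⁻¹ • x := fun t s hs x =>
    Prod.ext (inv_smul_eq_of_mem hM hs _) (inv_smul_eq_of_mem hM hs _)
  refine ⟨w, hw, a₀, ha₀, fun s hs => ha₀N ⟨s, hN.le hs⟩ hs, W, ?_, fun k hk => ?_⟩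
  · rw [← hW1]
    show e.1 - _ = e.1 - _
    congr 1
    rw [Prod.fst_add, Prod.fst_add]
    congr 1
    · ext x
      rw [capExt_fst, capExt_fst,
        ← csum_map_subtype hN (fun g hg s hs => csum_congr H N fun h hh => by
          rw [hC.z2.left_lvl hg hh hs, hsymm g s hs x])]
      refine csum_congr _ _ fun g _ => ?_
      rw [← csum_map_subtype hN (fun h hh s hs => by
        rw [hC.z2.right_lvl g.2 hh hs, hw.kap_lvl hh hs])]
      refine csum_congr _ _ fun h _ => ?_
      simp only [kap, hwv]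
      rfl
    · show normTo H N a₀ = normTo (⊤ : Subgroup H) (N.subgroupOf H) a₀
      rw [normTo, ← csum_map_subtype hN (fun g hg s hs => by rw [mul_smul, show s • a₀ = a₀ from ha₀N ⟨s, hN.le hs⟩ hs])]
      rfl
  · rw [← show ((W : Fn M A)) = W from rfl]
    have := hW2 ⟨k, hk⟩ trivial
    refine Eq.trans ?_ this
    show e.2 k - _ = e.2 k - _
    congr 1
    ext m
    simp only [Prod.snd_add, Pi.add_apply, Fn.add_apply, capExt_snd, normExt, Pi.zero_apply,
      Fn.zero_apply, add_zero]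
    rw [← csum_map_subtype hN (fun g hg s hs => by
      rw [hC.z2.right_lvl hk hg hs, ← mul_assoc, inv_smul_eq_of_mem hM hs])]
    refine congrArg Neg.neg (csum_congr _ _ fun g _ => ?_)
    simp only [eta, hcyc]
    rfl

end FLTAgent.Global
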