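import Fermat.Agent.Global.Ext.Pairs
import Fermat.Agent.Global.Ext.Decomp

/-!
Cycles as functionals on cochains: cycles killing all cocycles give norm extensions, and
functionals killing locally trivial cocycles are sums of pushed cycles.
-/

set_option autoImplicit false
set_option linter.unusedSectionVars false
set_option linter.unusedVariables false

noncomputable section

namespace FLTAgent.Global

variable {Γ : Type*} [Group Γ] {M : Type*} [AddCommGroup M] [DistribMulAction Γ M]
  {A : Type*} [AddCommGroup A] [DistribMulAction Γ A]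
  {H N : Subgroup Γ} {p : ℕ} [Fact p.Prime]

lemma IsZ1.mono {f : Γ → A} {H' N' : Subgroup Γ} (h : IsZ1 H N f) (hH : H' ≤ H) (hN : N' ≤ N) :
    IsZ1 H' N' f :=
  ⟨h.1.mono hH hN, fun g hg k hk => h.2 g (hH hg) k (hH hk)⟩

section space

variable (H N M) in
/-- Cochains as functions on the cosets. -/
abbrev Cfun := ↥H ⧸ N.subgroupOf H → M

variable (H N) in
/-- Restriction of a function to representatives. -/
def toC (f : Γ → M) : Cfun M H N := fun q => f (rep H N q)

open scoped Classical in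
/-- Extension of a function on cosets. -/
def ofC (F : Cfun M H N) (g : Γ) : M := if h : g ∈ H then F (QuotientGroup.mk ⟨g, h⟩) else 0

lemma mk_rep (q : ↥H ⧸ N.subgroupOf H) :
    (QuotientGroup.mk ⟨rep H N q, rep_mem H N q⟩ : ↥H ⧸ N.subgroupOf H) = q := QuotientGroup.out_eq' q

lemma ofC_apply {F : Cfun M H N} {g : Γ} (hg : g ∈ H) : ofC F g = F (QuotientGroup.mk ⟨g, hg⟩) := by
  simp [ofC, hg]

lemma toC_ofC (F : Cfun M H N) : toC H N (ofC F) = F :=
  funext fun q => by rw [toC, ofC_apply (rep_mem H N q), mk_rep]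

lemma mk_mul_mem (hN : Lvl H N) {g s : Γ} (hg : g ∈ H) (hs : s ∈ N) :
    (QuotientGroup.mk ⟨g * s, mul_mem hg (hN.le hs)⟩ : ↥H ⧸ N.subgroupOf H)
      = QuotientGroup.mk ⟨g, hg⟩ := by
  rw [eq_comm, QuotientGroup.eq, Subgroup.mem_subgroupOf]
  simpa using hs

lemma isLvl1_ofC (hN : Lvl H N) (F : Cfun M H N) : IsLvl1 H N (ofC F) := fun g hg s hs => by
  rw [ofC_apply hg, ofC_apply (mul_mem hg (hN.le hs)), mk_mul_mem hN hg hs]

lemma rep_mk_eq {g : Γ} (hg : g ∈ H) :
    ∃ s ∈ N, rep H N (QuotientGroup.mk (⟨g, hg⟩ : H)) = g * s := by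
  refine ⟨_, ?_, (mul_inv_cancel_left g _).symm⟩
  have := mk_rep (QuotientGroup.mk (⟨g, hg⟩ : H) : ↥H ⧸ N.subgroupOf H)
  rw [eq_comm, QuotientGroup.eq, Subgroup.mem_subgroupOf] at this
  simpa using this

lemma ofC_toC (hN : Lvl H N) {f : Γ → M} (hf : IsLvl1 H N f) {g : Γ} (hg : g ∈ H) :
    ofC (toC H N f) g = f g := by
  rw [ofC_apply hg, toC]
  obtain ⟨s, hs, e⟩ := rep_mk_eq (N := N) hg
  rw [e, hf g hg s hs]

open scoped Classical in
lemma sum_toC (hN : Lvl H N) [Fintype (↥H ⧸ N.subgroupOf H)] (w : Γ → M → ℤ) (f : Γ → M) :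
    zval H N w f = ∑ q, w (rep H N q) (toC H N f q) := csum_eq_sum H N _

/-- A functional killing the boundaries is a cycle. -/
theorem exists_cycle_of_functional (hN : Lvl H N)
    (φ : Cfun M H N →+ ZMod p) (h0 : ∀ m : M, φ (toC H N (dd0 m)) = 0) :
    ∃ w : Γ → M → ℤ, IsCycle p H N w ∧ ∀ f : Γ → M, (zval H N w f : ZMod p) = φ (toC H N f) := by
  classical
  have := NeZero.mk (Fact.out : p.Prime).ne_zero
  have := hN.fin
  have := Fintype.ofFinite (↥H ⧸ N.subgroupOf H)
  let w : Γ → M → ℤ := fun g m => if h : g ∈ H then ((φ (Pi.single (QuotientGroup.mk ⟨g, h⟩) m)).val : ℤ) else 0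
  have hw : ∀ g (hg : g ∈ H) m, ((w g m : ℤ) : ZMod p) = φ (Pi.single (QuotientGroup.mk ⟨g, hg⟩) m) := by
    intro g hg m
    simp only [w, dif_pos hg, Int.cast_natCast, ZMod.natCast_zmod_val]
  have hval : ∀ f : Γ → M, (zval H N w f : ZMod p) = φ (toC H N f) := by
    intro f
    rw [sum_toC hN]
    push_cast
    conv_rhs => rw [← Finset.univ_sum_single (toC H N f), map_sum]
    exact Finset.sum_congr rfl fun q _ => by rw [hw _ (rep_mem H N q), mk_rep]
  refine ⟨w, ⟨fun g hg s hs => ?_, fun g hg m n => ?_, fun m => ?_⟩, hval⟩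
  · funext m
    simp only [w, dif_pos hg, dif_pos (mul_mem hg (hN.le hs)), mk_mul_mem hN hg hs]
  · rw [← ZMod.intCast_zmod_eq_zero_iff_dvd]
    push_cast
    rw [hw g hg, hw g hg, hw g hg, ← map_add, ← map_sub, ← Pi.single_add, ← Pi.single_sub, sub_self,
      Pi.single_zero, map_zero]
  · rw [← ZMod.intCast_zmod_eq_zero_iff_dvd, csum_eq_sum]
    push_cast
    rw [← h0 m, ← Finset.univ_sum_single (toC H N (dd0 m)), map_sum]
    exact Finset.sum_congr rfl fun q _ => by
      rw [hw _ (rep_mem H N q), hw _ (rep_mem H N q), mk_rep, ← map_sub, ← Pi.single_sub]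
      rfl

/-- The value of a cycle as a functional. -/
theorem exists_functional_of_cycle (hN : Lvl H N) {w : Γ → M → ℤ} (hw : IsCycle p H N w) :
    ∃ φ : Cfun M H N →+ ZMod p, (∀ m : M, φ (toC H N (dd0 m)) = 0) ∧
      ∀ f : Γ → M, φ (toC H N f) = (zval H N w f : ZMod p) := by
  classical
  have := hN.fin
  have := Fintype.ofFinite (↥H ⧸ N.subgroupOf H)
  have hadd : ∀ g ∈ H, ∀ m n, ((w g (m + n) : ℤ) : ZMod p) = (w g m : ZMod p) + (w g n : ZMod p) := by
    intro g hg m n
    rw [← Int.cast_add, eq_comm, ← sub_eq_zero, ← Int.cast_sub, ZMod.intCast_zmod_eq_zero_iff_dvd]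
    exact hw.add g hg m n
  let φ : Cfun M H N →+ ZMod p := AddMonoidHom.mk' (fun F => ∑ q, (w (rep H N q) (F q) : ZMod p))
    fun F G => by simp only [Pi.add_apply, hadd _ (rep_mem H N _), Finset.sum_add_distrib]
  have hval : ∀ f : Γ → M, φ (toC H N f) = (zval H N w f : ZMod p) := fun f => by
    rw [sum_toC hN]; push_cast; rfl
  refine ⟨φ, fun m => ?_, hval⟩
  rw [hval, ZMod.intCast_zmod_eq_zero_iff_dvd, zval]
  refine (Int.dvd_iff_dvd_of_dvd_sub ?_).2 (hw.cyc m)
  rw [← csum_sub hN]
  refine (ZMod.intCast_zmod_eq_zero_iff_dvd _ p).1 ?_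
  rw [csum_eq_sum]
  push_cast
  refine Finset.sum_eq_zero fun q _ => ?_
  rw [dd0]
  have e := hadd _ (rep_mem H N q) (rep H N q • m - m) m
  rw [sub_add_cancel] at e
  rw [e]; ring

variable (hp : ∀ m : M, p • m = 0)

include hp in
/-- A cocycle-killing functional factors through the coboundary. -/
theorem exists_eq_comp_coboundary (hN : Lvl H N) (hM : ∀ s ∈ N, ∀ m : M, s • m = m)
    (φ : Cfun M H N →+ ZMod p) (hφ : ∀ f : Γ → M, IsZ1 H N f → φ (toC H N f) = 0) :
    ∃ ψ : (↥H ⧸ N.subgroupOf H → ↥H ⧸ N.subgroupOf H → M) →+ ZMod p, ∀ F : Cfun M H N,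
      φ F = ψ (fun q r => dd1 (ofC F) (rep H N q) (rep H N r)) := by
  let : Module (ZMod p) M := AddCommGroup.zmodModule hp
  have : Finite (↥H ⧸ N.subgroupOf H) := hN.fin
  let d : Cfun M H N →+ (↥H ⧸ N.subgroupOf H → ↥H ⧸ N.subgroupOf H → M) :=
    AddMonoidHom.mk' (fun F q r => dd1 (ofC F) (rep H N q) (rep H N r)) fun F G => by
      funext q r
      have e : ofC (F + G) = ofC F + ofC G := funext fun g => by
        by_cases h : g ∈ H
        · simp [ofC, h]
        · simp [ofC, h]
      simp only [e, dd1_add, Pi.add_apply]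
  have hker : ∀ F, d F = 0 → φ F = 0 := by
    intro F hF
    rw [← toC_ofC F]
    refine hφ _ ⟨isLvl1_ofC hN F, fun g hg h hh => ?_⟩
    obtain ⟨q, hq⟩ : ∃ q, q = (QuotientGroup.mk ⟨g, hg⟩ : ↥H ⧸ N.subgroupOf H) := ⟨_, rfl⟩
    obtain ⟨r, hr⟩ : ∃ r, r = (QuotientGroup.mk ⟨h, hh⟩ : ↥H ⧸ N.subgroupOf H) := ⟨_, rfl⟩
    obtain ⟨s, hs, rfl⟩ : ∃ s ∈ N, g = rep H N q * s := ⟨_, by
      have := mk_rep q
      rw [hq, QuotientGroup.eq, Subgroup.mem_subgroupOf] at this
      simpa [hq] using this, (mul_inv_cancel_left _ g).symm⟩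
    obtain ⟨t, ht, rfl⟩ : ∃ t ∈ N, h = rep H N r * t := ⟨_, by
      have := mk_rep r
      rw [hr, QuotientGroup.eq, Subgroup.mem_subgroupOf] at this
      simpa [hr] using this, (mul_inv_cancel_left _ h).symm⟩
    have hl := isLvl1_ofC hN F
    have hF' : rep H N q • ofC F (rep H N r) - ofC F (rep H N q * rep H N r) + ofC F (rep H N q) = 0 :=
      congrFun (congrFun hF q) r
    have e : rep H N q * s * (rep H N r * t)
        = rep H N q * rep H N r * (((rep H N r)⁻¹ * s * rep H N r) * t) := by group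
    rw [e, hl _ (mul_mem (rep_mem H N q) (rep_mem H N r)) _ (mul_mem (hN.conj _ (rep_mem H N r) _ hs) ht),
      hl _ (rep_mem H N r) _ ht, hl _ (rep_mem H N q) _ hs, mul_smul, hM s hs]
    rw [← sub_eq_zero, ← neg_eq_zero, ← hF']
    abel
  obtain ⟨ψ, hψ⟩ : φ.toZModLinearMap p ∈ LinearMap.range (d.toZModLinearMap p).dualMap := by
    rw [LinearMap.range_dualMap_eq_dualAnnihilator_ker, Submodule.mem_dualAnnihilator]
    exact fun F hF => hker F hF
  exact ⟨ψ.toAddMonoidHom, fun F => (LinearMap.congr_fun hψ F).symm⟩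

end space

section boundary

variable (H N) in
/-- The boundary of an integral 2-chain. -/
def bdry (ψ : Γ → Γ → M → ℤ) (x : Γ) (m : M) : ℤ :=
  csum H N (fun g => ψ g x (g • m)) - csum H N (fun g => ψ g (g⁻¹ * x) m) + csum H N (fun h => ψ x h m)

variable (hN : Lvl H N) (hM : ∀ s ∈ N, ∀ m : M, s • m = m)

/-- A 2-chain: level and additivity modulo `p`. -/
structure IsChain (p : ℕ) (H N : Subgroup Γ) (ψ : Γ → Γ → M → ℤ) : Prop where
  lvl : IsLvl2 H N ψ
  add : ∀ g ∈ H, ∀ h ∈ H, ∀ m n, (p : ℤ) ∣ ψ g h m + ψ g h n - ψ g h (m + n)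

variable {ψ : Γ → Γ → M → ℤ}

lemma IsChain.left (hψ : IsChain p H N ψ) {g h s : Γ} (hg : g ∈ H) (hh : h ∈ H) (hs : s ∈ N) :
    ψ (g * s) h = ψ g h := by
  simpa using hψ.lvl g hg h hh s hs 1 N.one_mem

lemma IsChain.right (hψ : IsChain p H N ψ) {g h s : Γ} (hg : g ∈ H) (hh : h ∈ H) (hs : s ∈ N) :
    ψ g (h * s) = ψ g h := by
  simpa using hψ.lvl g hg h hh 1 N.one_mem s hs

/-- The carry of a chain. -/
def chainKap (p : ℕ) (ψ : Γ → Γ → M → ℤ) (g h : Γ) (x : M × M) : ℤ :=
  (ψ g h x.1 + ψ g h x.2 - ψ g h (x.1 + x.2)) / p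

lemma IsChain.p_kap (hψ : IsChain p H N ψ) {g h : Γ} (hg : g ∈ H) (hh : h ∈ H) (x : M × M) :
    (p : ℤ) * chainKap p ψ g h x = ψ g h x.1 + ψ g h x.2 - ψ g h (x.1 + x.2) :=
  Int.mul_ediv_cancel' (hψ.add g hg h hh x.1 x.2)

include hN hM in
lemma csum_bdry_eq (hψ : IsChain p H N ψ) (m : M) :
    csum H N (fun x => bdry H N ψ x (x • m) - bdry H N ψ x m) = 0 := by
  have shift : ∀ (v : Γ → Γ → ℤ), (∀ g ∈ H, ∀ h ∈ H, ∀ s ∈ N, v g (h * s) = v g h) →
      csum H N (fun x => csum H N (fun g => v g (g⁻¹ * x))) = csum H N (fun g => csum H N (fun h => v g h)) := by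
    intro v hv
    rw [csum_comm hN hN]
    refine csum_congr H N fun g hg => ?_
    exact csum_mul_left (F := fun h => v g h) (fun h hh s hs => hv g hg h hh s hs) (H.inv_mem hg)
  have e1 := shift (fun g h => ψ g h ((g * h) • m)) fun g hg h hh s hs => by
    rw [hψ.right hg hh hs, ← mul_assoc g h s, mul_smul (g * h), hM s hs]
  have e2 := shift (fun g h => ψ g h m) fun g hg h hh s hs => by rw [hψ.right hg hh hs]
  simp only [mul_inv_cancel_left] at e1
  simp only [bdry, smul_smul]
  rw [csum_congr H N (G := fun x => csum H N (fun g => ψ g x ((g * x) • m))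
      - csum H N (fun g => ψ g (g⁻¹ * x) (x • m)) + csum H N (fun h => ψ x h (x • m))
      - (csum H N (fun g => ψ g x (g • m)) - csum H N (fun g => ψ g (g⁻¹ * x) m)
        + csum H N (fun h => ψ x h m))) (fun x _ => by rfl),
    csum_sub hN, csum_add H N hN.fin, csum_add H N hN.fin, csum_sub hN, csum_sub hN, e1, e2,
    csum_comm hN hN (fun x g => ψ g x ((g * x) • m)), csum_comm hN hN (fun x g => ψ g x (g • m))]
  ring

include hN hM in
lemma isCycle_bdry (hψ : IsChain p H N ψ) : IsCycle p H N (bdry H N ψ) := by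
  refine ⟨fun x hx s hs => funext fun m => ?_, fun x hx m n => ?_, fun m => ?_⟩
  · simp only [bdry]
    rw [csum_congr H N (G := fun g => ψ g x (g • m)) (fun g hg => by rw [hψ.right hg hx hs]),
      csum_congr H N (F := fun g => ψ g (g⁻¹ * (x * s)) m) (G := fun g => ψ g (g⁻¹ * x) m)
        (fun g hg => by rw [← mul_assoc, hψ.right hg (mul_mem (H.inv_mem hg) hx) hs]),
      csum_congr H N (F := fun h => ψ (x * s) h m) (G := fun h => ψ x h m) (fun h hh => by rw [hψ.left hx hh hs])]
  · refine ⟨csum H N (fun g => chainKap p ψ g x (g • (m, n)))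
      - csum H N (fun g => chainKap p ψ g (g⁻¹ * x) (m, n)) + csum H N (fun h => chainKap p ψ x h (m, n)), ?_⟩
    rw [mul_add, mul_sub, ← smul_eq_mul, ← smul_eq_mul, ← smul_eq_mul, zsmul_csum hN, zsmul_csum hN,
      zsmul_csum hN]
    simp only [smul_eq_mul, bdry]
    rw [csum_congr H N (F := fun g => (p : ℤ) * chainKap p ψ g x (g • ((m, n) : M × M)))
        (G := fun g => ψ g x (g • m) + ψ g x (g • n) - ψ g x (g • (m + n)))
        (fun g hg => by rw [hψ.p_kap hg hx, Prod.smul_mk]; simp only [smul_add]),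
      csum_congr H N (F := fun g => (p : ℤ) * chainKap p ψ g (g⁻¹ * x) (m, n))
        (G := fun g => ψ g (g⁻¹ * x) m + ψ g (g⁻¹ * x) n - ψ g (g⁻¹ * x) (m + n))
        (fun g hg => hψ.p_kap hg (mul_mem (H.inv_mem hg) hx) _),
      csum_congr H N (F := fun h => (p : ℤ) * chainKap p ψ x h (m, n))
        (G := fun h => ψ x h m + ψ x h n - ψ x h (m + n)) (fun h hh => hψ.p_kap hx hh _),
      csum_sub hN, csum_add H N hN.fin, csum_sub hN, csum_add H N hN.fin, csum_sub hN, csum_add H N hN.fin]
    ring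
  · rw [csum_bdry_eq hN hM hψ]
    exact dvd_zero _

include hN hM in
/-- The cap with a boundary is a norm. -/
theorem capExt_bdry {u : Γ → Γ → A} (hu : IsZ2 H N u) (hψ : IsChain p H N ψ) :
    ∃ α : Fn (M × M) A, α ∈ symCoc ∧ (∀ s ∈ N, s • α = α) ∧
      ExtRel H (capExt p H N u (bdry H N ψ) : Pre Γ M A) (normExt H N α) := by
  have hp : (p : ℤ) ≠ 0 := Int.natCast_ne_zero.2 (Fact.out : p.Prime).ne_zero
  let κ := chainKap p ψ
  let α : Fn (M × M) A := fun x => csum H N (fun g => csum H N (fun h => κ g h x • u g h))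
  refine ⟨α, ⟨fun m n => ?_, fun m n k => ?_⟩, fun s hs => ?_, ExtRel.of_eq ?_ fun k hk => ?_⟩
  · refine csum_congr H N fun g _ => csum_congr H N fun h _ => ?_
    simp only [κ, chainKap]
    rw [add_comm (ψ g h m), add_comm m]
  · simp only [α]
    rw [← csum_add H N hN.fin, ← csum_add H N hN.fin]
    refine csum_congr H N fun g hg => ?_
    rw [← csum_add H N hN.fin, ← csum_add H N hN.fin]
    refine csum_congr H N fun h hh => ?_
    rw [← add_smul, ← add_smul]
    congr 1
    refine mul_left_cancel₀ hp ?_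
    simp only [mul_add, κ, hψ.p_kap hg hh, add_assoc]
    ring
  · ext x
    rw [Fn.smul_apply]
    simp only [α]
    rw [smul_csum hN]
    refine csum_congr H N fun g hg => ?_
    rw [smul_csum hN]
    refine csum_congr H N fun h hh => ?_
    have hx : s⁻¹ • x = x := Prod.ext (hM _ (N.inv_mem hs) x.1) (hM _ (N.inv_mem hs) x.2)
    rw [hx, smul_comm s, hu.smul_eq hN hg hh hs]
  · ext x
    show _ = (normTo H N α) x
    rw [normTo, eval_csum hN, capExt_fst]
    set y : Γ → M × M := fun t => t⁻¹ • x with hy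
    have hyl : ∀ t ∈ H, ∀ s ∈ N, y (t * s) = y t := fun t _ s hs => by
      simp only [hy]
      exact Prod.ext (inv_smul_eq_of_mem hM hs _) (inv_smul_eq_of_mem hM hs _)
    have hk : ∀ t, ∀ z ∈ H, kap p (bdry H N ψ) z (y t) = csum H N (fun g => κ g z (g • y t))
        - csum H N (fun g => κ g (g⁻¹ * z) (y t)) + csum H N (fun h => κ z h (y t)) := by
      intro t z hz
      refine mul_left_cancel₀ hp ?_
      rw [(isCycle_bdry hN hM hψ).p_kap hz, mul_add, mul_sub, ← smul_eq_mul (p : ℤ), ← smul_eq_mul (p : ℤ),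
        ← smul_eq_mul (p : ℤ), zsmul_csum hN, zsmul_csum hN, zsmul_csum hN]
      simp only [smul_eq_mul, bdry]
      rw [csum_congr H N (F := fun g => (p : ℤ) * κ g z (g • y t))
          (G := fun g => ψ g z (g • (y t).1) + ψ g z (g • (y t).2) - ψ g z (g • ((y t).1 + (y t).2)))
          (fun g hg => by rw [hψ.p_kap hg hz, Prod.smul_fst, Prod.smul_snd, smul_add]),
        csum_congr H N (F := fun g => (p : ℤ) * κ g (g⁻¹ * z) (y t))
          (G := fun g => ψ g (g⁻¹ * z) (y t).1 + ψ g (g⁻¹ * z) (y t).2 - ψ g (g⁻¹ * z) ((y t).1 + (y t).2))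
          (fun g hg => hψ.p_kap hg (mul_mem (H.inv_mem hg) hz) _),
        csum_congr H N (F := fun h => (p : ℤ) * κ z h (y t))
          (G := fun h => ψ z h (y t).1 + ψ z h (y t).2 - ψ z h ((y t).1 + (y t).2))
          (fun h hh => hψ.p_kap hz hh _),
        csum_sub hN, csum_add H N hN.fin, csum_sub hN, csum_add H N hN.fin, csum_sub hN, csum_add H N hN.fin]
      ring
    have T : ∀ (F : Γ → Γ → Γ → A), csum H N (fun t => csum H N (fun z => csum H N (fun g => F t z g)))
        = csum H N (fun g => csum H N (fun z => csum H N (fun t => F t z g))) := fun F => by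
      rw [csum_comm hN hN, csum_congr H N fun z _ => csum_comm hN hN (fun t g => F t z g), csum_comm hN hN]
    calc csum H N (fun t => csum H N (fun z => kap p (bdry H N ψ) z (t⁻¹ • x) • u t z))
        = csum H N (fun t => csum H N (fun z => csum H N (fun g => κ g z (g • y t) • u t z)))
          - csum H N (fun t => csum H N (fun z => csum H N (fun g => κ g (g⁻¹ * z) (y t) • u t z)))
          + csum H N (fun t => csum H N (fun z => csum H N (fun h => κ z h (y t) • u t z))) := by
          rw [← csum_sub hN, ← csum_add H N hN.fin]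
          refine csum_congr H N fun t _ => ?_
          rw [← csum_sub hN, ← csum_add H N hN.fin]
          refine csum_congr H N fun z hz => ?_
          rw [hk t z hz, add_smul, sub_smul, ← csum_zsmul hN, ← csum_zsmul hN, ← csum_zsmul hN]
      _ = csum H N (fun g => csum H N (fun h => csum H N (fun t => κ g h (y t) • u (t * g) h)))
          - csum H N (fun g => csum H N (fun h => csum H N (fun t => κ g h (y t) • u t (g * h))))
          + csum H N (fun g => csum H N (fun h => csum H N (fun t => κ g h (y t) • u t g))) := by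
          congr 1
          congr 1
          · rw [T]
            refine csum_congr H N fun g hg => csum_congr H N fun h hh => ?_
            rw [← csum_mul_right hN (F := fun t => κ g h (g • y t) • u t h)
              (fun t ht s hs => by rw [hyl t ht s hs, hu.left_lvl ht hh hs]) hg]
            refine csum_congr H N fun t _ => ?_
            simp only [hy, mul_inv_rev, mul_smul, smul_inv_smul]
          · rw [T]
            refine csum_congr H N fun g hg => ?_
            rw [← csum_mul_left (k := g) (F := fun z => csum H N (fun t => κ g (g⁻¹ * z) (y t) • u t z))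
              (fun z hz s hs => csum_congr H N fun t ht => by
                rw [← mul_assoc, hu.right_lvl ht hz hs]
                simp only [κ, chainKap, hψ.right hg (mul_mem (H.inv_mem hg) hz) hs]) hg]
            simp only [inv_mul_cancel_left]
          · rw [csum_comm hN hN, csum_congr H N fun z _ => csum_comm hN hN (fun t h => κ z h (y t) • u t z)]
      _ = csum H N (fun t => (t • α) x) := by
          rw [csum_congr H N (F := fun t => (t • α) x)
            (G := fun t => csum H N (fun g => csum H N (fun h => t • (κ g h (y t) • u g h)))) fun t _ => ?_,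
            T (fun t g h => t • (κ g h (y t) • u g h)),
            csum_comm hN hN (fun h g => csum H N (fun t => t • (κ g h (y t) • u g h))), ← csum_sub hN,
            ← csum_add H N hN.fin]
          · refine csum_congr H N fun g hg => ?_
            rw [← csum_sub hN, ← csum_add H N hN.fin]
            refine csum_congr H N fun h hh => ?_
            rw [← csum_sub hN, ← csum_add H N hN.fin]
            refine csum_congr H N fun t ht => ?_
            rw [smul_comm t, ← smul_sub, ← smul_add]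
            congr 1
            have e := hu.2 t ht g hg h hh
            rw [← sub_eq_zero, ← neg_eq_zero, ← e]
            abel
          · rw [Fn.smul_apply]
            simp only [α, smul_csum hN]
            rfl
  · ext m
    rw [capExt_snd]
    show _ = (0 : A)
    rw [neg_eq_zero, csum_congr H N (G := fun _ => (0 : A)) fun g _ => ?_, csum_zero]
    rw [eta, csum_bdry_eq hN hM hψ, Int.zero_ediv, zero_smul]

end boundary

section compare

variable (hN : Lvl H N) (hM : ∀ s ∈ N, ∀ m : M, s • m = m) {u u' : Γ → Γ → A} {w w' : Γ → M → ℤ}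

include hN hM in
/-- The cap with a cycle divisible by `p` is trivial. -/
theorem capExt_dvd (hu : IsZ2 H N u) (hw : IsCycle p H N w) (hdvd : ∀ g ∈ H, ∀ m, (p : ℤ) ∣ w g m) :
    ExtRel H (capExt p H N u w : Pre Γ M A) 0 := by
  have hp : (p : ℤ) ≠ 0 := Int.natCast_ne_zero.2 (Fact.out : p.Prime).ne_zero
  let v : Γ → M → ℤ := fun g m => w g m / p
  have hv : ∀ g ∈ H, ∀ m, w g m = p * v g m := fun g hg m => (Int.mul_ediv_cancel' (hdvd g hg m)).symm
  let W : Fn M A := fun m => csum H N (fun g => csum H N (fun h => v h (g⁻¹ • m) • u g h))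
  have heta : ∀ m, eta p H N w m = csum H N (fun h => v h (h • m) - v h m) := fun m => by
    refine mul_left_cancel₀ hp ?_
    rw [hw.p_eta, ← smul_eq_mul (p : ℤ), zsmul_csum hN]
    exact csum_congr H N fun h hh => by rw [smul_eq_mul, mul_sub, hv h hh, hv h hh]
  refine ⟨W, ?_, fun k hk => ?_⟩
  · ext ⟨m, n⟩
    rw [Prod.fst_zero, sub_zero, capExt_fst, del_apply]
    simp only [W]
    rw [← csum_add H N hN.fin, ← csum_sub hN]
    refine csum_congr H N fun g hg => ?_
    rw [← csum_add H N hN.fin, ← csum_sub hN]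
    refine csum_congr H N fun h hh => ?_
    rw [← add_smul, ← sub_smul]
    congr 1
    refine mul_left_cancel₀ hp ?_
    rw [hw.p_kap hh, Prod.smul_mk, hv h hh, hv h hh, hv h hh, ← smul_add]
    ring
  · ext m
    rw [Prod.snd_zero, Pi.zero_apply, sub_zero, capExt_snd, dd0, Fn.sub_apply, Fn.smul_apply]
    simp only [W]
    have e2 : csum H N (fun g => csum H N (fun h => v h ((k * g)⁻¹ • m) • u k (g * h)))
        = csum H N (fun g => csum H N (fun h => v h (h • (k * g)⁻¹ • m) • u k g)) := by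
      rw [csum_comm hN hN, csum_comm hN hN (fun g h => v h (h • _) • u k g)]
      refine csum_congr H N fun h hh => ?_
      rw [← csum_mul_right hN (F := fun g => v h (h • (k * g)⁻¹ • m) • u k g)
        (fun g hg s hs => by
          rw [hu.right_lvl hk hg hs, ← mul_assoc, inv_smul_eq_of_mem hM hs]) hh]
      refine csum_congr H N fun g _ => ?_
      simp only [← mul_smul, mul_inv_rev, ← mul_assoc, mul_inv_cancel, one_mul]
    rw [← csum_mul_left (k := k) (F := fun g => csum H N (fun h => v h (g⁻¹ • m) • u g h))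
      (fun g hg s hs => csum_congr H N fun h hh => by rw [hu.left_lvl hg hh hs, inv_smul_eq_of_mem hM hs]) hk,
      smul_csum hN]
    rw [csum_congr H N (F := fun g => k • csum H N (fun h => v h (g⁻¹ • k⁻¹ • m) • u g h))
      (G := fun g => csum H N (fun h => v h ((k * g)⁻¹ • m) • u (k * g) h)
        + csum H N (fun h => v h ((k * g)⁻¹ • m) • u k g)
        - csum H N (fun h => v h ((k * g)⁻¹ • m) • u k (g * h))) (fun g hg => by
      rw [smul_csum hN, ← csum_add H N hN.fin, ← csum_sub hN]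
      refine csum_congr H N fun h hh => ?_
      have e := hu.2 k hk g hg h hh
      rw [mul_inv_rev k g, mul_smul g⁻¹ k⁻¹, smul_comm k, ← smul_add, ← smul_sub]
      congr 1
      rw [sub_eq_zero] at e
      rw [← e]
      abel),
      csum_sub hN, csum_add H N hN.fin, e2, show ∀ a b c : A, a + b - c - a = -(c - b) by intros; abel]
    rw [← csum_sub hN]
    congr 1
    refine csum_congr H N fun g _ => ?_
    rw [← csum_sub hN, heta, ← csum_zsmul hN]
    exact csum_congr H N fun h _ => sub_smul _ _ _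

include hN hM in
/-- Cycles that agree on cocycles have caps that differ by a norm. -/
theorem capExt_congr_zval (hp : ∀ m : M, p • m = 0) (hu : IsZ2 H N u) (hw : IsCycle p H N w)
    (hw' : IsCycle p H N w')
    (h : ∀ f : Γ → M, IsZ1 H N f → (zval H N w f : ZMod p) = zval H N w' f) :
    ∃ α : Fn (M × M) A, α ∈ symCoc ∧ (∀ s ∈ N, s • α = α) ∧
      ExtRel H (capExt p H N u w : Pre Γ M A) (capExt p H N u w' + normExt H N α) := by
  classical
  have := NeZero.mk (Fact.out : p.Prime).ne_zero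
  have := hN.fin
  have := Fintype.ofFinite (↥H ⧸ N.subgroupOf H)
  obtain ⟨φ, -, hφ⟩ := exists_functional_of_cycle hN hw
  obtain ⟨φ', -, hφ'⟩ := exists_functional_of_cycle hN hw'
  obtain ⟨Ψ, hΨ⟩ := exists_eq_comp_coboundary hp hN hM (φ - φ') fun f hf => by
    rw [AddMonoidHom.sub_apply, hφ, hφ', h f hf, sub_self]
  -- the chain
  let pick : ↥H ⧸ N.subgroupOf H → ↥H ⧸ N.subgroupOf H → M → (↥H ⧸ N.subgroupOf H → ↥H ⧸ N.subgroupOf H → M) :=
    fun q r m => Pi.single q (Pi.single r m)
  let ψ : Γ → Γ → M → ℤ := fun g k m => if hg : g ∈ H then (if hk : k ∈ H then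
    ((Ψ (pick (QuotientGroup.mk ⟨g, hg⟩) (QuotientGroup.mk ⟨k, hk⟩) m)).val : ℤ) else 0) else 0
  have hψv : ∀ g (hg : g ∈ H) k (hk : k ∈ H) m, ((ψ g k m : ℤ) : ZMod p)
      = Ψ (pick (QuotientGroup.mk ⟨g, hg⟩) (QuotientGroup.mk ⟨k, hk⟩) m) := fun g hg k hk m => by
    simp only [ψ, dif_pos hg, dif_pos hk, Int.cast_natCast, ZMod.natCast_zmod_val]
  have hψ : IsChain p H N ψ := by
    refine ⟨fun g hg k hk s hs t ht => funext fun m => ?_, fun g hg k hk m n => ?_⟩
    · simp only [ψ, dif_pos hg, dif_pos hk, dif_pos (mul_mem hg (hN.le hs)), dif_pos (mul_mem hk (hN.le ht)),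
        mk_mul_mem hN hg hs, mk_mul_mem hN hk ht]
    · rw [← ZMod.intCast_zmod_eq_zero_iff_dvd]
      push_cast
      rw [hψv g hg k hk, hψv g hg k hk, hψv g hg k hk, ← map_add, ← map_sub]
      simp only [pick, ← Pi.single_add, sub_self, map_zero]
  have hB := isCycle_bdry hN hM hψ
  -- `w - w' ≡ bdry ψ`
  have hval : ∀ f : Γ → M, IsLvl1 H N f → (zval H N (bdry H N ψ) f : ZMod p)
      = Ψ (fun q r => dd1 (ofC (toC H N f)) (rep H N q) (rep H N r)) := by
    intro f hf
    have shift : ∀ (v : Γ → Γ → ℤ), (∀ g ∈ H, ∀ k ∈ H, ∀ s ∈ N, v g (k * s) = v g k) →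
        csum H N (fun x => csum H N (fun g => v g (g⁻¹ * x))) = csum H N (fun g => csum H N (fun k => v g k)) := by
      intro v hv
      rw [csum_comm hN hN]
      exact csum_congr H N fun g hg =>
        csum_mul_left (F := fun k => v g k) (fun k hk s hs => hv g hg k hk s hs) (H.inv_mem hg)
    have e1 := shift (fun g k => ψ g k (f (g * k))) fun g hg k hk s hs => by
      rw [hψ.right hg hk hs, ← mul_assoc, hf _ (mul_mem hg hk) s hs]
    simp only [mul_inv_cancel_left] at e1
    rw [zval]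
    simp only [bdry]
    rw [csum_add H N hN.fin, csum_sub hN, e1, csum_comm hN hN (fun x g => ψ g x (g • f x))]
    simp only [csum_eq_sum]
    push_cast
    rw [← Finset.sum_sub_distrib, ← Finset.sum_add_distrib]
    conv_rhs => rw [← Finset.univ_sum_single (fun q r => dd1 (ofC (toC H N f)) (rep H N q) (rep H N r)), map_sum]
    refine Finset.sum_congr rfl fun q _ => ?_
    rw [← Finset.sum_sub_distrib, ← Finset.sum_add_distrib,
      ← Finset.univ_sum_single (fun r => dd1 (ofC (toC H N f)) (rep H N q) (rep H N r)),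
      show (Pi.single q (∑ r, Pi.single r (dd1 (ofC (toC H N f)) (rep H N q) (rep H N r))) :
        ↥H ⧸ N.subgroupOf H → ↥H ⧸ N.subgroupOf H → M)
        = ∑ r, Pi.single q (Pi.single r (dd1 (ofC (toC H N f)) (rep H N q) (rep H N r))) from
        map_sum (AddMonoidHom.single (fun _ : ↥H ⧸ N.subgroupOf H => ↥H ⧸ N.subgroupOf H → M) q) _ _,
      map_sum]
    refine Finset.sum_congr rfl fun r _ => ?_
    have hq := rep_mem H N q
    have hr := rep_mem H N r
    rw [hψv _ hq _ hr, hψv _ hq _ hr, hψv _ hq _ hr, mk_rep, mk_rep, ← map_sub, ← map_add]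
    simp only [pick, ← Pi.single_add, ← Pi.single_sub]
    rw [dd1, ofC_toC hN hf hr, ofC_toC hN hf hq, ofC_toC hN hf (mul_mem hq hr)]
  have hdiff : ∀ g ∈ H, ∀ m, (p : ℤ) ∣ w g m - w' g m - bdry H N ψ g m := by
    intro g hg m
    rw [← ZMod.intCast_zmod_eq_zero_iff_dvd]
    let F : Γ → M := ofC (Pi.single (QuotientGroup.mk ⟨g, hg⟩) m : Cfun M H N)
    have hF : IsLvl1 H N F := isLvl1_ofC hN _
    have hzero : ∀ (v : Γ → M → ℤ), IsCycle p H N v → ((zval H N v F : ℤ) : ZMod p) = (v g m : ZMod p) := by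
      intro v hv
      rw [sum_toC hN]
      simp only [F, toC_ofC]
      push_cast
      rw [Finset.sum_eq_single (QuotientGroup.mk (⟨g, hg⟩ : H) : ↥H ⧸ N.subgroupOf H)]
      · rw [Pi.single_eq_same]
        obtain ⟨t, ht, e⟩ := rep_mk_eq (N := N) hg
        rw [e, hv.lvl g hg t ht]
      · intro q _ hq
        rw [Pi.single_eq_of_ne hq, ZMod.intCast_zmod_eq_zero_iff_dvd]
        have := hv.add _ (rep_mem H N q) 0 0
        simpa using this
      · intro h'; exact absurd (Finset.mem_univ _) h'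
    have e := hval F hF
    rw [hzero _ hB, ← hΨ, AddMonoidHom.sub_apply, hφ, hφ', hzero _ hw, hzero _ hw'] at e
    push_cast
    rw [e, sub_self]
  -- assemble
  obtain ⟨α, hα, hαN, hcap⟩ := capExt_bdry hN hM hu hψ
  have hd : IsCycle p H N (w - w' - bdry H N ψ) := by
    refine ⟨fun g hg s hs => ?_, fun g hg m n => ?_, fun m => ?_⟩
    · simp only [Pi.sub_apply, hw.lvl g hg s hs, hw'.lvl g hg s hs, hB.lvl g hg s hs]
    · exact Int.dvd_sub (Int.dvd_add (hdiff g hg m) (hdiff g hg n)) (hdiff g hg _)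
    · rw [csum_eq_sum]
      exact Finset.dvd_sum fun q _ => Int.dvd_sub (hdiff _ (rep_mem H N q) _) (hdiff _ (rep_mem H N q) _)
  refine ⟨α, hα, hαN, ?_⟩
  rw [show w = (w - w' - bdry H N ψ) + (w' + bdry H N ψ) by abel]
  refine (capExt_add hN hd (hw'.add' hN hB)).trans ?_
  rw [← zero_add (capExt p H N u w' + normExt H N α)]
  exact (capExt_dvd hN hM hu hd fun g hg m => hdiff g hg m).add
    ((capExt_add hN hw' hB).trans ((ExtRel.refl H _).add hcap))

end compare

section linear

variable {u u' : Γ → Γ → A} {w : Γ → M → ℤ}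

omit [Fact p.Prime] in
lemma capExt_congr_u (e : ∀ g ∈ H, ∀ h ∈ H, u g h = u' g h) :
    ExtRel H (capExt p H N u w : Pre Γ M A) (capExt p H N u' w) := by
  refine ExtRel.of_eq ?_ fun k hk => ?_
  · ext x
    rw [capExt_fst, capExt_fst]
    exact csum_congr H N fun g hg => csum_congr H N fun h hh => by rw [e g hg h hh]
  · ext m
    rw [capExt_snd, capExt_snd]
    exact congrArg Neg.neg (csum_congr H N fun g hg => by rw [e k hk g hg])

omit [Fact p.Prime] in
lemma capExt_add_u (hN : Lvl H N) :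
    ExtRel H (capExt p H N (u + u') w : Pre Γ M A) (capExt p H N u w + capExt p H N u' w) := by
  refine ExtRel.of_eq ?_ fun k _ => ?_
  · ext x
    rw [Prod.fst_add, Fn.add_apply, capExt_fst, capExt_fst, capExt_fst, ← csum_add H N hN.fin]
    refine csum_congr H N fun g _ => ?_
    rw [← csum_add H N hN.fin]
    exact csum_congr H N fun h _ => by simp [smul_add]
  · ext m
    rw [Prod.snd_add, Pi.add_apply, Fn.add_apply, capExt_snd, capExt_snd, capExt_snd, ← neg_add,
      ← csum_add H N hN.fin]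
    exact congrArg Neg.neg (csum_congr H N fun g _ => by simp [smul_add])

omit [Fact p.Prime] in
lemma capExt_zsmul_u (hN : Lvl H N) (j : ℤ) :
    ExtRel H (capExt p H N (fun g h => j • u g h) w : Pre Γ M A) (j • capExt p H N u w) := by
  refine ExtRel.of_eq ?_ fun k _ => ?_
  · ext x
    rw [Prod.smul_fst, Fn.zsmul_apply, capExt_fst, capExt_fst, zsmul_csum hN]
    refine csum_congr H N fun g _ => ?_
    rw [zsmul_csum hN]
    exact csum_congr H N fun h _ => smul_comm _ _ _
  · ext m
    rw [Prod.smul_snd, Pi.smul_apply, Fn.zsmul_apply, capExt_snd, capExt_snd, smul_neg, zsmul_csum hN]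
    exact congrArg Neg.neg (csum_congr H N fun g _ => smul_comm _ _ _)

/-- The cap with a coboundary is a norm. -/
theorem capExt_dd1 (hN : Lvl H N) (hM : ∀ s ∈ N, ∀ m : M, s • m = m) (hw : IsCycle p H N w) {b : Γ → A}
    (hb : IsLvl1 H N b) (hbN : ∀ g ∈ H, ∀ s ∈ N, s • b g = b g) :
    ∃ α : Fn (M × M) A, α ∈ symCoc ∧ (∀ s ∈ N, s • α = α) ∧
      ExtRel H (capExt p H N (dd1 b) w : Pre Γ M A) (normExt H N α) := by
  have hp : p ≠ 0 := (Fact.out : p.Prime).ne_zero
  let α : Fn (M × M) A := fun x => csum H N (fun h => kap p w h x • b h)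
  let V : Fn M A := fun m => -csum H N (fun g => eta p H N w (g⁻¹ • m) • b g)
  refine ⟨α, ⟨fun m n => ?_, fun m n k => ?_⟩, fun s hs => ?_, V, ?_, fun k hk => ?_⟩
  · refine csum_congr H N fun h _ => ?_
    simp only [kap]
    rw [add_comm (w h m), add_comm m]
  · simp only [α]
    rw [← csum_add H N hN.fin, ← csum_add H N hN.fin]
    refine csum_congr H N fun h hh => ?_
    rw [← add_smul, ← add_smul]
    congr 1
    refine mul_left_cancel₀ (Int.natCast_ne_zero.2 hp) ?_
    simp only [mul_add, hw.p_kap hh, add_assoc]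
    ring
  · ext x
    rw [Fn.smul_apply]
    simp only [α]
    rw [smul_csum hN]
    refine csum_congr H N fun h hh => ?_
    have hx : s⁻¹ • x = x := Prod.ext (hM _ (N.inv_mem hs) x.1) (hM _ (N.inv_mem hs) x.2)
    rw [hx, smul_comm s, hbN h hh s hs]
  · ext ⟨m, n⟩
    rw [Fn.sub_apply, capExt_fst, del_apply]
    show _ - (normTo H N α) (m, n) = _
    rw [normTo, eval_csum hN]
    simp only [V]
    have e1 : csum H N (fun g => csum H N (fun h => kap p w h (g⁻¹ • ((m, n) : M × M)) • b (g * h)))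
        = csum H N (fun g => csum H N (fun h => kap p w h (h • g⁻¹ • ((m, n) : M × M)) • b g)) := by
      rw [csum_comm hN hN, csum_comm hN hN (fun g h => kap p w h (h • _) • b g)]
      refine csum_congr H N fun h hh => ?_
      rw [← csum_mul_right hN (F := fun g => kap p w h (h • g⁻¹ • ((m, n) : M × M)) • b g)
        (fun g hg s hs => by
          rw [hb g hg s hs, Prod.smul_mk, Prod.smul_mk, Prod.smul_mk,
            inv_smul_eq_of_mem hM hs, inv_smul_eq_of_mem hM hs]; rfl) hh]
      refine csum_congr H N fun g _ => ?_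
      simp only [← mul_smul, mul_inv_rev, ← mul_assoc, mul_inv_cancel, one_mul]
    rw [csum_congr H N (F := fun g => (g • α) (m, n)) (G := fun g => csum H N (fun h => kap p w h (g⁻¹ • ((m, n) : M × M)) • g • b h))
        (fun g _ => by rw [Fn.smul_apply]; simp only [α, smul_csum hN]; exact csum_congr H N fun h _ => smul_comm _ _ _)]
    simp only [dd1, smul_add, smul_sub]
    rw [csum_congr H N (fun g _ => by rw [csum_add H N hN.fin, csum_sub hN]), csum_add H N hN.fin, csum_sub hN,
      e1, show ∀ a b c : A, a - b + c - a = -(b - c) by intros; abel, ← csum_sub hN,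
      show ∀ a b c : A, -a + -b - -c = -(a + b - c) by intros; abel, ← csum_add H N hN.fin, ← csum_sub hN]
    refine congrArg Neg.neg (csum_congr H N fun g hg => ?_)
    rw [← csum_sub hN, csum_congr H N (fun h _ => (sub_smul _ _ _).symm), csum_zsmul hN,
      hw.kap_boundary hN hp, sub_smul, add_smul, Prod.smul_fst, Prod.smul_snd, ← smul_add]
  · ext m
    rw [Fn.sub_apply, capExt_snd, dd0, Fn.sub_apply, Fn.smul_apply]
    show _ - (0 : A) = _
    simp only [V, dd1]
    rw [sub_zero, smul_neg, smul_csum hN, ← csum_mul_left (k := k) (F := fun g => eta p H N w (g⁻¹ • m) • b g)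
      (fun g hg s hs => by rw [hb g hg s hs, inv_smul_eq_of_mem hM hs]) hk, ← csum_neg hN,
      sub_neg_eq_add, ← csum_neg hN, ← csum_add H N hN.fin]
    have hz : csum H N (fun g => eta p H N w ((k * g)⁻¹ • m) • b k) = 0 := by
      rw [csum_zsmul hN, csum_congr H N (G := fun g => eta p H N w (g⁻¹ • k⁻¹ • m))
        (fun g _ => by rw [← mul_smul, ← mul_inv_rev]), hw.eta_sum hN hM hp, zero_smul]
    rw [eq_comm]
    refine (sub_zero _).symm.trans ?_
    rw [← hz, ← csum_sub hN]
    refine csum_congr H N fun g _ => ?_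
    simp only [smul_add, smul_sub, mul_inv_rev, mul_smul g⁻¹ k⁻¹, smul_comm k (eta p H N w _)]
    abel

end linear

section extension

variable (hp : ∀ m : M, p • m = 0)

include hp in
/-- A functional on a group of cocycles killing coboundaries is the value of a cycle. -/
theorem exists_cycle_on (hN : Lvl H N) (Z : AddSubgroup (Cfun M H N)) (φ : Z →+ ZMod p)
    (h0 : ∀ m : M, ∃ h : toC H N (dd0 m) ∈ Z, φ ⟨_, h⟩ = 0) :
    ∃ w : Γ → M → ℤ, IsCycle p H N w ∧ ∀ (f : Γ → M) (h : toC H N f ∈ Z), (zval H N w f : ZMod p) = φ ⟨_, h⟩ := by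
  let : Module (ZMod p) M := AddCommGroup.zmodModule hp
  let Z' : Submodule (ZMod p) (Cfun M H N) := AddSubgroup.toZModSubmodule p Z
  obtain ⟨Φ, hΦ⟩ := LinearMap.exists_extend (p := Z') (φ.toZModLinearMap p)
  have hval : ∀ F (h : F ∈ Z), Φ F = φ ⟨F, h⟩ := fun F h => LinearMap.congr_fun hΦ ⟨F, h⟩
  obtain ⟨w, hw, hwv⟩ := exists_cycle_of_functional hN Φ.toAddMonoidHom fun m => by
    obtain ⟨h, h'⟩ := h0 m
    exact (hval _ h).trans h'
  exact ⟨w, hw, fun f h => (hwv f).trans (hval _ h)⟩

include hp in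
/-- A cycle killing the locally trivial cocycles is, on cocycles, a sum of local cycles. -/
theorem exists_local_cycles (hN : Lvl H N) {ι : Type*} [Finite ι] (P : ι → Subgroup Γ)
    (hP : ∀ i, P i ≤ H) (hNP : ∀ i, N ≤ P i) (hM : ∀ s ∈ N, ∀ m : M, s • m = m)
    {w : Γ → M → ℤ} (hw : IsCycle p H N w)
    (h : ∀ f : Γ → M, IsZ1 H N f → (∀ i, IsB1 (P i) f) → (p : ℤ) ∣ zval H N w f) :
    ∃ v : ι → Γ → M → ℤ, (∀ i, IsCycle p (P i) N (v i)) ∧ ∀ f : Γ → M, IsZ1 H N f →
      (zval H N w f : ZMod p) = ∑ᶠ i, (zval (P i) N (v i) f : ZMod p) := by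
  classical
  let : Module (ZMod p) M := AddCommGroup.zmodModule hp
  have := Fintype.ofFinite ι
  have := hN.fin
  let Z : Submodule (ZMod p) (Cfun M H N) := AddSubgroup.toZModSubmodule p
    { carrier := {F | IsZ1 H N (ofC F)}
      zero_mem' := by
        refine ⟨isLvl1_ofC hN 0, fun g hg k hk => ?_⟩
        simp [ofC, hg, hk, mul_mem hg hk]
      add_mem' := fun {F G} hF hG => by
        refine ⟨isLvl1_ofC hN _, fun g hg k hk => ?_⟩
        have e1 := hF.2 g hg k hk
        have e2 := hG.2 g hg k hk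
        rw [ofC_apply hg, ofC_apply hk, ofC_apply (mul_mem hg hk)] at e1 e2 ⊢
        simp only [Pi.add_apply, e1, e2, smul_add]
        abel
      neg_mem' := fun {F} hF => by
        refine ⟨isLvl1_ofC hN _, fun g hg k hk => ?_⟩
        have e1 := hF.2 g hg k hk
        rw [ofC_apply hg, ofC_apply hk, ofC_apply (mul_mem hg hk)] at e1 ⊢
        simp only [Pi.neg_apply, e1, smul_neg]
        abel }
  let B : ∀ i, Submodule (ZMod p) (Cfun M (P i) N) := fun i => AddSubgroup.toZModSubmodule p
    (AddMonoidHom.mk' (fun m => toC (P i) N (dd0 m)) fun m n => by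
      funext q; simp [toC, dd0, smul_add]; abel).range
  let R : Cfun M H N →+ (∀ i, Cfun M (P i) N ⧸ B i) := AddMonoidHom.mk'
    (fun F i => Submodule.Quotient.mk (toC (P i) N (ofC F))) fun F G => by
      funext i
      rw [Pi.add_apply, ← Submodule.Quotient.mk_add]
      congr 1
      funext q
      simp [toC, ofC, hP i (rep_mem (P i) N q)]
  obtain ⟨φ, -, hφ⟩ := exists_functional_of_cycle hN hw
  have hker : ∀ F : Z, R F = 0 → φ F = 0 := by
    intro F hF
    rw [← toC_ofC (F : Cfun M H N), hφ, ZMod.intCast_zmod_eq_zero_iff_dvd]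
    refine h _ F.2 fun i => ?_
    obtain ⟨m, hm⟩ := (Submodule.Quotient.mk_eq_zero (B i)).1 (congrFun hF i)
    refine ⟨m, fun g hg => ?_⟩
    have hPN := hN.sub_left (hP i) (hNP i)
    rw [← ofC_toC hPN (f := ofC (F : Cfun M H N)) ((isLvl1_ofC hN _).mono (hP i) le_rfl) hg,
      ← hm, AddMonoidHom.mk'_apply, ofC_toC hPN (fun x _ s hs => by simp [dd0, mul_smul, hM s hs]) hg]
  obtain ⟨ν, hν⟩ : (φ.toZModLinearMap p).domRestrict Z ∈
      LinearMap.range ((R.toZModLinearMap p).domRestrict Z).dualMap := by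
    rw [LinearMap.range_dualMap_eq_dualAnnihilator_ker, Submodule.mem_dualAnnihilator]
    exact fun F hF => hker F hF
  have hi : ∀ i, ∃ v : Γ → M → ℤ, IsCycle p (P i) N v ∧ ∀ f : Γ → M, (zval (P i) N v f : ZMod p)
      = ν (Pi.single i (Submodule.Quotient.mk (toC (P i) N f))) := fun i =>
    exists_cycle_of_functional (hN.sub_left (hP i) (hNP i))
      ((ν.comp (LinearMap.single (ZMod p) (fun i => Cfun M (P i) N ⧸ B i) i)).comp (B i).mkQ).toAddMonoidHom
      fun m => by
        show ν (Pi.single i (Submodule.Quotient.mk _)) = 0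
        have e : (Submodule.Quotient.mk (toC (P i) N (dd0 m)) : Cfun M (P i) N ⧸ B i) = 0 :=
          (Submodule.Quotient.mk_eq_zero (B i)).2 ⟨m, rfl⟩
        rw [e, Pi.single_zero, map_zero]
  choose v hv hvv using hi
  refine ⟨v, hv, fun f hf => ?_⟩
  have hFZ : toC H N f ∈ Z := by
    refine ⟨isLvl1_ofC hN _, fun g hg k hk => ?_⟩
    rw [ofC_toC hN hf.1 hg, ofC_toC hN hf.1 hk, ofC_toC hN hf.1 (mul_mem hg hk)]
    exact hf.2 g hg k hk
  rw [← hφ, finsum_eq_sum_of_fintype, Finset.sum_congr rfl fun i _ => hvv i f, ← map_sum, Finset.univ_sum_single]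
  have e := LinearMap.congr_fun hν ⟨_, hFZ⟩
  refine e.symm.trans (congrArg ν (funext fun i => congrArg Submodule.Quotient.mk (funext fun q => ?_)))
  exact ofC_toC hN hf.1 (hP i (rep_mem (P i) N q))

end extension

end FLTAgent.Global
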