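import Fermat.Agent.Global.Cochain

/-!
`Ext¹` of a finite Galois module `M` by a module `A`, as pairs `(a, b)` of a symmetric
2-cocycle `a` on `M` and a cochain `b : Γ → Fn M A`; and the pairing with `H¹(M)`.
-/

set_option autoImplicit false
set_option linter.unusedSectionVars false

noncomputable section

namespace FLTAgent.Global

/-- Functions from `M` to `A` with the conjugation action. -/
def Fn (M A : Type*) := M → A

namespace Fn

variable {Γ M A : Type*} [Group Γ]

section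
variable [AddCommGroup A]

instance : AddCommGroup (Fn M A) := inferInstanceAs (AddCommGroup (M → A))

@[ext] lemma ext {w w' : Fn M A} (h : ∀ m, w m = w' m) : w = w' := funext h

lemma add_apply (w w' : Fn M A) (m : M) : (w + w') m = w m + w' m := rfl
lemma sub_apply (w w' : Fn M A) (m : M) : (w - w') m = w m - w' m := rfl
lemma zero_apply (m : M) : (0 : Fn M A) m = 0 := rfl
lemma neg_apply (w : Fn M A) (m : M) : (-w) m = -w m := rfl
lemma nsmul_apply (n : ℕ) (w : Fn M A) (m : M) : (n • w) m = n • w m := rfl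
lemma zsmul_apply (n : ℤ) (w : Fn M A) (m : M) : (n • w) m = n • w m := rfl

/-- Evaluation. -/
def eval (m : M) : Fn M A →+ A where
  toFun w := w m
  map_zero' := rfl
  map_add' _ _ := rfl

variable [MulAction Γ M] [DistribMulAction Γ A]

instance : SMul Γ (Fn M A) := ⟨fun g w m => g • w (g⁻¹ • m)⟩

lemma smul_apply (g : Γ) (w : Fn M A) (m : M) : (g • w) m = g • w (g⁻¹ • m) := rfl

instance : DistribMulAction Γ (Fn M A) where
  one_smul w := by ext m; simp [smul_apply]
  mul_smul g h w := by ext m; simp [smul_apply, mul_smul]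
  smul_zero g := by ext m; simp [smul_apply, zero_apply]
  smul_add g w w' := by ext m; simp [smul_apply, add_apply]

end

end Fn

variable {Γ : Type*} [Group Γ] {M : Type*} [AddCommGroup M] [DistribMulAction Γ M]
  {A : Type*} [AddCommGroup A] [DistribMulAction Γ A]

/-- The additivity defect. -/
def del : Fn M A →+ Fn (M × M) A where
  toFun w := fun x => w x.1 + w x.2 - w (x.1 + x.2)
  map_zero' := by ext x; simp [Fn.zero_apply]
  map_add' w w' := by
    ext x
    show (w + w') x.1 + (w + w') x.2 - (w + w') (x.1 + x.2)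
      = (w x.1 + w x.2 - w (x.1 + x.2)) + (w' x.1 + w' x.2 - w' (x.1 + x.2))
    simp only [Fn.add_apply]; abel

lemma del_apply (w : Fn M A) (m n : M) : del w (m, n) = w m + w n - w (m + n) := rfl

lemma smul_del (g : Γ) (w : Fn M A) : g • del w = del (g • w) := by
  ext ⟨m, n⟩
  rw [Fn.smul_apply, Prod.smul_mk, del_apply, del_apply, Fn.smul_apply, Fn.smul_apply,
    Fn.smul_apply, smul_sub, smul_add g (w (g⁻¹ • m)), smul_add g⁻¹ m n]

/-- Symmetric 2-cocycles of the group `M`. -/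
def symCoc : AddSubgroup (Fn (M × M) A) where
  carrier := {a | (∀ m n, a (m, n) = a (n, m)) ∧
    ∀ m n k, a (m, n) + a (m + n, k) = a (m, n + k) + a (n, k)}
  zero_mem' := ⟨fun _ _ => rfl, fun _ _ _ => rfl⟩
  add_mem' := by
    rintro a a' ⟨h1, h2⟩ ⟨h1', h2'⟩
    refine ⟨fun m n => by simp [Fn.add_apply, h1 m n, h1' m n], fun m n k => ?_⟩
    simp only [Fn.add_apply]
    rw [add_add_add_comm, h2, h2', add_add_add_comm]
  neg_mem' := by
    rintro a ⟨h1, h2⟩
    refine ⟨fun m n => by simp [Fn.neg_apply, h1 m n], fun m n k => ?_⟩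
    simp only [Fn.neg_apply]
    rw [← neg_add, ← neg_add, h2]

lemma mem_symCoc {a : Fn (M × M) A} : a ∈ symCoc ↔ (∀ m n, a (m, n) = a (n, m)) ∧
    ∀ m n k, a (m, n) + a (m + n, k) = a (m, n + k) + a (n, k) := Iff.rfl

lemma del_mem_symCoc (w : Fn M A) : del w ∈ symCoc := by
  refine ⟨fun m n => by simp [del_apply, add_comm], fun m n k => ?_⟩
  simp [del_apply, add_assoc]; abel

lemma smul_mem_symCoc {a : Fn (M × M) A} (ha : a ∈ symCoc) (g : Γ) : g • a ∈ symCoc := by
  refine ⟨fun m n => ?_, fun m n k => ?_⟩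
  · simp only [Fn.smul_apply, Prod.smul_mk]
    rw [ha.1]
  · show g • a (g⁻¹ • m, g⁻¹ • n) + g • a (g⁻¹ • (m + n), g⁻¹ • k)
        = g • a (g⁻¹ • m, g⁻¹ • (n + k)) + g • a (g⁻¹ • n, g⁻¹ • k)
    rw [smul_add g⁻¹ m n, smul_add g⁻¹ n k, ← smul_add g (a _), ← smul_add g (a _)]
    exact congrArg (g • ·) (ha.2 _ _ _)

/-- An extension class of `M` by `A`, as a cocycle pair. -/
abbrev Pre (Γ M A : Type*) := Fn (M × M) A × (Γ → Fn M A)

/-- `(a, b)` is an extension of `Γ`-modules on the pair `(H, N)`. -/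
structure IsExt (H N : Subgroup Γ) (e : Pre Γ M A) : Prop where
  sym : e.1 ∈ symCoc
  coc : IsZ1 H N e.2
  eqv : ∀ g ∈ H, g • e.1 - e.1 = del (e.2 g)

/-- The trivial extensions. -/
def triv : Fn M A →+ Pre Γ M A where
  toFun w := (del w, dd0 w)
  map_zero' := by ext <;> simp [dd0, Fn.zero_apply]
  map_add' w w' := Prod.ext (map_add del w w')
    (funext fun g => by simp [dd0, smul_add]; abel)

/-- Equivalence of extensions on `(H, N)`. -/
def ExtRel (H : Subgroup Γ) (e e' : Pre Γ M A) : Prop :=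
  ∃ w : Fn M A, e.1 - e'.1 = del w ∧ ∀ g ∈ H, e.2 g - e'.2 g = dd0 w g

lemma ExtRel.refl (H : Subgroup Γ) (e : Pre Γ M A) : ExtRel H e e :=
  ⟨0, by simp, fun g _ => by simp [dd0]⟩

lemma ExtRel.of_eq {H : Subgroup Γ} {e e' : Pre Γ M A} (h1 : e.1 = e'.1)
    (h2 : ∀ g ∈ H, e.2 g = e'.2 g) : ExtRel H e e' :=
  ⟨0, by simp [h1], fun g hg => by simp [dd0, h2 g hg]⟩

lemma ExtRel.symm {H : Subgroup Γ} {e e' : Pre Γ M A} (h : ExtRel H e e') : ExtRel H e' e := by
  obtain ⟨w, h1, h2⟩ := h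
  refine ⟨-w, by rw [map_neg, ← h1, neg_sub], fun g hg => ?_⟩
  rw [← neg_sub, h2 g hg]
  simp [dd0, smul_neg]; abel

lemma ExtRel.trans {H : Subgroup Γ} {e e' e'' : Pre Γ M A} (h : ExtRel H e e')
    (h' : ExtRel H e' e'') : ExtRel H e e'' := by
  obtain ⟨w, h1, h2⟩ := h
  obtain ⟨w', h1', h2'⟩ := h'
  refine ⟨w + w', by rw [map_add, ← h1, ← h1']; abel, fun g hg => ?_⟩
  rw [← sub_add_sub_cancel (e.2 g) (e'.2 g), h2 g hg, h2' g hg]
  simp [dd0, smul_add]; abel

lemma ExtRel.add {H : Subgroup Γ} {e e' f f' : Pre Γ M A} (h : ExtRel H e e')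
    (h' : ExtRel H f f') : ExtRel H (e + f) (e' + f') := by
  obtain ⟨w, h1, h2⟩ := h
  obtain ⟨w', h1', h2'⟩ := h'
  refine ⟨w + w', by rw [map_add, ← h1, ← h1']; simp; abel, fun g hg => ?_⟩
  simp only [Prod.snd_add, Pi.add_apply]
  rw [add_sub_add_comm, h2 g hg, h2' g hg]
  simp [dd0, smul_add]; abel

section ext

variable {H N : Subgroup Γ}

lemma isExt_zero : IsExt H N (0 : Pre Γ M A) :=
  ⟨symCoc.zero_mem, ⟨fun _ _ _ _ => rfl, fun g _ h _ => by simp⟩, fun g _ => by simp⟩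

lemma IsExt.add {e e' : Pre Γ M A} (h : IsExt H N e) (h' : IsExt H N e') : IsExt H N (e + e') := by
  refine ⟨symCoc.add_mem h.sym h'.sym, ⟨h.coc.1.add h'.coc.1, fun g hg k hk => ?_⟩, fun g hg => ?_⟩
  · simp only [Prod.snd_add, Pi.add_apply, h.coc.2 g hg k hk, h'.coc.2 g hg k hk, smul_add]
    abel
  · simp only [Prod.fst_add, Prod.snd_add, Pi.add_apply, smul_add, map_add, ← h.eqv g hg,
      ← h'.eqv g hg]
    abel

lemma IsExt.nsmul {e : Pre Γ M A} (h : IsExt H N e) (n : ℕ) : IsExt H N (n • e) := by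
  induction n with
  | zero => simpa using isExt_zero
  | succ n ih => simpa [succ_nsmul] using ih.add h

lemma IsExt.neg {e : Pre Γ M A} (h : IsExt H N e) : IsExt H N (-e) := by
  refine ⟨symCoc.neg_mem h.sym, ⟨fun g hg s hs => by simp [h.coc.1 g hg s hs], fun g hg k hk => ?_⟩,
    fun g hg => ?_⟩
  · simp only [Prod.snd_neg, Pi.neg_apply, h.coc.2 g hg k hk, smul_neg]
    abel
  · simp only [Prod.fst_neg, Prod.snd_neg, Pi.neg_apply, smul_neg, map_neg, ← h.eqv g hg]
    abel

lemma IsExt.sub {e e' : Pre Γ M A} (h : IsExt H N e) (h' : IsExt H N e') : IsExt H N (e - e') := by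
  simpa [sub_eq_add_neg] using h.add h'.neg

lemma isExt_triv {w : Fn M A} (hw : ∀ s ∈ N, s • w = w) :
    IsExt H N (triv w : Pre Γ M A) := by
  refine ⟨del_mem_symCoc w, ⟨fun g _ s hs => ?_, fun g _ k _ => ?_⟩, fun g _ => ?_⟩
  · simp [triv, dd0, mul_smul, hw s hs]
  · simp [triv, dd0, mul_smul, smul_sub]
  · simp [triv, dd0, smul_del, map_sub]

end ext

/-- The pairing cochain `e ∪ δ f`. -/
def pairC (e : Pre Γ M A) (f : Γ → M) (g h : Γ) : A := e.2 g (g • f h) + e.1 (f g, g • f h)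

lemma pairC_add (e e' : Pre Γ M A) (f : Γ → M) (g h : Γ) :
    pairC (e + e') f g h = pairC e f g h + pairC e' f g h := by
  simp [pairC, Fn.add_apply]; abel

lemma pairC_triv {H N : Subgroup Γ} {f : Γ → M} (hf : IsZ1 H N f) (w : Fn M A) {g h : Γ}
    (hg : g ∈ H) (hh : h ∈ H) : pairC (triv w) f g h = dd1 (fun x => w (f x)) g h := by
  simp [pairC, triv, dd0, dd1, Fn.sub_apply, Fn.smul_apply, del_apply, hf.2 g hg h hh,
    add_comm (g • f h) (f g)]
  abel

/-- The 1-cochain through which a symmetric cocycle splits along a homogeneous 1-cochain. -/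
def edge (a : Fn (M × M) A) (f : Γ → M) (x y : Γ) : A := a (f y - f x, f x)

lemma edge_spec {a : Fn (M × M) A} (ha : a ∈ symCoc) (f : Γ → M) (x y z : Γ) :
    a (f y - f x, f z - f y) = edge a f x y + edge a f y z - edge a f x z := by
  have e := ha.2 (f z - f y) (f y - f x) (f x)
  rw [sub_add_sub_cancel, sub_add_cancel, ha.1 (f z - f y)] at e
  simp only [edge]
  rw [eq_sub_iff_add_eq, e, add_comm]

end FLTAgent.Global
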