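import Fermat.Agent.Global.Csum
import Fermat.Agent.Global.Ext.Basic

/-!
The cap product of a class `u` with a 1-cycle of `Hom(M, ℤ/p)`, as an explicit extension of `M`,
and its exact pairing with `H¹(M)`.
-/

set_option autoImplicit false
set_option linter.unusedSectionVars false

noncomputable section

namespace FLTAgent.Global

variable {Γ : Type*} [Group Γ] {M : Type*} [AddCommGroup M] [DistribMulAction Γ M]
  {A : Type*} [AddCommGroup A] [DistribMulAction Γ A]
  {H N : Subgroup Γ} {p : ℕ}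

/-- An integral lift of a 1-cycle of `Hom(M, ℤ/p)` on `H/N`. -/
structure IsCycle (p : ℕ) (H N : Subgroup Γ) (w : Γ → M → ℤ) : Prop where
  lvl : ∀ g ∈ H, ∀ s ∈ N, w (g * s) = w g
  add : ∀ g ∈ H, ∀ m n, (p : ℤ) ∣ w g m + w g n - w g (m + n)
  cyc : ∀ m, (p : ℤ) ∣ csum H N (fun h => w h (h • m) - w h m)

/-- The carry of `w h`. -/
def kap (p : ℕ) (w : Γ → M → ℤ) (h : Γ) (x : M × M) : ℤ :=
  (w h x.1 + w h x.2 - w h (x.1 + x.2)) / p

/-- The integral boundary of `w`, divided by `p`. -/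
def eta (p : ℕ) (H N : Subgroup Γ) (w : Γ → M → ℤ) (m : M) : ℤ :=
  csum H N (fun h => w h (h • m) - w h m) / p

/-- The value of a cycle on a 1-cocycle. -/
def zval (H N : Subgroup Γ) (w : Γ → M → ℤ) (f : Γ → M) : ℤ := csum H N (fun h => w h (f h))

/-- The cap product `u ∩ w`. -/
def capExt (p : ℕ) (H N : Subgroup Γ) (u : Γ → Γ → A) (w : Γ → M → ℤ) : Pre Γ M A :=
  (fun x => csum H N (fun g => csum H N (fun h => kap p w h (g⁻¹ • x) • u g h)),
    fun k m => -csum H N (fun g => eta p H N w ((k * g)⁻¹ • m) • u k g))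

lemma capExt_fst (p : ℕ) (H N : Subgroup Γ) (u : Γ → Γ → A) (w : Γ → M → ℤ) (x : M × M) :
    (capExt p H N u w).1 x
      = csum H N (fun g => csum H N (fun h => kap p w h (g⁻¹ • x) • u g h)) := rfl

lemma capExt_snd (p : ℕ) (H N : Subgroup Γ) (u : Γ → Γ → A) (w : Γ → M → ℤ) (k : Γ) (m : M) :
    (capExt p H N u w).2 k m = -csum H N (fun g => eta p H N w ((k * g)⁻¹ • m) • u k g) := rfl

variable {w : Γ → M → ℤ}

lemma IsCycle.p_kap (hw : IsCycle p H N w) {h : Γ} (hh : h ∈ H) (x : M × M) :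
    (p : ℤ) * kap p w h x = w h x.1 + w h x.2 - w h (x.1 + x.2) :=
  Int.mul_ediv_cancel' (hw.add h hh x.1 x.2)

lemma IsCycle.p_eta (hw : IsCycle p H N w) (m : M) :
    (p : ℤ) * eta p H N w m = csum H N (fun h => w h (h • m) - w h m) :=
  Int.mul_ediv_cancel' (hw.cyc m)

lemma IsCycle.kap_lvl (hw : IsCycle p H N w) {g s : Γ} (hg : g ∈ H) (hs : s ∈ N) (x : M × M) :
    kap p w (g * s) x = kap p w g x := by
  simp [kap, hw.lvl g hg s hs]

variable (hN : Lvl H N) (hM : ∀ s ∈ N, ∀ m : M, s • m = m)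

include hM in
lemma inv_smul_eq_of_mem {g s : Γ} (hs : s ∈ N) (m : M) : (g * s)⁻¹ • m = g⁻¹ • m := by
  rw [mul_inv_rev, mul_smul, hM _ (N.inv_mem hs)]

include hN hM in
lemma IsCycle.eta_sum (hp : p ≠ 0) (hw : IsCycle p H N w) (m : M) :
    csum H N (fun g => eta p H N w (g⁻¹ • m)) = 0 := by
  refine (mul_right_injective₀ (Int.natCast_ne_zero.2 hp)) ?_
  simp only [mul_zero]
  rw [← smul_eq_mul, zsmul_csum hN]
  simp only [smul_eq_mul]
  rw [csum_congr H N (G := fun g => csum H N (fun h => w h (h • g⁻¹ • m) - w h (g⁻¹ • m)))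
      (fun g _ => hw.p_eta _),
    csum_comm hN hN, csum_congr H N (G := fun _ => (0 : ℤ)) (fun h hh => ?_), csum_zero]
  rw [csum_sub hN, sub_eq_zero]
  have hF : ∀ g ∈ H, ∀ s ∈ N, w h ((g * s)⁻¹ • m) = w h (g⁻¹ • m) :=
    fun g _ s hs => by rw [inv_smul_eq_of_mem hM hs]
  conv_rhs => rw [← csum_mul_right hN hF (H.inv_mem hh)]
  exact csum_congr H N fun g _ => by rw [mul_inv_rev, inv_inv, mul_smul]

include hN in
lemma IsCycle.kap_boundary (hp : p ≠ 0) (hw : IsCycle p H N w) (x : M × M) :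
    csum H N (fun h => kap p w h (h • x) - kap p w h x)
      = eta p H N w x.1 + eta p H N w x.2 - eta p H N w (x.1 + x.2) := by
  refine (mul_right_injective₀ (Int.natCast_ne_zero.2 hp)) ?_
  simp only
  rw [← smul_eq_mul, zsmul_csum hN, mul_sub, mul_add, hw.p_eta, hw.p_eta, hw.p_eta,
    ← csum_add H N hN.fin, ← csum_sub hN]
  refine csum_congr H N fun h hh => ?_
  simp only [smul_eq_mul, mul_sub, hw.p_kap hh, Prod.smul_fst, Prod.smul_snd, smul_add]
  ring

variable {u : Γ → Γ → A}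

lemma IsZ2.left_lvl (hu : IsZ2 H N u) {g h s : Γ} (hg : g ∈ H) (hh : h ∈ H) (hs : s ∈ N) :
    u (g * s) h = u g h := by
  simpa using hu.1 g hg h hh s hs 1 N.one_mem

lemma IsZ2.right_lvl (hu : IsZ2 H N u) {g h s : Γ} (hg : g ∈ H) (hh : h ∈ H) (hs : s ∈ N) :
    u g (h * s) = u g h := by
  simpa using hu.1 g hg h hh 1 N.one_mem s hs

include hN hM in
theorem isExt_capExt (hp : p ≠ 0) (hu : IsZ2 H N u) (hw : IsCycle p H N w) :
    IsExt H N (capExt p H N u w : Pre Γ M A) := by
  have hrm : ∀ {k g : Γ}, k ∈ H → g ∈ H → ∀ s ∈ N, ∀ m : M, ∀ v : M → ℤ, ∀ l : Γ, l ∈ H →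
      v ((k * (g * s))⁻¹ • m) • u l (g * s) = v ((k * g)⁻¹ • m) • u l g := by
    intro k g hk hg s hs m v l hl
    rw [hu.right_lvl hl hg hs, ← mul_assoc, inv_smul_eq_of_mem hM hs]
  refine ⟨⟨fun m n => ?_, fun m n k => ?_⟩, ⟨fun k hk s hs => ?_, fun k hk l hl => ?_⟩, fun k hk => ?_⟩
  · simp only [capExt_fst]
    refine csum_congr H N fun g _ => csum_congr H N fun h _ => ?_
    simp only [kap, Prod.smul_fst, Prod.smul_snd]
    rw [add_comm (w h (g⁻¹ • m)), add_comm (g⁻¹ • m)]
  · simp only [capExt_fst]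
    rw [← csum_add H N hN.fin, ← csum_add H N hN.fin]
    refine csum_congr H N fun g _ => ?_
    rw [← csum_add H N hN.fin, ← csum_add H N hN.fin]
    refine csum_congr H N fun h hh => ?_
    rw [← add_smul, ← add_smul]
    congr 1
    refine (mul_right_injective₀ (Int.natCast_ne_zero.2 hp)) ?_
    simp only [mul_add, hw.p_kap hh, Prod.smul_fst, Prod.smul_snd, smul_add, add_assoc]
    ring
  · ext m
    refine congrArg Neg.neg (csum_congr H N fun g hg => ?_)
    rw [hu.left_lvl hk hg hs, show k * s * g = k * g * (g⁻¹ * s * g) by group,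
      inv_smul_eq_of_mem hM (hN.conj g hg s hs)]
  · ext m
    rw [Fn.add_apply, Fn.smul_apply, capExt_snd, capExt_snd, capExt_snd]
    rw [smul_neg, smul_csum hN]
    simp only [← csum_neg hN]
    rw [← csum_mul_left (F := fun g => -(eta p H N w ((k * g)⁻¹ • m) • u k g)) (k := l)
      (fun g hg s hs => by rw [hrm hk hg s hs m _ k hk]) hl]
    rw [← csum_add H N hN.fin]
    have hz : csum H N (fun g => eta p H N w ((k * l * g)⁻¹ • m) • u k l) = (0 : A) := by
      rw [csum_zsmul hN]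
      have := hw.eta_sum hN hM hp ((k * l)⁻¹ • m)
      rw [csum_congr H N (G := fun g => eta p H N w (g⁻¹ • (k * l)⁻¹ • m))
        (fun g _ => by rw [← mul_smul, ← mul_inv_rev]), this, zero_smul]
    rw [← sub_zero (csum H N _), ← hz, ← csum_sub hN]
    refine csum_congr H N fun g hg => ?_
    have e := hu.2 k hk l hl g hg
    rw [sub_eq_zero] at e
    rw [← mul_assoc k l g, ← e, smul_comm k, ← mul_smul (l * g)⁻¹ k⁻¹, ← mul_inv_rev,
      ← mul_assoc]
    simp only [smul_add, smul_sub]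
    abel
  · ext x
    obtain ⟨m, n⟩ := x
    rw [Fn.sub_apply, Fn.smul_apply, del_apply, capExt_fst, capExt_fst, capExt_snd, capExt_snd,
      capExt_snd]
    rw [smul_csum hN, ← csum_sub hN]
    have e1 : ∀ g ∈ H, k • csum H N (fun h => kap p w h (g⁻¹ • k⁻¹ • ((m, n) : M × M)) • u g h)
        = csum H N (fun h => kap p w h ((k * g)⁻¹ • ((m, n) : M × M)) • u (k * g) h)
          + csum H N (fun h => kap p w h ((k * g)⁻¹ • ((m, n) : M × M)) • u k g)
          - csum H N (fun h => kap p w h ((k * g)⁻¹ • ((m, n) : M × M)) • u k (g * h)) := by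
      intro g hg
      rw [smul_csum hN, ← csum_add H N hN.fin, ← csum_sub hN]
      refine csum_congr H N fun h hh => ?_
      have e := hu.2 k hk g hg h hh
      rw [mul_inv_rev k g, mul_smul g⁻¹ k⁻¹, smul_comm k, ← smul_add, ← smul_sub]
      congr 1
      rw [sub_eq_zero] at e
      rw [← e]
      abel
    rw [csum_sub hN, ← csum_mul_left (k := k) (F := fun g => csum H N fun h => kap p w h (g⁻¹ • ((m, n) : M × M)) • u g h)
      (fun g hg s hs => csum_congr H N fun h hh => by
        rw [hu.left_lvl hg hh hs, Prod.smul_mk, Prod.smul_mk, inv_smul_eq_of_mem hM hs,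
          inv_smul_eq_of_mem hM hs]) hk,
      csum_congr H N (fun g hg => e1 g hg)]
    -- the tail, reindexed by `g ↦ g h`
    have e2 : csum H N (fun g => csum H N (fun h => kap p w h ((k * g)⁻¹ • ((m, n) : M × M)) • u k (g * h)))
        = csum H N (fun g => csum H N (fun h => kap p w h (h • (k * g)⁻¹ • ((m, n) : M × M)) • u k g)) := by
      rw [csum_comm hN hN, csum_comm hN hN (fun g h => kap p w h (h • _) • u k g)]
      refine csum_congr H N fun h hh => ?_
      rw [← csum_mul_right hN (F := fun g => kap p w h (h • (k * g)⁻¹ • ((m, n) : M × M)) • u k g)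
        (fun g hg s hs => by
          rw [hu.right_lvl hk hg hs, ← mul_assoc, Prod.smul_mk, Prod.smul_mk, Prod.smul_mk,
            inv_smul_eq_of_mem hM hs, inv_smul_eq_of_mem hM hs]; rfl) hh]
      refine csum_congr H N fun g _ => ?_
      simp only [← mul_smul, mul_inv_rev, ← mul_assoc, mul_inv_cancel, one_mul]
    rw [csum_sub hN, csum_add H N hN.fin, e2, show ∀ a b c : A, a + b - c - a = b - c by intros; abel]
    simp only [← csum_sub hN, ← csum_add H N hN.fin, ← csum_neg hN]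
    refine csum_congr H N fun g _ => ?_
    rw [csum_congr H N (G := fun h => -((kap p w h (h • (k * g)⁻¹ • ((m, n) : M × M))
      - kap p w h ((k * g)⁻¹ • ((m, n) : M × M))) • u k g))
      (fun h _ => by rw [← neg_smul, neg_sub, sub_smul]), csum_neg hN, csum_zsmul hN,
      hw.kap_boundary hN hp, sub_smul, add_smul]
    simp only [Prod.smul_fst, Prod.smul_snd, smul_add]
    abel

end FLTAgent.Global
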