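import Fermat.Agent.Global.Ext.Cores

/-!
Abstract class modules at a prime `p`, and the decomposition `C^H = caps + norms + p`.
-/

set_option autoImplicit false
set_option linter.unusedSectionVars false

noncomputable section

namespace FLTAgent.Global

variable {Γ : Type*} [Group Γ] {A : Type*} [AddCommGroup A] [DistribMulAction Γ A]

section B2

variable {H N : Subgroup Γ}

lemma IsB2.congr {c c' : Γ → Γ → A} (h : IsB2 H N c) (e : ∀ g ∈ H, ∀ k ∈ H, c g k = c' g k) :
    IsB2 H N c' := by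
  obtain ⟨b, hb, hc⟩ := h
  exact ⟨b, hb, fun g hg k hk => by rw [← e g hg k hk, hc g hg k hk]⟩

lemma IsB2.add {c c' : Γ → Γ → A} (h : IsB2 H N c) (h' : IsB2 H N c') : IsB2 H N (c + c') := by
  obtain ⟨b, hb, hc⟩ := h
  obtain ⟨b', hb', hc'⟩ := h'
  exact ⟨b + b', hb.add hb', fun g hg k hk => by
    simp only [Pi.add_apply, dd1_add, hc g hg k hk, hc' g hg k hk]⟩

lemma IsB2.neg {c : Γ → Γ → A} (h : IsB2 H N c) : IsB2 H N (-c) := by
  obtain ⟨b, hb, hc⟩ := h
  refine ⟨-b, fun g hg s hs => by simp [hb g hg s hs], fun g hg k hk => ?_⟩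
  simp only [Pi.neg_apply, hc g hg k hk, dd1, smul_neg]
  abel

lemma IsB2.sub {c c' : Γ → Γ → A} (h : IsB2 H N c) (h' : IsB2 H N c') : IsB2 H N (c - c') := by
  simpa [sub_eq_add_neg] using h.add h'.neg

lemma IsB2.zero : IsB2 H N (0 : Γ → Γ → A) :=
  ⟨0, fun _ _ _ _ => rfl, fun g _ k _ => by simp [dd1]⟩

lemma IsB2.nsmul {c : Γ → Γ → A} (h : IsB2 H N c) (n : ℕ) : IsB2 H N (fun g k => n • c g k) := by
  induction n with
  | zero => exact (IsB2.zero (H := H) (N := N) (A := A)).congr (fun g _ k _ => by simp)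
  | succ n ih => exact (ih.add h).congr fun g _ k _ => by simp [succ_nsmul]

lemma IsB2.zsmul {c : Γ → Γ → A} (h : IsB2 H N c) (n : ℤ) : IsB2 H N (fun g k => n • c g k) := by
  obtain ⟨n, rfl | rfl⟩ := Int.eq_nat_or_neg n
  · exact (h.nsmul n).congr fun g _ k _ => by simp
  · exact (h.nsmul n).neg.congr fun g _ k _ => by simp

lemma IsZ2.zsmul {c : Γ → Γ → A} (h : IsZ2 H N c) (n : ℤ) : IsZ2 H N (fun g k => n • c g k) := by
  refine ⟨fun g hg k hk s hs s' hs' => by simp [h.1 g hg k hk s hs s' hs'], fun g hg k hk j hj => ?_⟩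
  dsimp only
  rw [smul_comm g, ← zsmul_sub, ← zsmul_add, ← zsmul_sub, h.2 g hg k hk j hj, zsmul_zero]

lemma IsZ2.restrict {c : Γ → Γ → A} (h : IsZ2 H N c) {P : Subgroup Γ} (hP : P ≤ H) : IsZ2 P N c :=
  ⟨fun g hg k hk => h.1 g (hP hg) k (hP hk), fun g hg k hk j hj => h.2 g (hP hg) k (hP hk) j (hP hj)⟩

end B2

/-- What the duality argument needs from class field theory, for a `p`-group layer `H/N`. -/
structure ClassModule (p : ℕ) (H N : Subgroup Γ) (u : Γ → Γ → A) : Prop where
  lvl : Lvl H N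
  pow : ∃ a : ℕ, N.relIndex H = p ^ a
  z2 : IsZ2 H N u
  h1 : ∀ H' P' : Subgroup Γ, N ≤ P' → H' ≤ H → Lvl H' P' →
    ∀ f : Γ → A, IsZ1 H' P' f → IsB1 H' f
  step : ∀ H' P' : Subgroup Γ, N ≤ P' → H' ≤ H → Lvl H' P' → P'.relIndex H' = p →
    ∃ c₀ ∈ fixSub (A := A) H', ∀ c ∈ fixSub (A := A) H', ∃ k : ℕ, ∃ y ∈ fixSub (A := A) P',
      c = k • c₀ + normTo H' P' y
  order : ∀ k : ℤ, IsB2 H N (fun g h => k • u g h) → (N.relIndex H : ℤ) ∣ k

variable {p : ℕ} {H P N : Subgroup Γ} {u : Γ → Γ → A}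

lemma ClassModule.sub [Fact p.Prime] (hC : ClassModule p H N u) (hP : P ≤ H) (hNP : N ≤ P) :
    ClassModule p P N u := by
  have hmul : N.relIndex P * P.relIndex H = N.relIndex H := Subgroup.relIndex_mul_relIndex N P H hNP hP
  refine ⟨hC.lvl.sub_left hP hNP, ?_, hC.z2.restrict hP,
    fun H' P' h1 h2 => hC.h1 H' P' h1 (h2.trans hP), fun H' P' h1 h2 => hC.step H' P' h1 (h2.trans hP),
    fun k hk => ?_⟩
  · obtain ⟨a, ha⟩ := hC.pow
    obtain ⟨b, -, hb⟩ := (Nat.dvd_prime_pow Fact.out).1 (ha ▸ hmul ▸ dvd_mul_right _ _)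
    exact ⟨b, hb⟩
  · have h := isB2_nsmul hC.lvl hP hNP (hC.lvl.fin_quot hP hNP) (hC.z2.zsmul k) hk
    have h' := hC.order (P.relIndex H * k) (h.congr fun g _ l _ => by
      rw [← natCast_zsmul, smul_smul])
    rw [← hmul, mul_comm (N.relIndex P), Nat.cast_mul] at h'
    have hne : (P.relIndex H : ℤ) ≠ 0 := by
      have := hC.lvl.fin_quot hP hNP
      exact Int.natCast_ne_zero.2 (by rw [Subgroup.relIndex]; exact Subgroup.index_ne_zero_of_finite)
    exact (mul_dvd_mul_iff_left hne).1 h'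

/-- `ℤ/p` with trivial action. -/
def TrivMod (p : ℕ) := ZMod p

instance (p : ℕ) : AddCommGroup (TrivMod p) := inferInstanceAs (AddCommGroup (ZMod p))

instance (p : ℕ) : DistribMulAction Γ (TrivMod p) where
  smul _ m := m
  one_smul _ := rfl
  mul_smul _ _ _ := rfl
  smul_zero _ := rfl
  smul_add _ _ _ := rfl

lemma trivMod_smul {p : ℕ} (g : Γ) (m : TrivMod p) : g • m = m := rfl

/-- The least natural representative. -/
def tval {p : ℕ} (m : TrivMod p) : ℕ := ZMod.val (m : ZMod p)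

lemma tval_add {p : ℕ} [NeZero p] (m n : TrivMod p) : tval (m + n) = (tval m + tval n) % p :=
  ZMod.val_add (m : ZMod p) (n : ZMod p)

lemma tval_zero {p : ℕ} : tval (0 : TrivMod p) = 0 := ZMod.val_zero

lemma csum_single (hN : Lvl H N) {B : Type*} [AddCommMonoid B] {t : Γ} (ht : t ∈ H) {F : Γ → B}
    (hF : ∀ g ∈ H, ∀ s ∈ N, F (g * s) = F g) (h0 : ∀ g ∈ H, t⁻¹ * g ∉ N → F g = 0) :
    csum H N F = F t := by
  classical
  have := hN.fin
  have := Fintype.ofFinite (↥H ⧸ N.subgroupOf H)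
  rw [csum_eq_sum, Finset.sum_eq_single (QuotientGroup.mk (⟨t, ht⟩ : H) : ↥H ⧸ N.subgroupOf H)]
  · have h := hN.mk_eq (QuotientGroup.out_eq' (QuotientGroup.mk (⟨t, ht⟩ : H) : ↥H ⧸ N.subgroupOf H))
    have := hF _ (rep_mem H N (QuotientGroup.mk (⟨t, ht⟩ : H))) _ h
    simpa [rep] using this.symm
  · intro q _ hq
    refine h0 _ (rep_mem H N q) fun h => hq ?_
    rw [← QuotientGroup.out_eq' q, QuotientGroup.eq, Subgroup.mem_subgroupOf]
    simpa [rep] using N.inv_mem h
  · intro h; exact absurd (Finset.mem_univ _) h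

/-- A character of order `p` cutting out a normal subgroup of index `p`. -/
lemma exists_index_p_char [Fact p.Prime] (hP : Lvl H P) (hidx : P.relIndex H = p) {t : Γ} (ht : t ∈ H)
    (htP : t ∉ P) : ∀ x ∈ H, ∃! j : ℕ, j < p ∧ (t ^ j)⁻¹ * x ∈ P := by
  intro x hx
  have : (P.subgroupOf H).Normal := ⟨fun a ha g => by
    rw [Subgroup.mem_subgroupOf] at ha ⊢
    simpa using hP.conj _ (H.inv_mem g.2) _ ha⟩
  have hp : Nat.card (↥H ⧸ P.subgroupOf H) = p := hidx
  have := hP.fin
  let π := QuotientGroup.mk' (P.subgroupOf H)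
  have hne : π ⟨t, ht⟩ ≠ 1 := fun h => htP (by
    simpa [π, QuotientGroup.eq_one_iff, Subgroup.mem_subgroupOf] using h)
  have hord : orderOf (π ⟨t, ht⟩) = p :=
    (Nat.dvd_prime Fact.out).1 (hp ▸ orderOf_dvd_natCard _) |>.resolve_left
      (fun h => hne (orderOf_eq_one_iff.1 h))
  have key : ∀ j : ℕ, (t ^ j)⁻¹ * x ∈ P ↔ π ⟨t, ht⟩ ^ j = π ⟨x, hx⟩ := by
    intro j
    rw [← map_pow, QuotientGroup.mk'_apply, QuotientGroup.mk'_apply, QuotientGroup.eq,
      Subgroup.mem_subgroupOf]
    simp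
  have hpg : Subgroup.zpowers (π ⟨t, ht⟩) = ⊤ :=
    Subgroup.eq_top_of_card_eq _ (by rw [Nat.card_zpowers, hord, hp])
  have hmem : π ⟨x, hx⟩ ∈ Submonoid.powers (π ⟨t, ht⟩) := by
    rw [mem_powers_iff_mem_zpowers, hpg]; trivial
  obtain ⟨j, hj⟩ := hmem
  simp only at hj
  refine ⟨j % p, ⟨Nat.mod_lt _ (Fact.out : p.Prime).pos, (key _).2 ?_⟩, fun i hi => ?_⟩
  · rw [← hord, pow_mod_orderOf]; exact hj
  · have e := ((key i).1 hi.2).trans hj.symm
    rw [pow_inj_mod, hord, Nat.mod_eq_of_lt hi.1] at e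
    exact e

/-- A cocycle pairs trivially with a coboundary. -/
theorem isB2_pairC_dd0 {M : Type*} [AddCommGroup M] [DistribMulAction Γ M] (hN : Lvl H N)
    (hM : ∀ s ∈ N, ∀ m : M, s • m = m) {e : Pre Γ M A} (he : IsExt H N e) (m₀ : M) :
    IsB2 H N (pairC e (dd0 m₀)) := by
  refine ⟨fun g => e.1 (g • m₀ - m₀, m₀) - e.2 g (g • m₀), fun g hg s hs => ?_, fun x hx y hy => ?_⟩
  · dsimp only; rw [he.coc.1 g hg s hs, mul_smul, hM s hs]
  have h1 : x • e.2 y (y • m₀) = e.2 (x * y) ((x * y) • m₀) - e.2 x ((x * y) • m₀) := by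
    have := congrArg (fun w : Fn M A => w ((x * y) • m₀)) (he.coc.2 x hx y hy)
    simp only [Fn.add_apply, Fn.smul_apply] at this
    rw [← mul_smul x⁻¹, inv_mul_cancel_left] at this
    rw [this]; abel
  have h2 : x • e.1 (y • m₀ - m₀, m₀) = e.1 ((x * y) • m₀ - x • m₀, x • m₀)
      + (e.2 x ((x * y) • m₀ - x • m₀) + e.2 x (x • m₀) - e.2 x ((x * y) • m₀)) := by
    have := congrArg (fun w : Fn (M × M) A => w ((x * y) • m₀ - x • m₀, x • m₀)) (he.eqv x hx)
    simp only [Fn.sub_apply, Fn.smul_apply, Prod.smul_mk, del_apply, sub_add_cancel] at this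
    rw [smul_sub x⁻¹, ← mul_smul x⁻¹, inv_mul_cancel_left, inv_smul_smul] at this
    rw [← this]; abel
  have h3 : e.1 (x • m₀ - m₀, (x * y) • m₀ - x • m₀)
      = e.1 (x • m₀ - m₀, m₀) + e.1 ((x * y) • m₀ - x • m₀, x • m₀) - e.1 ((x * y) • m₀ - m₀, m₀) :=
    by
      have e' := he.sym.2 ((x * y) • m₀ - x • m₀) (x • m₀ - m₀) m₀
      rw [sub_add_sub_cancel, sub_add_cancel, he.sym.1 ((x * y) • m₀ - x • m₀)] at e'
      rw [eq_sub_iff_add_eq, e', add_comm]
  simp only [pairC, dd1, smul_sub, h1, h2, dd0, ← mul_smul x y]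
  rw [h3]
  abel

variable [Fact p.Prime]

omit [Fact p.Prime] in
/-- `∑_g c(g,t)` is fixed by `H`. -/
lemma csum_z2_mem {c : Γ → Γ → A} (hN : Lvl H N) (hc : IsZ2 H N c) {t : Γ} (ht : t ∈ H) :
    csum H N (fun g => c g t) ∈ fixSub (A := A) H := by
  intro k hk
  have hl : ∀ g ∈ H, ∀ s ∈ N, c (g * s) t = c g t := fun g hg s hs => hc.left_lvl hg ht hs
  rw [smul_csum hN, csum_congr H N (G := fun g => c (k * g) t - (c k (g * t) - c k g)) fun g hg => by
      have e := hc.2 k hk g hg t ht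
      rw [sub_eq_zero] at e
      rw [← sub_eq_zero]
      calc k • c g t - (c (k * g) t - (c k (g * t) - c k g))
          = (k • c g t - c (k * g) t + c k (g * t)) - c k g := by abel
        _ = 0 := sub_eq_zero.2 e,
    csum_sub hN, csum_sub hN, csum_mul_left (F := fun g => c g t) hl hk,
    csum_mul_right hN (F := fun g => c k g) (fun g hg s hs => hc.right_lvl hk hg hs) ht,
    sub_self, sub_zero]

omit [Fact p.Prime] in
lemma ClassModule.sum_u_mem (hC : ClassModule p H N u) {t : Γ} (ht : t ∈ H) :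
    csum H N (fun g => u g t) ∈ fixSub (A := A) H := csum_z2_mem hC.lvl hC.z2 ht

omit [Fact p.Prime] in
lemma ClassModule.sum_u_pow_mem (hC : ClassModule p H N u) {t : Γ} (ht : t ∈ H) :
    csum H N (fun g => u g t) ∈ fixSub (A := A) N :=
  fun s hs => hC.sum_u_mem ht s (hC.lvl.le hs)

/-- The sums `∑_g u(g,t)`, `t ∉ P`, are not norms from the index `p` sublayer `P`, even up to `p`. -/
theorem ClassModule.sum_u_not_norm (hC : ClassModule p H N u) (hP : Lvl H P) (hNP : N ≤ P)
    (hidx : P.relIndex H = p) {t : Γ} (ht : t ∈ H) (htP : t ∉ P) {b : A}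
    (hb : b ∈ fixSub (A := A) P) : csum H N (fun g => u g t) ≠ normTo H P b := by
  classical
  intro hct
  have hp : p.Prime := Fact.out
  have hN := hC.lvl
  have := NeZero.mk hp.ne_zero
  choose! j hj huniq using exists_index_p_char hP hidx ht htP
  let f : Γ → TrivMod p := fun x => ((j x : ℕ) : ZMod p)
  let w : Γ → TrivMod p → ℤ := fun g m => if t⁻¹ * g ∈ N then (tval m : ℤ) else 0
  have hfv : ∀ x ∈ H, tval (f x) = j x := fun x hx => ZMod.val_natCast_of_lt (hj x hx).1
  have hfP : ∀ x ∈ H, ∀ s ∈ P, j (x * s) = j x := by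
    intro x hx s hs
    refine (huniq _ (mul_mem hx (hP.le hs)) _ ⟨(hj x hx).1, ?_⟩).symm
    rw [← mul_assoc]; exact P.mul_mem (hj x hx).2 hs
  have htp : t ^ p ∈ P := by
    have hlt := (hj _ (H.pow_mem ht p)).1
    rcases Nat.eq_zero_or_pos (j (t ^ p)) with h0 | hpos
    · simpa [h0] using (hj _ (H.pow_mem ht p)).2
    · exfalso
      set i := j (t ^ p) with hi
      have hd : t ^ (p - i) ∈ P := by
        have := (hj _ (H.pow_mem ht p)).2
        rwa [← hi, show t ^ p = t ^ i * t ^ (p - i) by rw [← pow_add, Nat.add_sub_cancel' hlt.le],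
          inv_mul_cancel_left] at this
      have h0 := huniq _ (H.pow_mem ht (p - i)) 0 ⟨hp.pos, by simpa using hd⟩
      have h1 := huniq _ (H.pow_mem ht (p - i)) (p - i) ⟨by omega, by simp⟩
      omega
  have hadd : ∀ x ∈ H, ∀ y ∈ H, j (x * y) = (j x + j y) % p := by
    intro x hx y hy
    refine (huniq _ (mul_mem hx hy) _ ⟨Nat.mod_lt _ hp.pos, ?_⟩).symm
    have e : t ^ (j x + j y) = t ^ ((j x + j y) % p) * (t ^ p) ^ ((j x + j y) / p) := by
      rw [← pow_mul, ← pow_add, Nat.mod_add_div]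
    have h2 : (t ^ (j x + j y))⁻¹ * (x * y) ∈ P := by
      have h3 := P.mul_mem (hP.conj _ (H.pow_mem ht (j y)) _ (hj x hx).2) (hj y hy).2
      rw [show (t ^ (j x + j y))⁻¹ * (x * y)
        = (t ^ j y)⁻¹ * ((t ^ j x)⁻¹ * x) * t ^ j y * ((t ^ j y)⁻¹ * y) by rw [pow_add]; group]
      exact h3
    rw [e, mul_inv_rev, mul_assoc] at h2
    simpa using P.mul_mem (P.pow_mem htp ((j x + j y) / p)) h2
  have hf : IsZ1 H N f := by
    refine ⟨fun g hg s hs => congrArg (fun n : ℕ => ((n : ZMod p) : TrivMod p)) (hfP g hg s (hNP hs)),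
      fun g hg k hk => ?_⟩
    simp only [f, trivMod_smul]
    rw [hadd g hg k hk, add_comm (j g)]
    show (((j k + j g) % p : ℕ) : ZMod p) = ((j k : ℕ) : ZMod p) + ((j g : ℕ) : ZMod p)
    rw [ZMod.natCast_mod, Nat.cast_add]
  have hMtriv : ∀ s ∈ N, ∀ m : TrivMod p, s • m = m := fun _ _ _ => rfl
  have hwl : ∀ g ∈ H, ∀ s ∈ N, w (g * s) = w g := by
    intro g _ s hs; funext m
    simp only [w, ← mul_assoc, Subgroup.mul_mem_cancel_right N hs]
  have hw : IsCycle p H N w := by
    refine ⟨hwl, fun g _ m n => ?_, fun m => ?_⟩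
    · simp only [w]
      split_ifs with h
      · rw [tval_add, Int.natCast_mod, Nat.cast_add]
        exact Int.dvd_self_sub_of_emod_eq rfl
      · simp
    · simp [trivMod_smul, csum_zero]
  obtain ⟨k, hk, hpair⟩ := exists_isB2_pairC_capExt hN hMtriv hp.ne_zero hC.z2 hw hf
  have hz : zval H N w f = 1 := by
    rw [zval, csum_single hN ht (fun g hg s hs => by rw [hwl g hg s hs, hf.1 g hg s hs])
      (fun g _ hg => by simp [w, hg])]
    simp only [w, inv_mul_cancel, N.one_mem, if_true]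
    rw [hfv t ht, ← huniq t ht 1 ⟨hp.one_lt, by simp⟩]
    rfl
  -- the cap pairing is a carry times the sum, hence a coboundary
  have hB : IsB2 H N (pairC (capExt p H N u w) f) := by
    have hxb : ∀ x ∈ H, x • b = t ^ j x • b := by
      intro x hx
      conv_lhs => rw [show x = t ^ j x * ((t ^ j x)⁻¹ * x) by group]
      rw [mul_smul, hb _ (hj x hx).2]
    refine ⟨fun x => ∑ i ∈ Finset.range (j x), t ^ i • b,
      fun g hg s hs => by dsimp only; rw [hfP g hg s (hNP hs)], fun x hx y hy => ?_⟩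
    have hnorm : normTo H P b = ∑ i ∈ Finset.range p, t ^ i • b := by
      have := hP.fin
      have := Fintype.ofFinite (↥H ⧸ P.subgroupOf H)
      rw [normTo, csum_eq_sum]
      refine Finset.sum_bij (fun q _ => j (rep H P q)) (fun q _ => Finset.mem_range.2 (hj _ (rep_mem H P q)).1)
        (fun q _ q' _ h => ?_) (fun i hi => ?_) (fun q _ => hxb _ (rep_mem H P q))
      · rw [← QuotientGroup.out_eq' q, ← QuotientGroup.out_eq' q', QuotientGroup.eq,
          Subgroup.mem_subgroupOf]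
        have h1 := (hj _ (rep_mem H P q)).2
        have h2 := (hj _ (rep_mem H P q')).2
        rw [← h] at h2
        simpa [rep, mul_assoc] using P.mul_mem (P.inv_mem h1) h2
      · refine ⟨QuotientGroup.mk ⟨t ^ i, H.pow_mem ht i⟩, Finset.mem_univ _, ?_⟩
        refine (huniq _ (rep_mem H P _) i ⟨Finset.mem_range.1 hi, ?_⟩).symm
        have := QuotientGroup.out_eq' (QuotientGroup.mk (⟨t ^ i, H.pow_mem ht i⟩ : H)
          : ↥H ⧸ P.subgroupOf H)
        rw [QuotientGroup.eq, Subgroup.mem_subgroupOf] at this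
        simpa [rep] using P.inv_mem this
    have eB : (capExt p H N u w).2 x (x • f y) = 0 := by
      rw [capExt_snd]
      simp [eta, trivMod_smul, csum_zero]
    have eA : (capExt p H N u w).1 (f x, x • f y)
        = (((j x + j y) / p : ℕ) : ℤ) • csum H N (fun g => u g t) := by
      rw [capExt_fst, zsmul_csum hN]
      refine csum_congr H N fun g hg => ?_
      rw [csum_single hN ht (fun h hh s hs => by rw [hw.kap_lvl hh hs, hC.z2.right_lvl hg hh hs])
        (fun h _ hh => by simp [kap, w, hh])]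
      congr 1
      simp only [kap, trivMod_smul, Prod.smul_mk, w, inv_mul_cancel, N.one_mem, if_true]
      rw [hfv x hx, hfv y hy, tval_add, hfv x hx, hfv y hy]
      have := Nat.mod_add_div (j x + j y) p
      rw [show ((j x : ℤ) + j y - ((j x + j y) % p : ℕ)) = (p : ℤ) * (((j x + j y) / p : ℕ) : ℤ) by
        rw [sub_eq_iff_eq_add]; exact_mod_cast (by omega : j x + j y = p * ((j x + j y) / p) + (j x + j y) % p)]
      exact Int.mul_ediv_cancel_left _ (Int.natCast_ne_zero.2 hp.ne_zero)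
    have hper : ∀ n i : ℕ, t ^ (i + p * n) • b = t ^ i • b := by
      intro n i
      rw [pow_add, pow_mul, mul_smul, hb _ (P.pow_mem htp n)]
    have e1 : ∀ i < p, x • t ^ i • b = t ^ (j x + i) • b := by
      intro i hi
      have hji : j (t ^ i) = i := (huniq _ (H.pow_mem ht i) i ⟨hi, by simp⟩).symm
      rw [← mul_smul, hxb _ (mul_mem hx (H.pow_mem ht i)), hadd x hx _ (H.pow_mem ht i), hji]
      conv_rhs => rw [← Nat.mod_add_div (j x + i) p, hper]
    have e2 : x • ∑ i ∈ Finset.range (j y), t ^ i • b + ∑ i ∈ Finset.range (j x), t ^ i • b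
        = ∑ i ∈ Finset.range (j x + j y), t ^ i • b := by
      rw [Finset.sum_range_add _ (j x) (j y), Finset.smul_sum, add_comm]
      exact congrArg (_ + ·) (Finset.sum_congr rfl fun i hi =>
        e1 i ((Finset.mem_range.1 hi).trans (hj y hy).1))
    rw [pairC, eB, eA, zero_add, dd1, hct, hnorm, hadd x hx y hy, sub_add_eq_add_sub, e2]
    have h1 := (hj x hx).1
    have h2 := (hj y hy).1
    rcases lt_or_ge (j x + j y) p with hlt | hge
    · rw [Nat.div_eq_of_lt hlt, Nat.mod_eq_of_lt hlt]; simp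
    · have hd : (j x + j y) / p = 1 := Nat.div_eq_of_lt_le (by omega) (by omega)
      have hm : (j x + j y) % p = j x + j y - p := by
        rw [Nat.mod_eq_sub_mod hge, Nat.mod_eq_of_lt (by omega)]
      rw [hd, hm, Nat.cast_one, one_smul]
      conv_rhs => rw [show j x + j y = p + (j x + j y - p) by omega, Finset.sum_range_add,
        Nat.add_sub_cancel_left]
      rw [eq_comm, add_sub_assoc, add_eq_left, sub_eq_zero]
      refine Finset.sum_congr rfl fun i _ => ?_
      rw [add_comm]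
      exact (congrArg (fun m => t ^ (i + m) • b) (mul_one p).symm).trans (hper 1 i)
  have hku : IsB2 H N (fun g h => k • u g h) := (hB.sub hpair).congr fun g _ h _ => by
    simp only [Pi.sub_apply]; abel
  obtain ⟨c, hc⟩ := hC.order k hku
  rw [hz, mul_one, hc] at hk
  have hn : (N.relIndex H : ℤ) ≠ 0 := by
    have := hN.fin
    exact Int.natCast_ne_zero.2 (by rw [Subgroup.relIndex]; exact Subgroup.index_ne_zero_of_finite)
  have h1 : (p : ℤ) * c = 1 := mul_left_cancel₀ hn (by linarith [hk])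
  have h2 : (p : ℤ) ∣ 1 := ⟨c, h1.symm⟩
  have h3 := Int.le_of_dvd one_pos h2
  have := hp.two_le
  omega

omit [Fact p.Prime] in
lemma normTo_of_fixed {H P : Subgroup Γ} (hP : Lvl H P) {x : A} (hx : x ∈ fixSub (A := A) H) :
    normTo H P x = P.relIndex H • x := by
  rw [normTo, csum_congr H P fun t ht => hx t ht, csum_const hP]

omit [Fact p.Prime] in
lemma normTo_add {H P : Subgroup Γ} (hP : Lvl H P) (x y : A) :
    normTo H P (x + y) = normTo H P x + normTo H P y := by
  simp only [normTo, smul_add]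
  rw [csum_add H P hP.fin]

omit [Fact p.Prime] in
lemma normTo_nsmul {H P : Subgroup Γ} (hP : Lvl H P) (n : ℕ) (x : A) :
    normTo H P (n • x) = n • normTo H P x := by
  simp only [normTo]
  rw [show n • csum H P (fun t => t • x) = (nsmulAddMonoidHom n : A →+ A) (csum H P fun t => t • x) from rfl,
    map_csum H P hP.fin]
  exact csum_congr H P fun t _ => (smul_comm n t x).symm

/-- A nontrivial `p`-layer has a normal sublayer of index `p`. -/
theorem exists_sublayer (hN : Lvl H N) {a : ℕ} (ha : N.relIndex H = p ^ (a + 1)) :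
    ∃ P : Subgroup Γ, P ≤ H ∧ N ≤ P ∧ Lvl H P ∧ P.relIndex H = p := by
  have hp : p.Prime := Fact.out
  have := hN.fin
  have : (N.subgroupOf H).Normal := ⟨fun x hx g => by
    rw [Subgroup.mem_subgroupOf] at hx ⊢
    simpa using hN.conj _ (H.inv_mem g.2) _ hx⟩
  have hcard : Nat.card (↥H ⧸ N.subgroupOf H) = p ^ (a + 1) := ha
  obtain ⟨K, hK⟩ := Sylow.exists_subgroup_card_pow_prime p
    (G := ↥H ⧸ N.subgroupOf H) (n := a) (hcard ▸ pow_dvd_pow p (Nat.le_succ a))
  have hKi : K.index = p := by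
    have h := K.card_mul_index
    rw [hK, hcard, pow_succ] at h
    exact Nat.eq_of_mul_eq_mul_left (pow_pos hp.pos a) h
  have hKn : K.Normal := by
    refine Subgroup.normal_of_index_eq_minFac_card ?_
    rw [hKi, hcard, Nat.pow_minFac (Nat.succ_ne_zero a), hp.minFac_eq]
  let P₀ := K.comap (QuotientGroup.mk' (N.subgroupOf H))
  have hsub : (P₀.map H.subtype).subgroupOf H = P₀ :=
    Subgroup.comap_map_eq_self_of_injective H.subtype_injective _
  have hfin : Finite (↥H ⧸ (P₀.map H.subtype).subgroupOf H) := by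
    rw [hsub]
    exact @Subgroup.finite_quotient_of_finiteIndex _ _ _ ⟨by
      rw [Subgroup.index_comap_of_surjective K (QuotientGroup.mk'_surjective _), hKi]; exact hp.ne_zero⟩
  refine ⟨P₀.map H.subtype, Subgroup.map_subtype_le P₀, fun s hs => ?_,
    ⟨Subgroup.map_subtype_le P₀, ?_, hfin⟩, ?_⟩
  · refine ⟨⟨s, hN.le hs⟩, ?_, rfl⟩
    show QuotientGroup.mk' _ _ ∈ K
    rw [QuotientGroup.mk'_apply, (QuotientGroup.eq_one_iff _).2 (Subgroup.mem_subgroupOf.2 hs)]
    exact K.one_mem
  · rintro g hg _ ⟨x, hx, rfl⟩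
    refine ⟨(⟨g, hg⟩ : H)⁻¹ * x * ⟨g, hg⟩, ?_, by simp⟩
    have : P₀.Normal := hKn.comap _
    simpa using this.conj_mem x hx (⟨g, hg⟩ : H)⁻¹
  · rw [Subgroup.relIndex, hsub,
      Subgroup.index_comap_of_surjective K (QuotientGroup.mk'_surjective _), hKi]

/-- `C^H = caps + norms + p`, for trivial `ℤ/p`-coefficients. -/
theorem ClassModule.trivial_decomp (hC : ClassModule p H N u) {c : A} (hc : c ∈ fixSub (A := A) H) :
    ∃ n : Γ → ℤ, (∀ g ∈ H, ∀ s ∈ N, n (g * s) = n g) ∧
      ∃ y ∈ fixSub (A := A) N, ∃ c' ∈ fixSub (A := A) H,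
        c = csum H N (fun h => n h • csum H N (fun g => u g h)) + normTo H N y + p • c' := by
  classical
  have hp : p.Prime := Fact.out
  obtain ⟨a, ha⟩ := hC.pow
  induction a generalizing H c with
  | zero =>
    rw [pow_zero, Subgroup.relIndex_eq_one] at ha
    refine ⟨0, fun _ _ _ _ => rfl, c, fun s hs => hc s (hC.lvl.le hs), 0, zero_mem _, ?_⟩
    rw [normTo_of_fixed hC.lvl hc, Subgroup.relIndex_eq_one.2 ha]
    simp [csum_zero]
  | succ a ih =>
    obtain ⟨P, hPH, hNP, hP, hidx⟩ := exists_sublayer hC.lvl ha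
    have hN := hC.lvl
    have hCP := hC.sub hPH hNP
    have hPa : N.relIndex P = p ^ a := by
      have := Subgroup.relIndex_mul_relIndex N P H hNP hPH
      rw [hidx, ha, pow_succ] at this
      exact Nat.eq_of_mul_eq_mul_right hp.pos this
    obtain ⟨t, ht, htP⟩ : ∃ t ∈ H, t ∉ P := by
      by_contra h
      push Not at h
      rw [Subgroup.relIndex_eq_one.2 h] at hidx
      exact hp.ne_one hidx.symm
    have hct := hC.sum_u_mem ht
    set ct := csum H N (fun g => u g t) with hctdef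
    obtain ⟨c₀, hc₀, hgen⟩ := hC.step H P hNP le_rfl hP hidx
    obtain ⟨k₀, y₀, hy₀, e₀⟩ := hgen ct hct
    have hk₀ : ¬ p ∣ k₀ := by
      rintro ⟨m, rfl⟩
      refine hC.sum_u_not_norm hP hNP hidx ht htP (b := m • c₀ + y₀)
        (add_mem (nsmul_mem (show c₀ ∈ fixSub (A := A) P from fun s hs => hc₀ s (hPH hs)) m) hy₀) ?_
      rw [← hctdef, e₀, normTo_add hP, normTo_of_fixed hP (nsmul_mem hc₀ m), hidx, mul_nsmul']
    obtain ⟨k, y, hy, e⟩ := hgen c hc
    obtain ⟨l, hl⟩ : ∃ l : ℕ, k ≡ l * k₀ [MOD p] := by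
      have hu : IsUnit (k₀ : ZMod p) := by
        rw [isUnit_iff_ne_zero, Ne, ZMod.natCast_eq_zero_iff]; exact hk₀
      refine ⟨((k : ZMod p) * ↑hu.unit⁻¹).val, ?_⟩
      rw [← ZMod.natCast_eq_natCast_iff, Nat.cast_mul, ZMod.natCast_val, ZMod.cast_id, mul_assoc,
        hu.val_inv_mul, mul_one]
    -- `c - l • ct` is a norm from `P`
    obtain ⟨z, hz⟩ : ∃ z : ℤ, (k : ℤ) - (l * k₀ : ℕ) = p * z :=
      (Nat.modEq_iff_dvd.1 hl.symm)
    let d : A := z • c₀ + y + -(l • y₀)
    have hd : d ∈ fixSub (A := A) P :=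
      add_mem (add_mem (zsmul_mem (show c₀ ∈ fixSub (A := A) P from fun s hs => hc₀ s (hPH hs)) z) hy) (neg_mem (nsmul_mem hy₀ l))
    have hneg : ∀ x : A, normTo H P (-x) = -normTo H P x := by
      intro x
      rw [eq_neg_iff_add_eq_zero, ← normTo_add hP, neg_add_cancel]
      simp [normTo, csum_zero]
    have ec : c = l • ct + normTo H P d := by
      rw [normTo_add hP, normTo_add hP, hneg, normTo_nsmul hP,
        normTo_of_fixed hP (zsmul_mem hc₀ z), hidx, e₀, e, smul_add, ← mul_nsmul', ← natCast_zsmul c₀ k,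
        ← natCast_zsmul (z • c₀) p, smul_smul, ← hz, sub_smul, natCast_zsmul, natCast_zsmul]
      abel
    obtain ⟨n, hn, yN, hyN, c', hc', ed⟩ := ih hCP hd hPa
    refine ⟨fun g => (if t⁻¹ * g ∈ N then (l : ℤ) else 0) + (if g ∈ P then n g else 0), fun g _ s hs => ?_,
      yN, hyN, normTo H P c', fun k hk => smul_normTo_of_lvl hP hc' hk, ?_⟩
    · simp only [← mul_assoc t⁻¹, Subgroup.mul_mem_cancel_right N hs,
        Subgroup.mul_mem_cancel_right P (hNP hs)]
      split_ifs with h1 h2 <;> first | rfl | rw [hn g ‹_› s hs]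
    · simp only [add_smul]
      rw [csum_add H N hN.fin]
      have e1 : csum H N (fun h => (if t⁻¹ * h ∈ N then (l : ℤ) else 0) • csum H N (fun g => u g h))
          = l • ct := by
        rw [csum_single hN ht (fun g hg s hs => by
            simp only [← mul_assoc t⁻¹, Subgroup.mul_mem_cancel_right N hs]
            rw [csum_congr H N fun x hx => hC.z2.right_lvl hx hg hs])
          (fun g _ hg => by simp [hg])]
        simp [hctdef]
      have hPN := hN.sub_left hPH hNP
      have e2 : csum H N (fun h => (if h ∈ P then n h else 0) • csum H N (fun g => u g h))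
          = normTo H P (csum P N (fun h => n h • csum P N (fun g => u g h))) := by
        rw [csum_supported hN hPH hNP (fun g hg s hs => by
            simp only [Subgroup.mul_mem_cancel_right P (hNP hs)]
            rw [csum_congr H N fun x hx => hC.z2.right_lvl hx hg hs]
            split_ifs with h <;> first | rfl | rw [hn g h s hs])
          (fun g _ hg => by simp [hg]),
          normTo, csum_congr H P fun x _ => smul_csum hPN x _, csum_comm' hN hPH hNP]
        refine csum_congr P N fun h hh => ?_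
        rw [if_pos hh, ← csum_tower hN hPH hNP (fun g hg s hs => hC.z2.left_lvl hg (hPH hh) hs),
          zsmul_csum hP]
        refine csum_congr H P fun x hx => ?_
        show n h • _ = x • (n h • _)
        rw [smul_comm x, smul_csum hPN]
        congr 1
        -- the tail vanishes after reindexing
        have ev : ∀ g ∈ P, u (x * g) h = x • u g h + (u x (g * h) - u x g) := fun g hg => by
          have := hC.z2.2 x hx g (hPH hg) h (hPH hh)
          rw [← sub_eq_zero, ← neg_eq_zero, ← this]; abel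
        rw [csum_congr P N ev, csum_add P N hPN.fin, csum_sub hPN,
          csum_mul_right hPN (F := fun g => u x g) (fun g hg s hs => hC.z2.right_lvl hx (hPH hg) hs) hh,
          sub_self, add_zero]
      rw [e1, e2, ec, ed, normTo_add hP, normTo_add hP, normTo_nsmul hP]
      have e3 : normTo H P (normTo P N yN) = normTo H N yN := by
        simp only [normTo]
        rw [← csum_tower hN hPH hNP (F := fun g => g • yN) (fun g _ s hs => by rw [mul_smul, hyN s hs])]
        exact csum_congr H P fun x _ => by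
          rw [smul_csum hPN]; exact csum_congr P N fun r _ => (mul_smul x r yN).symm
      rw [e3]
      abel

end FLTAgent.Global
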