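import Fermat.Agent.Global.Ext.Pairing

/-!
Corestriction of extension classes, and its exact compatibility with caps and norms.
-/

set_option autoImplicit false
set_option linter.unusedSectionVars false

noncomputable section

namespace FLTAgent.Global

variable {Γ : Type*} [Group Γ] {M : Type*} [AddCommGroup M] [DistribMulAction Γ M]
  {A : Type*} [AddCommGroup A] [DistribMulAction Γ A]
  {H P N : Subgroup Γ} {p : ℕ}

open scoped Classical in
/-- Corestriction of the second component. -/
def coresB (H P : Subgroup Γ) {B : Type*} [AddCommGroup B] [DistribMulAction Γ B] (b : Γ → B)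
    (g : Γ) : B :=
  if hg : g ∈ H then ∑ᶠ q : ↥H ⧸ P.subgroupOf H, rep H P (trans hg q) • b (slip hg q) else 0

/-- Corestriction. -/
def coresExt (H P : Subgroup Γ) (e : Pre Γ M A) : Pre Γ M A :=
  (normTo H P e.1, coresB H P e.2)

lemma coresB_eq [Fintype (↥H ⧸ P.subgroupOf H)] {B : Type*} [AddCommGroup B]
    [DistribMulAction Γ B] (b : Γ → B) {g : Γ} (hg : g ∈ H) :
    coresB H P b g = ∑ q, rep H P (trans hg q) • b (slip hg q) := by
  rw [coresB, dif_pos hg, finsum_eq_sum_of_fintype]

variable (hN : Lvl H N) (hP : P ≤ H) (hNP : N ≤ P)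

include hN hP hNP in
theorem isExt_coresExt {e : Pre Γ M A} (he : IsExt P N e) : IsExt H N (coresExt H P e) := by
  have := hN.fin_quot hP hNP
  have := Fintype.ofFinite (↥H ⧸ P.subgroupOf H)
  refine ⟨?_, ⟨fun g hg s hs => ?_, fun g hg h hh => ?_⟩, fun g hg => ?_⟩
  · rw [coresExt, normTo, csum_eq_sum]
    exact sum_mem fun q _ => smul_mem_symCoc he.sym _
  · have hgs := mul_mem hg (hN.le hs)
    simp only [coresExt, coresB_eq _ hg, coresB_eq _ hgs]
    refine Finset.sum_congr rfl fun q _ => ?_
    set t := rep H P q with ht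
    have hn : t⁻¹ * s * t ∈ N := hN.conj t (rep_mem H P q) s hs
    have e1 : slip hgs q = slip hg q * (t⁻¹ * s * t) := by
      simp [slip, trans_of_mem hN hNP hg hs q, ← ht, mul_assoc]
    rw [trans_of_mem hN hNP hg hs q, e1, he.coc.1 _ (slip_mem hg q) _ hn]
  · simp only [coresExt, coresB_eq _ hg, coresB_eq _ hh, coresB_eq _ (mul_mem hg hh), Finset.smul_sum]
    conv_rhs => arg 2; rw [← Equiv.sum_comp (trans hh)]
    rw [← Finset.sum_add_distrib]
    refine Finset.sum_congr rfl fun q _ => ?_
    rw [trans_mul hg hh, slip_mul hg hh, he.coc.2 _ (slip_mem hg _) _ (slip_mem hh q), smul_add,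
      ← mul_smul, rep_mul_slip, mul_smul]
  · simp only [coresExt, normTo, csum_eq_sum, coresB_eq _ hg, Finset.smul_sum, map_sum]
    conv_lhs => arg 2; rw [← Equiv.sum_comp (trans hg)]
    rw [← Finset.sum_sub_distrib]
    refine Finset.sum_congr rfl fun q _ => ?_
    rw [← smul_del, ← he.eqv _ (slip_mem hg q), smul_sub, ← mul_smul, ← mul_smul, rep_mul_slip]

include hN hP hNP in
theorem coresExt_res {e : Pre Γ M A} (he : IsExt H N e) :
    ExtRel H (coresExt H P e) (P.relIndex H • e) := by
  have := hN.fin_quot hP hNP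
  have := Fintype.ofFinite (↥H ⧸ P.subgroupOf H)
  have hcard : P.relIndex H = Fintype.card (↥H ⧸ P.subgroupOf H) := by
    rw [Subgroup.relIndex, Subgroup.index_eq_card, Nat.card_eq_fintype_card]
  refine ⟨∑ q, e.2 (rep H P q), ?_, fun g hg => ?_⟩
  · rw [map_sum, sub_eq_iff_eq_add, coresExt, Prod.smul_fst, hcard]
    simp only [normTo, csum_eq_sum]
    rw [← Finset.card_univ, ← Finset.sum_const, ← Finset.sum_add_distrib]
    refine Finset.sum_congr rfl fun q _ => ?_
    rw [← he.eqv _ (rep_mem H P q)]
    abel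
  · simp only [coresExt, Prod.smul_snd, Pi.smul_apply]
    rw [hcard, coresB_eq _ hg, ← Finset.card_univ, ← Finset.sum_const, dd0, Finset.smul_sum, ← Finset.sum_sub_distrib]
    conv_rhs => arg 2; rw [← Equiv.sum_comp (trans hg)]
    rw [← Finset.sum_sub_distrib]
    refine Finset.sum_congr rfl fun q _ => ?_
    have e1 := he.coc.2 _ (rep_mem H P (trans hg q)) _ (hP (slip_mem hg q))
    rw [rep_mul_slip, he.coc.2 g hg _ (rep_mem H P q)] at e1
    rw [sub_eq_sub_iff_add_eq_add, ← e1]

include hN hP hNP in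
theorem ExtRel.cores {e e' : Pre Γ M A} (h : ExtRel P e e') :
    ExtRel H (coresExt H P e) (coresExt H P e') := by
  have := hN.fin_quot hP hNP
  have := Fintype.ofFinite (↥H ⧸ P.subgroupOf H)
  obtain ⟨w, h1, h2⟩ := h
  refine ⟨normTo H P w, ?_, fun g hg => ?_⟩
  · simp only [coresExt, normTo, csum_eq_sum, map_sum, ← smul_del, ← Finset.sum_sub_distrib]
    exact Finset.sum_congr rfl fun q _ => by rw [← smul_sub, h1]
  · simp only [coresExt, coresB_eq _ hg, normTo, csum_eq_sum, dd0, Finset.smul_sum,
      ← Finset.sum_sub_distrib]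
    conv_rhs => rw [Finset.sum_sub_distrib]; arg 2; rw [← Equiv.sum_comp (FLTAgent.Global.trans hg)]
    rw [← Finset.sum_sub_distrib]
    refine Finset.sum_congr rfl fun q _ => ?_
    rw [← smul_sub, h2 _ (slip_mem hg q), dd0, smul_sub, ← mul_smul, ← mul_smul, rep_mul_slip]

include hN hP hNP in
theorem coresExt_normExt {a : Fn (M × M) A} (hfix : ∀ s ∈ N, s • a = a) :
    ExtRel H (coresExt H P (normExt P N a)) (normExt H N a) := by
  have hPN := hN.sub_left hP hNP
  refine ExtRel.of_eq ?_ fun g hg => ?_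
  · simp only [coresExt, normExt, normTo]
    rw [← csum_tower hN hP hNP (F := fun g => g • a) (fun g _ s hs => by rw [mul_smul, hfix s hs])]
    exact csum_congr H P fun t _ => by
      rw [smul_csum hPN]; exact csum_congr P N fun r _ => (mul_smul t r a).symm
  · simp [coresExt, coresB, normExt, hg]

open scoped Classical in
/-- Extension by zero of a cycle. -/
def pushW (P : Subgroup Γ) (w : Γ → M → ℤ) (g : Γ) : M → ℤ := if g ∈ P then w g else 0

variable (hM : ∀ s ∈ N, ∀ m : M, s • m = m) {u : Γ → Γ → A} {w : Γ → M → ℤ}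

omit [DistribMulAction Γ A] in
lemma csum_neg' {B : Type*} [AddCommGroup B] (hf : Finite (↥H ⧸ P.subgroupOf H)) (F : Γ → B) :
    csum H P (fun g => -F g) = -csum H P F :=
  (map_csum H P hf (-AddMonoidHom.id B) F).symm

lemma csum_sub' {B : Type*} [AddCommGroup B] (hf : Finite (↥H ⧸ P.subgroupOf H)) (F G : Γ → B) :
    csum H P (fun g => F g - G g) = csum H P F - csum H P G := by
  simp only [sub_eq_add_neg]
  rw [csum_add H P hf, csum_neg' hf]

lemma eval_csum_sum [Fintype (↥H ⧸ P.subgroupOf H)] {X : Type*} (F : Γ → Fn X A) (x : X) :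
    (csum H P F) x = csum H P (fun g => F g x) :=
  map_csum H P inferInstance (Fn.eval x) F

include hN hP hNP in
/-- A sum over `H/N` of a function supported on `P` is a sum over `P/N`. -/
lemma csum_supported {B : Type*} [AddCommGroup B] {F : Γ → B}
    (hF : ∀ g ∈ H, ∀ s ∈ N, F (g * s) = F g) (h0 : ∀ g ∈ H, g ∉ P → F g = 0) :
    csum H N F = csum P N F := by
  have hPN := hN.sub_left hP hNP
  have := hN.fin_quot hP hNP
  have := Fintype.ofFinite (↥H ⧸ P.subgroupOf H)
  rw [← csum_tower hN hP hNP hF, csum_eq_sum]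
  rw [Finset.sum_eq_single (QuotientGroup.mk (1 : H) : ↥H ⧸ P.subgroupOf H)]
  · have htP : rep H P (QuotientGroup.mk (1 : H) : ↥H ⧸ P.subgroupOf H) ∈ P := by
      have := QuotientGroup.out_eq' (QuotientGroup.mk (1 : H) : ↥H ⧸ P.subgroupOf H)
      rw [QuotientGroup.eq, Subgroup.mem_subgroupOf] at this
      simpa [rep] using this
    exact csum_mul_left (fun g hg s hs => hF g (hP hg) s hs) htP
  · intro q _ hq
    rw [csum_congr P N (G := fun _ => (0 : B)) fun r hr => h0 _ (mul_mem (rep_mem H P q) (hP hr)) ?_,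
      csum_zero]
    intro h
    apply hq
    rw [← QuotientGroup.out_eq' q, QuotientGroup.eq, Subgroup.mem_subgroupOf]
    have := P.mul_mem h (P.inv_mem hr)
    simpa [rep] using P.inv_mem this
  · intro h; exact absurd (Finset.mem_univ _) h

lemma pushW_apply_of_mem {g : Γ} (h : g ∈ P) : pushW P w g = w g := by simp [pushW, h]

lemma pushW_apply_of_notMem {g : Γ} (h : g ∉ P) : pushW P w g = 0 := by simp [pushW, h]

include hN hP hNP in
lemma IsCycle.pushW_lvl (hw : IsCycle p P N w) :
    ∀ g ∈ H, ∀ s ∈ N, pushW P w (g * s) = pushW P w g := by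
  intro g _ s hs
  by_cases h : g ∈ P
  · rw [pushW_apply_of_mem h, pushW_apply_of_mem (P.mul_mem h (hNP hs)), hw.lvl g h s hs]
  · rw [pushW_apply_of_notMem h,
      pushW_apply_of_notMem (fun h' => h ((Subgroup.mul_mem_cancel_right P (hNP hs)).1 h'))]

include hN hP hNP hM in
lemma IsCycle.csum_pushW (hw : IsCycle p P N w) (m : M) :
    csum H N (fun h => pushW P w h (h • m) - pushW P w h m)
      = csum P N (fun h => w h (h • m) - w h m) := by
  rw [csum_supported hN hP hNP
    (fun g hg s hs => by rw [hw.pushW_lvl hN hP hNP g hg s hs, mul_smul, hM s hs])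
    (fun g _ h => by simp [pushW_apply_of_notMem h])]
  exact csum_congr P N fun g hg => by rw [pushW_apply_of_mem hg]

include hN hP hNP hM in
lemma IsCycle.push (hw : IsCycle p P N w) : IsCycle p H N (pushW P w) where
  lvl := hw.pushW_lvl hN hP hNP
  add g _ m n := by
    by_cases h : g ∈ P
    · rw [pushW_apply_of_mem h]; exact hw.add g h m n
    · simp [pushW_apply_of_notMem h]
  cyc m := by rw [hw.csum_pushW hN hP hNP hM]; exact hw.cyc m

include hN hP hNP hM in
lemma IsCycle.eta_pushW (hw : IsCycle p P N w) (m : M) :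
    eta p H N (pushW P w) m = eta p P N w m := by
  rw [eta, eta, hw.csum_pushW hN hP hNP hM]

include hN hP hNP in
lemma IsCycle.zval_pushW (hw : IsCycle p P N w) {f : Γ → M} (hf : IsLvl1 H N f) :
    zval H N (pushW P w) f = zval P N w f := by
  rw [zval, zval, csum_supported hN hP hNP
    (fun g hg s hs => by rw [hw.pushW_lvl hN hP hNP g hg s hs, hf g hg s hs])
    (fun g _ h => by simp [pushW_apply_of_notMem h])]
  exact csum_congr P N fun g hg => by rw [pushW_apply_of_mem hg]

include hN hP hNP hM in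
/-- Corestriction of a cap product is the cap product with the cycle pushed forward. -/
theorem coresExt_capExt (hp : p ≠ 0) (hu : IsZ2 H N u) (hw : IsCycle p P N w) :
    ExtRel H (coresExt H P (capExt p P N u w)) (capExt p H N u (pushW P w)) := by
  have hPN := hN.sub_left hP hNP
  have hf := hN.fin_quot hP hNP
  have := Fintype.ofFinite (↥H ⧸ P.subgroupOf H)
  let B : Fn M A := fun m =>
    -csum H P (fun t => csum P N (fun g => eta p P N w ((t * g)⁻¹ • m) • u t g))
  refine ⟨B, ?_, fun k hk => ?_⟩
  · rw [sub_eq_iff_eq_add]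
    ext ⟨m, n⟩
    rw [Fn.add_apply, del_apply, coresExt, normTo]
    simp only
    rw [eval_csum_sum (fun t => t • (capExt p P N u w).1), capExt_fst]
    rw [csum_congr H P fun t ht => by
      rw [Fn.smul_apply, capExt_fst, smul_csum hPN]]
    -- the big sum on `H`, decomposed along `H/P × P/N`
    have e0 : csum H N (fun g => csum H N (fun h => kap p (pushW P w) h (g⁻¹ • (m, n)) • u g h))
        = csum H P (fun t => csum P N (fun g => csum P N (fun h =>
            kap p w h ((t * g)⁻¹ • (m, n)) • u (t * g) h))) := by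
      rw [← csum_tower hN hP hNP (fun g hg s hs => csum_congr H N fun h hh => by
        rw [hu.left_lvl hg hh hs, Prod.smul_mk, Prod.smul_mk, inv_smul_eq_of_mem hM hs,
          inv_smul_eq_of_mem hM hs])]
      refine csum_congr H P fun t ht => csum_congr P N fun g hg => ?_
      rw [csum_supported hN hP hNP
        (fun h hh s hs => by
          rw [hu.right_lvl (mul_mem ht (hP hg)) hh hs, kap, kap, hw.pushW_lvl hN hP hNP h hh s hs])
        (fun h _ hh => by simp [kap, pushW_apply_of_notMem hh])]
      exact csum_congr P N fun h hh => by simp [kap, pushW_apply_of_mem hh]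
    simp only [B]
    rw [e0, ← csum_neg' hf, ← csum_neg' hf, ← csum_neg' hf, ← csum_add H P hf, ← csum_sub' hf,
      ← csum_add H P hf]
    refine csum_congr H P fun t ht => ?_
    -- reindex `g ↦ g h⁻¹`
    have e1 : csum P N (fun g => csum P N (fun h => kap p w h ((t * g)⁻¹ • (m, n)) • u t (g * h)))
        = csum P N (fun g => csum P N (fun h => kap p w h (h • (t * g)⁻¹ • (m, n)) • u t g)) := by
      rw [csum_comm hPN hPN, csum_comm hPN hPN (fun g h => kap p w h (h • _) • u t g)]
      refine csum_congr P N fun h hh => ?_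
      rw [← csum_mul_right hPN (F := fun g => kap p w h (h • (t * g)⁻¹ • (m, n)) • u t g)
        (fun g hg s hs => by
          rw [hu.right_lvl ht (hP hg) hs, ← mul_assoc, Prod.smul_mk, Prod.smul_mk, Prod.smul_mk,
            inv_smul_eq_of_mem hM hs, inv_smul_eq_of_mem hM hs]; rfl) hh]
      refine csum_congr P N fun g _ => ?_
      simp only [← mul_smul, mul_inv_rev, ← mul_assoc, mul_inv_cancel, one_mul]
    have e2 : csum P N (fun g => t • csum P N (fun h => kap p w h (g⁻¹ • t⁻¹ • (m, n)) • u g h))
        = csum P N (fun g => csum P N (fun h => kap p w h ((t * g)⁻¹ • (m, n)) • u (t * g) h))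
          + csum P N (fun g => csum P N (fun h => kap p w h ((t * g)⁻¹ • (m, n)) • u t g))
          - csum P N (fun g => csum P N (fun h => kap p w h ((t * g)⁻¹ • (m, n)) • u t (g * h))) := by
      rw [← csum_add P N hPN.fin, ← csum_sub hPN]
      refine csum_congr P N fun g hg => ?_
      rw [smul_csum hPN, ← csum_add P N hPN.fin, ← csum_sub hPN]
      refine csum_congr P N fun h hh => ?_
      rw [mul_inv_rev t g, mul_smul g⁻¹ t⁻¹, smul_comm t, ← smul_add, ← smul_sub]
      congr 1
      have e := hu.2 t ht g (hP hg) h (hP hh)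
      rw [sub_eq_zero] at e
      rw [← e]
      abel
    rw [e2, e1, add_sub_assoc, add_comm]
    congr 1
    simp only [← csum_neg hPN, ← csum_sub hPN, ← csum_add P N hPN.fin]
    refine csum_congr P N fun g _ => ?_
    rw [csum_congr P N (G := fun h => -((kap p w h (h • (t * g)⁻¹ • ((m, n) : M × M))
      - kap p w h ((t * g)⁻¹ • ((m, n) : M × M))) • u t g))
      (fun h _ => by rw [← neg_smul, neg_sub, sub_smul]), csum_neg hPN, csum_zsmul hPN,
      hw.kap_boundary hPN hp, sub_smul, add_smul]
    simp only [Prod.smul_fst, Prod.smul_snd, smul_add]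
    abel
  · ext m
    rw [Fn.sub_apply, dd0, Fn.sub_apply, Fn.smul_apply, capExt_snd, sub_eq_iff_eq_add]
    simp only [coresExt, coresB_eq _ hk]
    show Fn.eval m (∑ q, rep H P (trans hk q) • (capExt p P N u w).2 (slip hk q)) = _
    rw [map_sum]
    simp only [B, smul_neg, csum_eq_sum (H := H) (P := P), Finset.smul_sum]
    rw [← csum_tower hN hP hNP (fun g hg s hs => by
      rw [hu.right_lvl hk hg hs, ← mul_assoc, inv_smul_eq_of_mem hM hs]), csum_eq_sum]
    conv_rhs => arg 1; arg 2; rw [← Equiv.sum_comp (trans hk)]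
    simp only [← Finset.sum_neg_distrib, ← Finset.sum_sub_distrib, ← Finset.sum_add_distrib]
    refine Finset.sum_congr rfl fun q _ => ?_
    set t := rep H P q with ht'
    set t' := rep H P (trans hk q) with ht''
    set s := slip hk q with hs'
    have htm : t ∈ H := rep_mem H P q
    have ht'm : t' ∈ H := rep_mem H P _
    have hsP : s ∈ P := slip_mem hk q
    have eh : t' * s = k * t := rep_mul_slip hk q
    show Fn.eval m (t' • (capExt p P N u w).2 s) = _
    show (t' • (capExt p P N u w).2 s) m = _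
    simp only [hw.eta_pushW hN hP hNP hM]
    rw [Fn.smul_apply, capExt_snd, smul_neg, smul_csum hPN]
    -- reindex the tail by `g ↦ s g`
    rw [← csum_mul_left (F := fun g => eta p P N w ((t' * g)⁻¹ • m) • u t' g)
      (fun g hg x hx => by rw [hu.right_lvl ht'm (hP hg) hx, ← mul_assoc, inv_smul_eq_of_mem hM hx]) hsP,
      smul_csum hPN]
    have hz : ∀ c : A, csum P N (fun g => eta p P N w ((t' * (s * g))⁻¹ • m) • c) = 0 := by
      intro c
      rw [csum_zsmul hPN]
      have := hw.eta_sum hPN hM hp ((t' * s)⁻¹ • m)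
      rw [csum_congr P N (G := fun g => eta p P N w (g⁻¹ • (t' * s)⁻¹ • m))
        (fun g _ => by rw [← mul_smul, ← mul_inv_rev, mul_assoc]), this, zero_smul]
    rw [← sub_zero (-csum P N _), ← hz (u k t - u t' s)]
    simp only [← csum_neg hPN, ← csum_sub hPN, ← csum_add P N hPN.fin]
    refine csum_congr P N fun g hg => ?_
    have e1 := hu.2 t' ht'm s (hP hsP) g (hP hg)
    have e2 := hu.2 k hk t htm g (hP hg)
    rw [eh] at e1
    rw [sub_eq_zero] at e1 e2
    have a1 : (s * g)⁻¹ • t'⁻¹ • m = (t' * (s * g))⁻¹ • m := by rw [mul_inv_rev t', mul_smul]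
    have a2 : (t * g)⁻¹ • k⁻¹ • m = (t' * (s * g))⁻¹ • m := by
      rw [← mul_assoc t', eh, mul_assoc, mul_inv_rev k, mul_smul]
    have a3 : (k * (t * g))⁻¹ • m = (t' * (s * g))⁻¹ • m := by rw [← mul_assoc k, ← eh, mul_assoc]
    rw [a1, smul_comm t', smul_comm k, a2, a3]
    set E := eta p P N w ((t' * (s * g))⁻¹ • m)
    rw [← e1, ← e2]
    simp only [smul_sub, smul_add]
    abel

end FLTAgent.Global
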