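import Fermat.Agent.Global.Ext.Cap

/-!
Exact pairing of `u ∩ w` and of norm extensions with a cocycle `f` of `M`.
-/

set_option autoImplicit false
set_option linter.unusedSectionVars false

noncomputable section

namespace FLTAgent.Global

variable {Γ : Type*} [Group Γ] {M : Type*} [AddCommGroup M] [DistribMulAction Γ M]
  {A : Type*} [AddCommGroup A] [DistribMulAction Γ A]
  {H N : Subgroup Γ} {p : ℕ} {f : Γ → M}

/-- The norm extension of an `N`-invariant symmetric cocycle. -/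
def normExt (H N : Subgroup Γ) (a : Fn (M × M) A) : Pre Γ M A := (normTo H N a, 0)

lemma eval_csum (hN : Lvl H N) {X : Type*} (F : Γ → Fn X A) (x : X) :
    (csum H N F) x = csum H N (fun g => F g x) :=
  map_csum H N hN.fin (Fn.eval x) F

lemma smul_normTo_of_lvl (hN : Lvl H N) {B : Type*} [AddCommGroup B] [DistribMulAction Γ B] {a : B}
    (ha : ∀ s ∈ N, s • a = a) {g : Γ} (hg : g ∈ H) : g • normTo H N a = normTo H N a := by
  rw [normTo, smul_csum hN]
  conv_rhs => rw [← csum_mul_left (F := fun t => t • a) (fun t _ s hs => by rw [mul_smul, ha s hs]) hg]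
  exact csum_congr H N fun t _ => (mul_smul g t a).symm

lemma isExt_normExt (hN : Lvl H N) {a : Fn (M × M) A} (ha : a ∈ symCoc)
    (hfix : ∀ s ∈ N, s • a = a) : IsExt H N (normExt H N a) := by
  refine ⟨?_, ⟨fun _ _ _ _ => rfl, fun g _ h _ => by simp [normExt]⟩, fun g hg => ?_⟩
  · have := hN.fin
    have := Fintype.ofFinite (↥H ⧸ N.subgroupOf H)
    rw [normExt, normTo, csum_eq_sum]
    exact sum_mem fun q _ => smul_mem_symCoc ha _
  · simp [normExt, smul_normTo_of_lvl hN hfix hg]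

lemma inv_smul_cocycle (hf : IsZ1 H N f) {g x : Γ} (hg : g ∈ H) (hx : x ∈ H) :
    g⁻¹ • f x = f (g⁻¹ * x) - f g⁻¹ :=
  eq_sub_of_add_eq (hf.2 g⁻¹ (H.inv_mem hg) x hx).symm

lemma inv_smul_cocycle' (hf : IsZ1 H N f) {g x y : Γ} (hg : g ∈ H) (hx : x ∈ H) (hy : y ∈ H) :
    g⁻¹ • x • f y = f (g⁻¹ * x * y) - f (g⁻¹ * x) := by
  rw [← mul_smul]
  exact eq_sub_of_add_eq (hf.2 _ (mul_mem (H.inv_mem hg) hx) y hy).symm

lemma IsZ1.inv_lvl (hf : IsZ1 H N f) (hN : Lvl H N) {g x s : Γ} (hg : g ∈ H) (hx : x ∈ H)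
    (hs : s ∈ N) : f ((g * s)⁻¹ * x) = f (g⁻¹ * x) := by
  have hm : g⁻¹ * x ∈ H := mul_mem (H.inv_mem hg) hx
  rw [show (g * s)⁻¹ * x = g⁻¹ * x * ((g⁻¹ * x)⁻¹ * s⁻¹ * (g⁻¹ * x)) by group]
  exact hf.1 _ hm _ (hN.conj _ hm _ (N.inv_mem hs))

variable (hN : Lvl H N) (hM : ∀ s ∈ N, ∀ m : M, s • m = m)

include hM in
lemma apply_fixed_of_fixed {X : Type*} [MulAction Γ X] {a : Fn X A} (hX : ∀ s ∈ N, ∀ x : X, s • x = x)
    (hfix : ∀ s ∈ N, s • a = a) {s : Γ} (hs : s ∈ N) (x : X) : s • a x = a x := by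
  have := congrArg (fun w : Fn X A => w x) (hfix s hs)
  simpa [Fn.smul_apply, hX _ (N.inv_mem hs)] using this

include hN hM in
/-- A norm extension pairs trivially with every cocycle. -/
theorem isB2_pairC_normExt {a : Fn (M × M) A} (ha : a ∈ symCoc) (hfix : ∀ s ∈ N, s • a = a)
    (hf : IsZ1 H N f) : IsB2 H N (pairC (normExt H N a) f) := by
  have hfx : ∀ s ∈ N, ∀ P : M × M, s • a P = a P := fun s hs P =>
    apply_fixed_of_fixed hM (fun t ht Q => by ext <;> simp [hM t ht]) hfix hs P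
  refine ⟨fun x => csum H N (fun g => g • edge a f g⁻¹ (g⁻¹ * x)), fun x hx s hs => ?_,
    fun x hx y hy => ?_⟩
  · refine csum_congr H N fun g hg => ?_
    rw [← mul_assoc g⁻¹ x s]
    simp only [edge, hf.1 _ (mul_mem (H.inv_mem hg) hx) _ hs]
  let F' : Γ → A := fun g => g • edge a f (g⁻¹ * x) (g⁻¹ * (x * y))
  have hF : ∀ g ∈ H, ∀ s ∈ N, F' (g * s) = F' g := by
    intro g hg s hs
    simp only [F', edge, hf.inv_lvl hN hg hx hs, hf.inv_lvl hN hg (mul_mem hx hy) hs]
    rw [mul_smul, hfx s hs]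
  have shift : x • csum H N (fun g => g • edge a f g⁻¹ (g⁻¹ * y)) = csum H N F' := by
    rw [smul_csum hN, ← csum_mul_left hF hx]
    refine csum_congr H N fun g _ => ?_
    simp only [F', mul_inv_rev, mul_assoc, inv_mul_cancel_left, inv_mul_cancel, mul_one, ← mul_smul]
  rw [dd1, shift, pairC, normExt, normTo]
  simp only [Pi.zero_apply, Fn.zero_apply, zero_add]
  rw [eval_csum hN, ← csum_sub hN, ← csum_add H N hN.fin]
  refine csum_congr H N fun g hg => ?_
  rw [Fn.smul_apply, Prod.smul_mk, inv_smul_cocycle hf hg hx, inv_smul_cocycle' hf hg hx hy,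
    edge_spec ha f g⁻¹ (g⁻¹ * x) (g⁻¹ * x * y)]
  simp only [F', smul_sub, smul_add, mul_assoc]
  abel

section cap

variable {u : Γ → Γ → A} {w : Γ → M → ℤ}

/-- The integral potential of the pairing. -/
def theta (p : ℕ) (H N : Subgroup Γ) (w : Γ → M → ℤ) (f : Γ → M) (T : Γ) : ℤ :=
  (csum H N (fun h => w h (f (h * T)) - w h (f T)) - zval H N w f) / p

include hN in
lemma p_theta (hw : IsCycle p H N w) (hf : IsZ1 H N f) {T : Γ} (hT : T ∈ H) :
    (p : ℤ) * theta p H N w f T = csum H N (fun h => w h (f (h * T)) - w h (f T)) - zval H N w f := by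
  refine Int.mul_ediv_cancel' ?_
  rw [zval, ← csum_sub hN]
  have key : ∀ h ∈ H, w h (f (h * T)) - w h (f T) - w h (f h)
      = (w h (h • f T) - w h (f T)) + (p : ℤ) * (-kap p w h (h • f T, f h)) := by
    intro h hh
    rw [mul_neg, hw.p_kap hh, hf.2 h hh T hT]
    ring
  rw [csum_congr H N key, csum_add H N hN.fin]
  refine dvd_add (hw.cyc _) ?_
  rw [show (fun h => (p : ℤ) * (-kap p w h (h • f T, f h))) = fun h => (p : ℤ) • (-kap p w h (h • f T, f h))
    from funext fun h => (smul_eq_mul _ _).symm, ← zsmul_csum hN, smul_eq_mul]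
  exact dvd_mul_right _ _

include hN hM in
/-- `⟨u ∩ w, f⟩ = (n · w(f) / p) · u`. -/
theorem exists_isB2_pairC_capExt (hp : p ≠ 0) (hu : IsZ2 H N u) (hw : IsCycle p H N w)
    (hf : IsZ1 H N f) :
    ∃ k : ℤ, (p : ℤ) * k = N.relIndex H * zval H N w f ∧
      IsB2 H N (fun x y => pairC (capExt p H N u w) f x y - k • u x y) := by
  have hp' : (p : ℤ) ≠ 0 := Int.natCast_ne_zero.2 hp
  have hinvT : ∀ g ∈ H, ∀ s ∈ N, theta p H N w f (g * s)⁻¹ = theta p H N w f g⁻¹ := by
    intro g hg s hs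
    have e : f (g * s)⁻¹ = f g⁻¹ := by simpa using hf.inv_lvl hN hg H.one_mem hs
    have e' : ∀ h ∈ H, f (h * (g * s)⁻¹) = f (h * g⁻¹) := fun h hh => by
      rw [hf.2 h hh _ (H.inv_mem (mul_mem hg (hN.le hs))), e, ← hf.2 h hh _ (H.inv_mem hg)]
    simp only [theta, e]
    rw [csum_congr H N fun h hh => by rw [e' h hh]]
  refine ⟨-csum H N (fun g => theta p H N w f g⁻¹), ?_, ?_⟩
  · have hz : csum H N (fun g => csum H N (fun h => w h (f (h * g⁻¹)) - w h (f g⁻¹))) = 0 := by
      rw [csum_comm hN hN, csum_congr H N (G := fun _ => (0 : ℤ)) (fun h hh => ?_), csum_zero]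
      rw [csum_sub hN, sub_eq_zero]
      have hF : ∀ g ∈ H, ∀ s ∈ N, w h (f (g * s)⁻¹) = w h (f g⁻¹) := fun g hg s hs => by
        rw [show f (g * s)⁻¹ = f g⁻¹ by simpa using hf.inv_lvl hN hg H.one_mem hs]
      conv_rhs => rw [← csum_mul_right hN hF (H.inv_mem hh)]
      exact csum_congr H N fun g _ => by rw [mul_inv_rev, inv_inv]
    rw [mul_neg, ← smul_eq_mul, zsmul_csum hN]
    simp only [smul_eq_mul]
    rw [csum_congr H N (fun g hg => p_theta hN hw hf (H.inv_mem hg)), csum_sub hN, hz, zero_sub,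
      neg_neg, csum_const hN, nsmul_eq_mul]
  let G1 : Γ → A := fun x => csum H N (fun g => csum H N (fun h =>
    kap p w h (f (g⁻¹ * x) - f g⁻¹, f g⁻¹) • u g h))
  let V : Γ → A := fun x => csum H N (fun g => theta p H N w f g⁻¹ • u x g)
  refine ⟨fun x => G1 x + V x, fun x hx s hs => ?_, fun x hx y hy => ?_⟩
  · refine congrArg₂ (· + ·) (csum_congr H N fun g hg => csum_congr H N fun h _ => ?_)
      (csum_congr H N fun g hg => ?_)
    · rw [← mul_assoc g⁻¹ x s, hf.1 _ (mul_mem (H.inv_mem hg) hx) _ hs]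
    · rw [hu.left_lvl hx hg hs]
  have hxy := mul_mem hx hy
  -- the integers attached to the three edges
  let E : Γ → Γ → Γ → ℤ := fun h a b => kap p w h (f b - f a, f a)
  -- (1) expand the first component
  have e1 : (capExt p H N u w).1 (f x, x • f y)
      = G1 x - G1 (x * y)
        + csum H N (fun g => csum H N (fun h => E h (g⁻¹ * x) (g⁻¹ * x * y) • u g h)) := by
    rw [capExt_fst, ← csum_sub hN, ← csum_add H N hN.fin]
    refine csum_congr H N fun g hg => ?_
    rw [← csum_sub hN, ← csum_add H N hN.fin]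
    refine csum_congr H N fun h hh => ?_
    rw [Prod.smul_mk, inv_smul_cocycle hf hg hx, inv_smul_cocycle' hf hg hx hy]
    have e : ∀ a b c : M, kap p w h (b - a, c - b)
        = kap p w h (b - a, a) + kap p w h (c - b, b) - kap p w h (c - a, a) := by
      intro a b c
      refine (mul_right_injective₀ hp') ?_
      simp only [mul_add, mul_sub, hw.p_kap hh, sub_add_cancel, sub_add_sub_cancel']
      ring
    rw [e]
    rw [← sub_smul, ← add_smul, ← mul_assoc g⁻¹ x y]
    congr 1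
    ring
  -- (2) reindex the middle edge by `g = x t`
  have hEl : ∀ g ∈ H, ∀ s ∈ N, ∀ z ∈ H, f ((g * s)⁻¹ * z) = f (g⁻¹ * z) :=
    fun g hg s hs z hz => hf.inv_lvl hN hg hz hs
  have e2 : csum H N (fun g => csum H N (fun h => E h (g⁻¹ * x) (g⁻¹ * x * y) • u g h))
      = x • G1 y + csum H N (fun t => csum H N (fun h => E h t⁻¹ (t⁻¹ * y) • u x (t * h)))
        - csum H N (fun t => csum H N (fun h => E h t⁻¹ (t⁻¹ * y) • u x t)) := by
    rw [← csum_mul_left (k := x) (F := fun g => csum H N (fun h => E h (g⁻¹ * x) (g⁻¹ * x * y) • u g h))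
      (fun g hg s hs => csum_congr H N fun h hh => by
        simp only [E, hu.left_lvl hg hh hs, mul_assoc _ x y, hEl g hg s hs x hx,
          hEl g hg s hs _ hxy]) hx,
      smul_csum hN, ← csum_add H N hN.fin, ← csum_sub hN]
    refine csum_congr H N fun t ht => ?_
    rw [smul_csum hN, ← csum_add H N hN.fin, ← csum_sub hN]
    refine csum_congr H N fun h hh => ?_
    simp only [E, mul_inv_rev, mul_assoc, inv_mul_cancel, mul_one, inv_mul_cancel_left]
    rw [smul_comm x, ← smul_add, ← smul_sub]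
    congr 1
    have e := hu.2 x hx t ht h hh
    rw [← sub_eq_zero, ← neg_eq_zero, ← e]
    abel
  -- (3) reindex `t h ↦ t`
  have e3 : csum H N (fun t => csum H N (fun h => E h t⁻¹ (t⁻¹ * y) • u x (t * h)))
      = csum H N (fun t => csum H N (fun h => E h (h * t⁻¹) (h * t⁻¹ * y) • u x t)) := by
    rw [csum_comm hN hN, csum_comm hN hN (fun t h => E h (h * t⁻¹) (h * t⁻¹ * y) • u x t)]
    refine csum_congr H N fun h hh => ?_
    have hl : ∀ t ∈ H, ∀ s ∈ N, E h (h * (t * s)⁻¹) (h * (t * s)⁻¹ * y) • u x (t * s)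
        = E h (h * t⁻¹) (h * t⁻¹ * y) • u x t := by
      intro t ht s hs
      have a1 : f ((t * s)⁻¹) = f t⁻¹ := by simpa using hEl t ht s hs 1 H.one_mem
      have a2 : f ((t * s)⁻¹ * y) = f (t⁻¹ * y) := hEl t ht s hs y hy
      have hti := H.inv_mem ht
      have htsi := H.inv_mem (mul_mem ht (hN.le hs))
      simp only [E, hu.right_lvl hx ht hs, mul_assoc]
      rw [hf.2 h hh _ (mul_mem htsi hy), hf.2 h hh _ htsi, a1, a2, ← hf.2 h hh _ (mul_mem hti hy),
        ← hf.2 h hh _ hti]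
    rw [← csum_mul_right hN (F := fun t => E h (h * t⁻¹) (h * t⁻¹ * y) • u x t) hl hh]
    exact csum_congr H N fun t _ => by simp [mul_inv_rev, mul_assoc]
  -- (4) the second component
  have e4 : (capExt p H N u w).2 x (x • f y)
      = -csum H N (fun t => eta p H N w (f (t⁻¹ * y) - f t⁻¹) • u x t) := by
    rw [capExt_snd]
    refine congrArg Neg.neg (csum_congr H N fun t ht => ?_)
    rw [← mul_smul, mul_inv_rev, mul_assoc, inv_mul_cancel, mul_one, inv_smul_cocycle hf ht hy]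
  -- (5) the integers combine to differences of `theta`
  have e5 : ∀ t ∈ H, csum H N (fun h => E h (h * t⁻¹) (h * t⁻¹ * y) - E h t⁻¹ (t⁻¹ * y))
      - eta p H N w (f (t⁻¹ * y) - f t⁻¹)
      = theta p H N w f t⁻¹ - theta p H N w f (t⁻¹ * y) := by
    intro t ht
    have hti := H.inv_mem ht
    have hty := mul_mem hti hy
    refine (mul_right_injective₀ hp') ?_
    simp only [mul_sub]
    rw [p_theta hN hw hf hti, p_theta hN hw hf hty, hw.p_eta, ← smul_eq_mul, zsmul_csum hN,
      sub_sub_sub_cancel_right, ← csum_sub hN, ← csum_sub hN]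
    refine csum_congr H N fun h hh => ?_
    have eh : f (h * t⁻¹ * y) - f (h * t⁻¹) = h • (f (t⁻¹ * y) - f t⁻¹) := by
      rw [mul_assoc, hf.2 h hh _ hty, hf.2 h hh _ hti, smul_sub]; abel
    simp only [E, smul_eq_mul, mul_sub, hw.p_kap hh, sub_add_cancel]
    rw [eh, mul_assoc]
    ring
  -- (6) reindex `theta (t⁻¹ y)`
  have e6 : csum H N (fun t => theta p H N w f (t⁻¹ * y) • u x t)
      = V (x * y) - x • V y + csum H N (fun g => theta p H N w f g⁻¹) • u x y := by
    have hl : ∀ t ∈ H, ∀ s ∈ N, theta p H N w f ((t * s)⁻¹ * y) • u x (t * s)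
        = theta p H N w f (t⁻¹ * y) • u x t := by
      intro t ht s hs
      rw [hu.right_lvl hx ht hs]
      congr 1
      have hyt := mul_mem (H.inv_mem hy) ht
      have := hinvT (y⁻¹ * t) hyt s hs
      simpa [mul_inv_rev, mul_assoc] using this
    rw [← csum_mul_left (k := y) (F := fun t => theta p H N w f (t⁻¹ * y) • u x t) hl hy,
      smul_csum hN, ← csum_zsmul hN, ← csum_sub hN, ← csum_add H N hN.fin]
    refine csum_congr H N fun t ht => ?_
    rw [mul_inv_rev, inv_mul_cancel_right, smul_comm x, ← smul_sub, ← smul_add]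
    congr 1
    have e := hu.2 x hx y hy t ht
    rw [← sub_eq_zero, ← e]
    abel
  have e7 : csum H N (fun t => csum H N (fun h => E h (h * t⁻¹) (h * t⁻¹ * y) • u x t))
      - csum H N (fun t => csum H N (fun h => E h t⁻¹ (t⁻¹ * y) • u x t))
      + (capExt p H N u w).2 x (x • f y)
      = V x - csum H N (fun t => theta p H N w f (t⁻¹ * y) • u x t) := by
    rw [e4, ← sub_eq_add_neg, ← csum_sub hN, ← csum_sub hN, ← csum_sub hN]
    refine csum_congr H N fun t ht => ?_
    rw [← csum_sub hN, ← sub_smul, ← e5 t ht, sub_smul]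
    congr 1
    rw [← csum_zsmul hN]
    exact csum_congr H N fun h _ => (sub_smul _ _ _).symm
  show pairC (capExt p H N u w) f x y - _ = dd1 (fun z => G1 z + V z) x y
  rw [e6] at e7
  simp only [pairC, dd1, e1, e2, e3, smul_add, neg_smul, sub_neg_eq_add]
  rw [← sub_eq_zero] at e7 ⊢
  rw [← e7]
  abel

end cap

end FLTAgent.Global
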